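import Fermat.Agent.S28.Defs

/-!
# S28: formal facts on Laurent series (shared)
-/

set_option autoImplicit false

noncomputable section

namespace Fermat.Agent.S28

open ModularCurve Polynomial

section LeadsWith

variable {R : Type*} [CommRing R]

/-- `x = a t^n + higher order terms`. -/
def LeadsWith (x : LaurentSeries R) (n : ℤ) (a : R) : Prop :=
  x.coeff n = a ∧ ∀ m < n, x.coeff m = 0

theorem LeadsWith.coeff_eq {x : LaurentSeries R} {n : ℤ} {a : R} (h : LeadsWith x n a) :
    x.coeff n = a := h.1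

theorem LeadsWith.coeff_of_lt {x : LaurentSeries R} {n : ℤ} {a : R} (h : LeadsWith x n a)
    {m : ℤ} (hm : m < n) : x.coeff m = 0 := h.2 m hm

theorem LeadsWith.ne_zero {x : LaurentSeries R} {n : ℤ} {a : R} (h : LeadsWith x n a)
    (ha : a ≠ 0) : x ≠ 0 := by
  rintro rfl
  exact ha (by simpa using h.1.symm)

theorem LeadsWith.unique {x : LaurentSeries R} {n m : ℤ} {a b : R} (h : LeadsWith x n a)
    (h' : LeadsWith x m b) (ha : a ≠ 0) (hb : b ≠ 0) : n = m ∧ a = b := by
  have hnm : n = m := by
    rcases lt_trichotomy n m with hlt | heq | hgt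
    · exact absurd (h.1.symm.trans (h'.2 n hlt)) ha
    · exact heq
    · exact absurd (h'.1.symm.trans (h.2 m hgt)) hb
  subst hnm
  exact ⟨rfl, h.1.symm.trans h'.1⟩

theorem leadsWith_single (n : ℤ) (a : R) : LeadsWith (HahnSeries.single n a) n a :=
  ⟨HahnSeries.coeff_single_same n a, fun _ hm => HahnSeries.coeff_single_of_ne hm.ne⟩

theorem leadsWith_one : LeadsWith (1 : LaurentSeries R) 0 1 := leadsWith_single 0 1

theorem leadsWith_C (a : R) : LeadsWith (HahnSeries.C a : LaurentSeries R) 0 a :=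
  leadsWith_single 0 a

theorem LeadsWith.mul {x y : LaurentSeries R} {n m : ℤ} {a b : R} (hx : LeadsWith x n a)
    (hy : LeadsWith y m b) : LeadsWith (x * y) (n + m) (a * b) := by
  have key : ∀ k : ℤ, ∀ ij ∈ Finset.antidiagonal x.isPWO_support y.isPWO_support k,
      n ≤ ij.1 ∧ m ≤ ij.2 ∧ ij.1 + ij.2 = k := by
    intro k ij hij
    obtain ⟨h1, h2, h3⟩ := Finset.mem_antidiagonal.mp hij
    refine ⟨?_, ?_, h3⟩
    · by_contra hlt
      exact h1 (hx.2 _ (not_le.mp hlt))
    · by_contra hlt
      exact h2 (hy.2 _ (not_le.mp hlt))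
  constructor
  · rw [HahnSeries.coeff_mul]
    by_cases hab : x.coeff n = 0 ∨ y.coeff m = 0
    · have : a * b = 0 := by
        rcases hab with h | h
        · rw [← hx.1, h, zero_mul]
        · rw [← hy.1, h, mul_zero]
      rw [this]
      refine Finset.sum_eq_zero fun ij hij => ?_
      obtain ⟨h1, h2, h3⟩ := key _ ij hij
      have e1 : ij.1 = n := by omega
      have e2 : ij.2 = m := by omega
      rw [e1, e2, hx.1, hy.1, this]
    · push Not at hab
      rw [Finset.sum_eq_single (n, m)]
      · rw [hx.1, hy.1]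
      · intro ij hij hne
        obtain ⟨h1, h2, h3⟩ := key _ ij hij
        exact absurd (Prod.ext (by show ij.1 = n; omega) (by show ij.2 = m; omega)) hne
      · intro hnot
        exact absurd (Finset.mem_antidiagonal.mpr ⟨hab.1, hab.2, rfl⟩) hnot
  · intro k hk
    rw [HahnSeries.coeff_mul]
    refine Finset.sum_eq_zero fun ij hij => ?_
    obtain ⟨h1, h2, h3⟩ := key _ ij hij
    omega

theorem LeadsWith.pow {x : LaurentSeries R} {n : ℤ} {a : R} (hx : LeadsWith x n a) (e : ℕ) :
    LeadsWith (x ^ e) (e * n) (a ^ e) := by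
  induction e with
  | zero => simpa using leadsWith_one
  | succ e ih =>
    have := ih.mul hx
    rw [pow_succ, pow_succ]
    convert this using 1
    push_cast; ring

theorem LeadsWith.smul {x : LaurentSeries R} {n : ℤ} {a : R} (hx : LeadsWith x n a) (c : R) :
    LeadsWith (c • x) n (c * a) :=
  ⟨by rw [HahnSeries.coeff_smul, hx.1, smul_eq_mul],
    fun m hm => by rw [HahnSeries.coeff_smul, hx.2 m hm, smul_zero]⟩

theorem LeadsWith.neg {x : LaurentSeries R} {n : ℤ} {a : R} (hx : LeadsWith x n a) :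
    LeadsWith (-x) n (-a) :=
  ⟨by rw [HahnSeries.coeff_neg, hx.1], fun m hm => by rw [HahnSeries.coeff_neg, hx.2 m hm, neg_zero]⟩

/-- adding a term of higher order -/
theorem LeadsWith.add_of_lt {x y : LaurentSeries R} {n m : ℤ} {a b : R} (hx : LeadsWith x n a)
    (hy : LeadsWith y m b) (hnm : n < m) : LeadsWith (x + y) n a :=
  ⟨by rw [HahnSeries.coeff_add, hx.1, hy.2 n hnm, add_zero],
    fun k hk => by rw [HahnSeries.coeff_add, hx.2 k hk, hy.2 k (hk.trans hnm), add_zero]⟩

theorem LeadsWith.qExpand {x : LaurentSeries R} {n : ℤ} {a : R} (hx : LeadsWith x n a)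
    (e : ℕ) [NeZero e] : LeadsWith (qExpand R e x) (e * n) a := by
  refine ⟨by rw [qExpand_coeff_mul, hx.1], fun m hm => ?_⟩
  by_cases hd : (e : ℤ) ∣ m
  · obtain ⟨m', rfl⟩ := hd
    rw [qExpand_coeff_mul]
    have he : (0 : ℤ) < e := by exact_mod_cast Nat.pos_of_ne_zero (NeZero.ne e)
    exact hx.2 _ (lt_of_mul_lt_mul_left hm he.le)
  · exact qExpand_coeff_of_not_dvd e x hd

theorem LeadsWith.scale {x : LaurentSeries R} {n : ℤ} {a : R} (hx : LeadsWith x n a) (c : Rˣ) :
    LeadsWith (scale c x) n (((c ^ n : Rˣ) : R) * a) :=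
  ⟨by rw [scale_coeff, hx.1], fun m hm => by rw [scale_coeff, hx.2 m hm, mul_zero]⟩

theorem exists_leadsWith {x : LaurentSeries R} (hx : x ≠ 0) :
    ∃ (n : ℤ) (a : R), a ≠ 0 ∧ LeadsWith x n a :=
  ⟨x.order, x.coeff x.order, fun h => hx (HahnSeries.coeff_order_eq_zero.mp h), rfl,
    fun _ hm => HahnSeries.coeff_eq_zero_of_lt_order hm⟩

theorem leadsWith_ofPowerSeries (f : PowerSeries R) :
    LeadsWith (HahnSeries.ofPowerSeries ℤ R f) 0 (PowerSeries.constantCoeff f) := by
  refine ⟨?_, fun m hm => ofPowerSeries_coeff_of_neg f hm⟩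
  have := HahnSeries.ofPowerSeries_apply_coeff (Γ := ℤ) f 0
  simpa using this

end LeadsWith

section Inv

variable {k : Type*} [Field k]

theorem LeadsWith.inv {x : LaurentSeries k} {n : ℤ} {a : k} (hx : LeadsWith x n a) (ha : a ≠ 0) :
    LeadsWith x⁻¹ (-n) a⁻¹ := by
  have hx0 := hx.ne_zero ha
  obtain ⟨m, b, hb, hy⟩ := exists_leadsWith (inv_ne_zero hx0)
  have h1 := hx.mul hy
  rw [mul_inv_cancel₀ hx0] at h1
  obtain ⟨e1, e2⟩ := h1.unique leadsWith_one (mul_ne_zero ha hb) one_ne_zero
  have hm : m = -n := by omega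
  have hb' : b = a⁻¹ := eq_inv_of_mul_eq_one_right e2
  rwa [hm, hb'] at hy

end Inv

section Basic

variable (R : Type*) [CommRing R]

theorem leadsWith_jqModC : LeadsWith (jqModC R) (-1) 1 :=
  ⟨coeff_jqModC_neg_one R, fun _ hm => coeff_jqModC_of_lt R hm⟩

theorem constantCoeff_map_intCast (f : PowerSeries ℤ) :
    PowerSeries.constantCoeff (f.map (Int.castRingHom R)) =
      ((PowerSeries.constantCoeff f : ℤ) : R) := by
  rw [← PowerSeries.coeff_zero_eq_constantCoeff_apply, PowerSeries.coeff_map,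
    PowerSeries.coeff_zero_eq_constantCoeff_apply]
  rfl

theorem leadsWith_DeltaC : LeadsWith (DeltaC R) 1 1 := by
  have := (leadsWith_single (R := R) 1 1).mul
    (leadsWith_ofPowerSeries (dedekindEtaUnit.map (Int.castRingHom R)))
  rw [constantCoeff_map_intCast, constantCoeff_dedekindEtaUnit] at this
  simpa [DeltaC] using this

theorem leadsWith_DeltaInvC : LeadsWith (DeltaInvC R) (-1) 1 := by
  have := (leadsWith_single (R := R) (-1) 1).mul
    (leadsWith_ofPowerSeries (dedekindEtaUnitInv.map (Int.castRingHom R)))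
  rw [constantCoeff_map_intCast, constantCoeff_dedekindEtaUnitInv] at this
  simpa [DeltaInvC] using this

theorem leadsWith_E4cubeC : LeadsWith (E4cubeC R) 0 1 := by
  have := leadsWith_ofPowerSeries ((eisenstein4 ^ 3).map (Int.castRingHom R))
  rw [constantCoeff_map_intCast, map_pow (PowerSeries.constantCoeff (R := ℤ)),
    constantCoeff_eisenstein4] at this
  simpa [E4cubeC] using this

theorem DeltaC_mul_DeltaInvC : DeltaC R * DeltaInvC R = 1 := by
  rw [DeltaC, DeltaInvC, mul_mul_mul_comm, HahnSeries.single_mul_single, ← map_mul, ← map_mul,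
    dedekindEtaUnit_mul_inv]
  simp

theorem jqModC_eq : jqModC R = E4cubeC R * DeltaInvC R := by
  rw [jqModC, E4cubeC, DeltaInvC, jNum, map_mul, map_mul]
  ring

theorem jqModC_mul_DeltaC : jqModC R * DeltaC R = E4cubeC R := by
  rw [jqModC_eq, mul_assoc, mul_comm (DeltaInvC R), DeltaC_mul_DeltaInvC, mul_one]

end Basic

section ScaleLemmas

variable {R : Type*} [CommRing R]

@[simp] theorem scale_one_apply (x : LaurentSeries R) : scale (1 : Rˣ) x = x := by
  ext n; simp

theorem scale_scale (c d : Rˣ) (x : LaurentSeries R) : scale c (scale d x) = scale (c * d) x := by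
  ext n
  simp only [scale_coeff, mul_zpow, Units.val_mul, mul_assoc]

theorem scale_injective (c : Rˣ) : Function.Injective (scale c) := by
  intro x y h
  have := congrArg (scale c⁻¹) h
  simpa [scale_scale] using this

@[simp] theorem scale_C (c : Rˣ) (a : R) : scale c (HahnSeries.C a) = HahnSeries.C a := by
  ext n
  rw [scale_coeff, HahnSeries.C_apply, HahnSeries.coeff_single]
  split_ifs with h
  · subst h; simp
  · simp

/-- the `Algebra R (LaurentSeries R)` instance found by unification is the expected one. -/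
theorem algebraMap_eq_C (a : R) : algebraMap R (LaurentSeries R) a = HahnSeries.C a := by
  have h1 : algebraMap R (PowerSeries R) a = PowerSeries.C a := by
    simp
  rw [HahnSeries.algebraMap_apply', h1, HahnSeries.ofPowerSeries_C]

theorem smul_eq_C_mul (a : R) (x : LaurentSeries R) : a • x = HahnSeries.C a * x :=
  HahnSeries.C_mul_eq_smul.symm

theorem scale_algebraMap (c : Rˣ) (a : R) :
    scale c (algebraMap R (LaurentSeries R) a) = algebraMap R (LaurentSeries R) a := by
  rw [algebraMap_eq_C]; exact scale_C c a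

theorem scale_qExpand (c : Rˣ) (e : ℕ) [NeZero e] (x : LaurentSeries R) :
    scale c (qExpand R e x) = qExpand R e (scale (c ^ e) x) := by
  ext n
  by_cases hd : (e : ℤ) ∣ n
  · obtain ⟨m, rfl⟩ := hd
    rw [scale_coeff, qExpand_coeff_mul, qExpand_coeff_mul, scale_coeff, zpow_mul, zpow_natCast]
  · rw [scale_coeff, qExpand_coeff_of_not_dvd e _ hd, qExpand_coeff_of_not_dvd e _ hd, mul_zero]

/-- `t ↦ ζ t` fixes series in `t^p` when `ζ^p = 1`. -/
theorem scale_qExpand_of_pow_eq_one (c : Rˣ) (e : ℕ) [NeZero e] (hc : c ^ e = 1)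
    (x : LaurentSeries R) : scale c (qExpand R e x) = qExpand R e x := by
  rw [scale_qExpand, hc, scale_one_apply]

theorem mem_range_qExpand_iff (e : ℕ) [NeZero e] (x : LaurentSeries R) :
    x ∈ Set.range (qExpand R e) ↔ ∀ n : ℤ, ¬ (e : ℤ) ∣ n → x.coeff n = 0 := by
  constructor
  · rintro ⟨y, rfl⟩ n hn
    exact qExpand_coeff_of_not_dvd e y hn
  · intro h
    have he : (0 : ℤ) < e := by exact_mod_cast Nat.pos_of_ne_zero (NeZero.ne e)
    refine ⟨HahnSeries.ofSuppBddBelow (fun n => x.coeff (e * n)) ?_, ?_⟩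
    · by_cases hx : x = 0
      · subst hx
        simp
      · refine ⟨x.order / e - 1, fun n hn => ?_⟩
        by_contra hlt
        apply hn
        apply HahnSeries.coeff_eq_zero_of_lt_order
        have h1 : n + 1 ≤ x.order / e := by omega
        have h2 : (n + 1) * e ≤ x.order := (Int.le_ediv_iff_mul_le he).mp h1
        nlinarith
    · ext n
      by_cases hd : (e : ℤ) ∣ n
      · obtain ⟨m, rfl⟩ := hd
        rw [qExpand_coeff_mul]
        rfl
      · rw [qExpand_coeff_of_not_dvd e _ hd, h n hd]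

theorem qExpand_algebraMap (e : ℕ) [NeZero e] (a : R) :
    qExpand R e (algebraMap R (LaurentSeries R) a) = algebraMap R (LaurentSeries R) a := by
  rw [algebraMap_eq_C]; exact qExpand_C e a

end ScaleLemmas

section CoeffMapLemmas

variable {R S : Type*} [CommRing R] [CommRing S] (φ : R →+* S)

theorem coeffMap_scale (c : Rˣ) (x : LaurentSeries R) :
    coeffMap φ (scale c x) = scale (Units.map (φ : R →* S) c) (coeffMap φ x) := by
  ext n
  rw [coeffMap_coeff, scale_coeff, scale_coeff, coeffMap_coeff, map_mul, ← map_zpow]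
  rfl

theorem coeffMap_ofPowerSeries_intCast (f : PowerSeries ℤ) :
    coeffMap φ (HahnSeries.ofPowerSeries ℤ R (f.map (Int.castRingHom R))) =
      HahnSeries.ofPowerSeries ℤ S (f.map (Int.castRingHom S)) := by
  rw [coeffMap_ofPowerSeries,
    ← RingHom.comp_apply (PowerSeries.map φ) (PowerSeries.map (Int.castRingHom R)),
    ← PowerSeries.map_comp, RingHom.ext_int (φ.comp (Int.castRingHom R)) (Int.castRingHom S)]

theorem coeffMap_DeltaC : coeffMap φ (DeltaC R) = DeltaC S := by
  rw [DeltaC, map_mul, coeffMap_single, map_one, coeffMap_ofPowerSeries_intCast, DeltaC]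

theorem coeffMap_DeltaInvC : coeffMap φ (DeltaInvC R) = DeltaInvC S := by
  rw [DeltaInvC, map_mul, coeffMap_single, map_one, coeffMap_ofPowerSeries_intCast, DeltaInvC]

theorem coeffMap_E4cubeC : coeffMap φ (E4cubeC R) = E4cubeC S := by
  rw [E4cubeC, coeffMap_ofPowerSeries_intCast, E4cubeC]

theorem coeffMap_injective (hφ : Function.Injective φ) : Function.Injective (coeffMap φ) := by
  intro x y h
  ext n
  apply hφ
  rw [← coeffMap_coeff, ← coeffMap_coeff, h]

theorem coeffMap_C (a : R) : coeffMap φ (HahnSeries.C a) = HahnSeries.C (φ a) :=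
  coeffMap_single φ 0 a

end CoeffMapLemmas

section PolyInJ

variable {R : Type*} [CommRing R]

/-- A polynomial of degree `n` in `x = t^m(1 + ⋯)`, `m < 0`, leads with `t^{m n}`. -/
theorem leadsWith_aeval {x : LaurentSeries R} {m : ℤ} (hx : LeadsWith x m 1) (hm : m < 0)
    (P : Polynomial R) : LeadsWith (Polynomial.aeval x P) (P.natDegree * m) P.leadingCoeff := by
  have hterm : ∀ i : ℕ, LeadsWith (HahnSeries.C (P.coeff i) * x ^ i) (i * m) (P.coeff i) :=
    fun i => by simpa using (leadsWith_C (P.coeff i)).mul (hx.pow i)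
  rw [Polynomial.aeval_def, Polynomial.eval₂_eq_sum_range]
  simp only [algebraMap_eq_C]
  constructor
  · rw [HahnSeries.coeff_sum, Finset.sum_eq_single P.natDegree]
    · exact (hterm _).1
    · intro i hi hne
      have hlt : i < P.natDegree := lt_of_le_of_ne (Nat.lt_succ_iff.mp (Finset.mem_range.mp hi)) hne
      refine (hterm i).2 _ ?_
      have : (i : ℤ) < P.natDegree := by exact_mod_cast hlt
      nlinarith
    · intro h
      exact absurd (Finset.mem_range.mpr (Nat.lt_succ_self _)) h
  · intro k hk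
    rw [HahnSeries.coeff_sum]
    refine Finset.sum_eq_zero fun i hi => (hterm i).2 _ ?_
    have : (i : ℤ) ≤ P.natDegree := by exact_mod_cast Nat.lt_succ_iff.mp (Finset.mem_range.mp hi)
    nlinarith

theorem aeval_injective_of_leadsWith {x : LaurentSeries R} {m : ℤ} (hx : LeadsWith x m 1)
    (hm : m < 0) : Function.Injective (Polynomial.aeval (R := R) x) := by
  rw [injective_iff_map_eq_zero]
  intro P hP
  have := (leadsWith_aeval hx hm P).1
  rw [hP, HahnSeries.coeff_zero] at this
  exact Polynomial.leadingCoeff_eq_zero.mp this.symm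

theorem aeval_jqModC_injective : Function.Injective (Polynomial.aeval (R := R) (jqModC R)) :=
  aeval_injective_of_leadsWith (leadsWith_jqModC R) (by norm_num)

theorem leadsWith_qExpand_scale_jqModC (c : Rˣ) (e : ℕ) [NeZero e] :
    LeadsWith (qExpand R e (scale c (jqModC R))) (-(e : ℤ)) ((c⁻¹ : Rˣ) : R) := by
  have := ((leadsWith_jqModC R).scale c).qExpand e
  simpa using this

/-- `j(c t^e) = j(c' t^e')` forces `e = e'`, `c = c'`. -/
theorem qExpand_scale_jqModC_inj [Nontrivial R] {c c' : Rˣ} {e e' : ℕ} [NeZero e] [NeZero e']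
    (h : qExpand R e (scale c (jqModC R)) = qExpand R e' (scale c' (jqModC R))) :
    e = e' ∧ c = c' := by
  have h1 := leadsWith_qExpand_scale_jqModC c e
  have h2 := leadsWith_qExpand_scale_jqModC c' e'
  rw [h] at h1
  obtain ⟨e1, e2⟩ := h1.unique h2 (Units.ne_zero _) (Units.ne_zero _)
  refine ⟨by omega, ?_⟩
  exact inv_injective (Units.ext e2)

end PolyInJ

end Fermat.Agent.S28

end
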