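import Fermat.Agent.S28.Defs

/-!
# S28, WP-5: the `q`-expansions of `E₄` and `Δ`
-/

set_option autoImplicit false

noncomputable section

namespace Fermat.Agent.S28

open ModularCurve UpperHalfPlane ModularForm EisensteinSeries MatrixGroups
open scoped Real

/-- (QE1) -/
theorem qExpansion_E4 : qExpansion 1 E₄ = eisenstein4.map (Int.castRingHom ℂ) := by
  ext m
  rw [E_qExpansion_coeff _ ⟨2, rfl⟩, show bernoulli 4 = -1 / 30 by decide +kernel]
  simp only [PowerSeries.coeff_map, eisenstein4, PowerSeries.coeff_mk]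
  split_ifs with hm
  · simp
  · simp only [ArithmeticFunction.sigma_apply]
    push_cast
    norm_num

namespace QExp

open Filter Topology
open scoped PowerSeries.WithPiTopology

/-- The Taylor series at `0` of a function `ℂ → ℂ`. -/
def tay (f : ℂ → ℂ) : PowerSeries ℂ :=
  .mk fun m ↦ (↑m.factorial)⁻¹ * iteratedDeriv m f 0

theorem tay_coeff (f : ℂ → ℂ) (m : ℕ) :
    (tay f).coeff m = (↑m.factorial)⁻¹ * iteratedDeriv m f 0 := by
  simp [tay]

theorem qExpansion_eq_tay (h : ℝ) (f : ℍ → ℂ) : qExpansion h f = tay (cuspFunction h f) := rfl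

theorem tay_congr {f g : ℂ → ℂ} (h : f =ᶠ[𝓝 0] g) : tay f = tay g := by
  ext m
  rw [tay_coeff, tay_coeff, h.iteratedDeriv_eq]

theorem tay_mul {f g : ℂ → ℂ} (hf : AnalyticAt ℂ f 0) (hg : AnalyticAt ℂ g 0) :
    tay (f * g) = tay f * tay g := by
  ext
  simp only [tay_coeff,
    iteratedDeriv_mul hf.contDiffAt hg.contDiffAt, Finset.mul_sum, PowerSeries.coeff_mul,
    Finset.Nat.sum_antidiagonal_eq_sum_range_succ_mk, Nat.succ_eq_add_one]
  refine Finset.sum_congr rfl fun i hi ↦ ?_
  rw [Nat.cast_choose _ (by grind)]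
  field_simp [Nat.factorial_ne_zero]

theorem tay_const (c : ℂ) : tay (fun _ => c) = PowerSeries.C c := by
  ext m
  rw [tay_coeff, PowerSeries.coeff_C]
  rcases m with _ | m
  · simp
  · simp [iteratedDeriv_const]

theorem tay_one : tay 1 = 1 := by
  have := tay_const 1
  rw [map_one] at this
  exact this

theorem tay_id : tay (fun q => q) = PowerSeries.X := by
  ext m
  rw [tay_coeff, PowerSeries.coeff_X]
  rcases m with _ | _ | m
  · simp
  · simp [iteratedDeriv_one]
  · rw [iteratedDeriv_succ', iteratedDeriv_succ']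
    simp

theorem tay_sub {f g : ℂ → ℂ} (hf : AnalyticAt ℂ f 0) (hg : AnalyticAt ℂ g 0) :
    tay (f - g) = tay f - tay g := by
  ext m
  simp only [tay_coeff, map_sub]
  rw [iteratedDeriv_sub hf.contDiffAt hg.contDiffAt]
  ring

theorem tay_pow {f : ℂ → ℂ} (hf : AnalyticAt ℂ f 0) (n : ℕ) :
    tay (f ^ n) = tay f ^ n := by
  induction n with
  | zero => simpa using tay_one
  | succ n ih => rw [pow_succ, tay_mul (hf.pow n) hf, ih, pow_succ]

theorem tay_prod {ι : Type*} (s : Finset ι) (f : ι → ℂ → ℂ) (hf : ∀ i, AnalyticAt ℂ (f i) 0) :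
    tay (∏ i ∈ s, f i) = ∏ i ∈ s, tay (f i) := by
  classical
  induction s using Finset.induction_on with
  | empty => simpa using tay_one
  | insert a s ha ih =>
    rw [Finset.prod_insert ha, Finset.prod_insert ha, tay_mul (hf a), ih]
    exact Finset.analyticAt_prod _ fun i _ => hf i

theorem tendsto_iteratedDeriv {ι : Type*} {φ : Filter ι} {F : ι → ℂ → ℂ} {f : ℂ → ℂ} {U : Set ℂ}
    (hU : IsOpen U) (hf : TendstoLocallyUniformlyOn F f φ U)
    (hF : ∀ᶠ n in φ, DifferentiableOn ℂ (F n) U) (m : ℕ) :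
    TendstoLocallyUniformlyOn (fun i => iteratedDeriv m (F i)) (iteratedDeriv m f) φ U ∧
      ∀ᶠ n in φ, DifferentiableOn ℂ (iteratedDeriv m (F n)) U := by
  induction m with
  | zero => simpa using ⟨hf, hF⟩
  | succ m ih =>
    refine ⟨?_, ?_⟩
    · have := ih.1.deriv ih.2 hU
      simpa only [iteratedDeriv_succ, Function.comp_def] using this
    · filter_upwards [ih.2] with n hn
      rw [iteratedDeriv_succ]
      exact hn.deriv hU

theorem tendsto_tay {ι : Type*} {φ : Filter ι} {F : ι → ℂ → ℂ} {f : ℂ → ℂ} {U : Set ℂ}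
    (hU : IsOpen U) (h0 : (0 : ℂ) ∈ U) (hf : TendstoLocallyUniformlyOn F f φ U)
    (hF : ∀ᶠ n in φ, DifferentiableOn ℂ (F n) U) :
    Tendsto (fun i => tay (F i)) φ (𝓝 (tay f)) := by
  rw [PowerSeries.WithPiTopology.tendsto_iff_coeff_tendsto]
  intro m
  simp only [tay_coeff]
  exact ((tendsto_iteratedDeriv hU hf hF m).1.tendsto_at h0).const_mul _

/-- the analytic Euler product. -/
def eulerFun (q : ℂ) : ℂ := ∏' n : ℕ, (1 - q ^ (n + 1))

theorem tay_factor (n : ℕ) : tay (fun q => 1 - q ^ (n + 1)) = 1 - PowerSeries.X ^ (n + 1) := by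
  have h1 : (fun q : ℂ => 1 - q ^ (n + 1)) = 1 - (fun q : ℂ => q) ^ (n + 1) := by
    ext q; simp
  rw [h1, tay_sub (by exact analyticAt_const) (by fun_prop), tay_one, tay_pow (by fun_prop), tay_id]

theorem tay_eulerFun : tay eulerFun = ∏' n : ℕ, (1 - PowerSeries.X ^ (n + 1)) := by
  have h1 := multipliableLocallyUniformlyOn_one_sub_pow.hasProdLocallyUniformlyOn
  rw [hasProdLocallyUniformlyOn_iff_tendstoLocallyUniformlyOn] at h1
  have h2 := tendsto_tay Metric.isOpen_ball (by simp) h1 (.of_forall fun s => by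
    simpa [Finset.prod_fn] using DifferentiableOn.finsetProd (fun _ _ ↦ by fun_prop))
  have h3 : ∀ s : Finset ℕ, tay (fun q => ∏ n ∈ s, (1 - q ^ (n + 1))) =
      ∏ n ∈ s, (1 - PowerSeries.X ^ (n + 1)) := by
    intro s
    have : (fun q : ℂ => ∏ n ∈ s, (1 - q ^ (n + 1))) = ∏ n ∈ s, fun q : ℂ => (1 - q ^ (n + 1)) := by
      ext q; simp
    rw [this, tay_prod _ _ (fun i => by fun_prop)]
    simp only [tay_factor]
  simp only [h3] at h2
  have h4 : HasProd (fun n : ℕ => (1 - PowerSeries.X ^ (n + 1) : PowerSeries ℂ)) (tay eulerFun) := h2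
  exact h4.tprod_eq.symm

theorem map_etaProd :
    etaProd.map (Int.castRingHom ℂ) = ∏' n : ℕ, (1 - PowerSeries.X ^ (n + 1) : PowerSeries ℂ) := by
  have hc : Continuous (PowerSeries.map (Int.castRingHom ℂ)) := by
    rw [continuous_iff_continuousAt]
    intro x
    rw [ContinuousAt, PowerSeries.WithPiTopology.tendsto_iff_coeff_tendsto]
    intro d
    simp only [PowerSeries.coeff_map]
    exact (continuous_of_discreteTopology.comp
      (PowerSeries.WithPiTopology.continuous_coeff ℤ d)).tendsto x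
  rw [etaProd, (PowerSeries.WithPiTopology.multipliable_one_sub_X_pow ℤ).map_tprod _ hc]
  simp

theorem analyticAt_eulerFun : AnalyticAt ℂ eulerFun 0 :=
  differentiableOn_tprod_one_sub_pow.analyticAt (Metric.ball_mem_nhds _ one_pos)

end QExp

open QExp in
/-- (QE2) -/
theorem qExpansion_discriminant :
    qExpansion 1 ModularForm.discriminant =
      PowerSeries.X * dedekindEtaUnit.map (Int.castRingHom ℂ) := by
  have h1 : cuspFunction 1 ModularForm.discriminant =ᶠ[nhds 0] (fun q => q) * eulerFun ^ 24 := by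
    filter_upwards [Metric.ball_mem_nhds (0 : ℂ) one_pos] with q hq
    rw [discriminant_cuspFunction_eqOn hq]
    simp only [Pi.mul_apply, Pi.pow_apply, eulerFun]
    rw [(multipliable_one_sub_pow (by simpa using hq)).tprod_pow 24]
  rw [qExpansion_eq_tay, tay_congr h1, tay_mul (by fun_prop) (analyticAt_eulerFun.pow 24), tay_id,
    tay_pow analyticAt_eulerFun, tay_eulerFun, dedekindEtaUnit, map_pow, map_etaProd]

end Fermat.Agent.S28

end
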