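import Fermat.Agent.S28.Defs
import Fermat.Prelude.Thm_UpperHalfPlane_qExpansion_prod
import Fermat.Prelude.Thm_UpperHalfPlane_qExpansion_coeff_nat_mul
import Fermat.Prelude.Thm_ModularForm_heckeT_slash_eq_self_of_mem_Gamma0

/-!
# S28, WP-7: the norm form
-/

set_option autoImplicit false

noncomputable section

namespace Fermat.Agent.S28

open ModularCurve UpperHalfPlane ModularForm EisensteinSeries MatrixGroups
open scoped Real Manifold

/-- `exp(2πi/p)` as a unit of `ℂ`. -/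
def zetaC (p : ℕ) : ℂˣ := Units.mk0 (Complex.exp (2 * π * Complex.I / p)) (Complex.exp_ne_zero _)

theorem isPrimitiveRoot_zetaC (p : ℕ) [NeZero p] : IsPrimitiveRoot (zetaC p) p :=
  IsPrimitiveRoot.coe_units_iff.mp (Complex.isPrimitiveRoot_exp p (NeZero.ne p))

namespace NormForm

open Function

local notation "𝕢" => Periodic.qParam

/-- the regularity package needed to speak about `q`-expansions with period `h`. -/
structure Good (h : ℝ) (g : ℍ → ℂ) : Prop where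
  per : Periodic (g ∘ ofComplex) h
  holo : MDiff g
  bdd : IsBoundedAtImInfty g

variable {h : ℝ} {g g' : ℍ → ℂ}

theorem Good.analytic (hh : 0 < h) (hg : Good h g) : AnalyticAt ℂ (cuspFunction h g) 0 :=
  analyticAt_cuspFunction_zero hh hg.per hg.holo hg.bdd

theorem qParam_add_period (hh : h ≠ 0) (w : ℂ) : 𝕢 h (w + h) = 𝕢 h w := by
  have hh' : (h : ℂ) ≠ 0 := by exact_mod_cast hh
  simp only [Periodic.qParam]
  rw [show 2 * π * Complex.I * (w + h) / h = 2 * π * Complex.I * w / h + 2 * π * Complex.I by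
    field_simp]
  exact Complex.exp_periodic _

theorem good_of_hasSum (hh : 0 < h) (hol : MDiff g) {c : ℕ → ℂ}
    (hs : ∀ τ : ℍ, HasSum (fun m ↦ c m • 𝕢 h τ ^ m) (g τ)) : Good h g := by
  refine ⟨?_, hol, isBoundedAtImInfty_of_hasSum_qExpansion hh hs⟩
  intro w
  by_cases hw : 0 < w.im
  · have hw' : 0 < (w + h).im := by simpa using hw
    simp only [comp_apply, ofComplex_apply_of_im_pos hw', ofComplex_apply_of_im_pos hw]
    have h1 := hs ⟨w + h, hw'⟩
    have h2 := hs ⟨w, hw⟩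
    have h3 : 𝕢 h ((⟨w + h, hw'⟩ : ℍ) : ℂ) = 𝕢 h ((⟨w, hw⟩ : ℍ) : ℂ) :=
      qParam_add_period hh.ne' w
    rw [h3] at h1
    exact h1.unique h2
  · have hw1 : (w + h).im ≤ 0 := by simpa using hw
    have hw0 : w.im ≤ 0 := not_lt.mp hw
    simp only [comp_apply, ofComplex_apply_eq_of_im_nonpos hw1 hw0]

theorem qExpansion_eq_of_hasSum (hh : 0 < h) (hol : MDiff g) {C : PowerSeries ℂ}
    (hs : ∀ τ : ℍ, HasSum (fun m ↦ C.coeff m • 𝕢 h τ ^ m) (g τ)) :
    qExpansion h g = C := by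
  have hg := good_of_hasSum hh hol hs
  ext m
  exact (UpperHalfPlane.qExpansion_coeff_unique (ContinuousMap.mk g hol.continuous) hh
    (hg.analytic hh) hs m).symm

theorem hasSum_expand (A : PowerSeries ℂ) (N : ℕ) (hN : N ≠ 0) (t s : ℂ)
    (hs : HasSum (fun m ↦ A.coeff m • (t ^ N) ^ m) s) :
    HasSum (fun n ↦ (A.expand N hN).coeff n • t ^ n) s := by
  have hinj : Injective (fun m : ℕ => N * m) := fun a b hab =>
    Nat.eq_of_mul_eq_mul_left (Nat.pos_of_ne_zero hN) hab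
  refine (hinj.hasSum_iff ?_).mp ?_
  · intro n hn
    rw [PowerSeries.coeff_expand_of_not_dvd, zero_smul]
    rintro ⟨m, rfl⟩
    exact hn ⟨m, rfl⟩
  · convert hs using 2 with m
    simp only [comp_apply, PowerSeries.coeff_expand_mul, pow_mul]

theorem hasSum_rescale (A : PowerSeries ℂ) (z t s : ℂ)
    (hs : HasSum (fun m ↦ A.coeff m • (t * z) ^ m) s) :
    HasSum (fun n ↦ (PowerSeries.rescale z A).coeff n • t ^ n) s := by
  convert hs using 2 with m
  simp only [PowerSeries.coeff_rescale, smul_eq_mul, mul_pow]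
  ring

theorem hasSum_smul (A : PowerSeries ℂ) (c t s : ℂ)
    (hs : HasSum (fun m ↦ A.coeff m • t ^ m) s) :
    HasSum (fun n ↦ (c • A).coeff n • t ^ n) (c * s) := by
  have h1 := hs.mul_left c
  have h2 : (fun n ↦ (c • A).coeff n • t ^ n) = fun m ↦ c * (A.coeff m • t ^ m) := by
    funext m
    simp only [map_smul, smul_eq_mul]
    ring
  rw [h2]
  exact h1

theorem hasSum_add (A B : PowerSeries ℂ) (t s s' : ℂ)
    (hs : HasSum (fun m ↦ A.coeff m • t ^ m) s) (hs' : HasSum (fun m ↦ B.coeff m • t ^ m) s') :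
    HasSum (fun n ↦ (A + B).coeff n • t ^ n) (s + s') := by
  have h1 := hs.add hs'
  have h2 : (fun n ↦ (A + B).coeff n • t ^ n) =
      fun m ↦ A.coeff m • t ^ m + B.coeff m • t ^ m := by
    funext m
    simp only [map_add, add_smul]
  rw [h2]
  exact h1

section Form

open P2MW.S_ModularForm_heckeT_slash_eq_self_of_mem_Gamma0.ModularForm.HeckeSlashInvariance
open Matrix.SpecialLinearGroup

variable (p : ℕ) (k : ℤ) (f₁ f₂ : ModularForm 𝒮ℒ k)

/-- the factor `f₁ + (p f₂)|_k α`. -/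
def factor (x : OnePoint (ZMod p)) : ℍ → ℂ :=
  ⇑f₁ + (p : ℂ) • (⇑f₂ ∣[k] heckeRep p x)

variable [Fact p.Prime]

theorem factor_slash (g : SL(2, ℤ)) (x : OnePoint (ZMod p)) :
    factor p k f₁ f₂ x ∣[k] (mapGL ℝ g) = factor p k f₁ f₂ (redMatrix p g • x) := by
  obtain ⟨g', -, hmul⟩ := heckeRep_mul (p := p) (N := 1)
    (fun h => (Fact.out : p.Prime).one_lt.ne' (Nat.dvd_one.mp h)) g (by simp) x
  have h1 : ⇑f₁ ∣[k] (mapGL ℝ g) = ⇑f₁ := f₁.slash_action_eq' _ ⟨g, rfl⟩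
  have h2 : ⇑f₂ ∣[k] (mapGL ℝ g') = ⇑f₂ := f₂.slash_action_eq' _ ⟨g', rfl⟩
  have h3 : ((p : ℂ) • (⇑f₂ ∣[k] heckeRep p x)) ∣[k] (mapGL ℝ g) =
      (p : ℂ) • ((⇑f₂ ∣[k] heckeRep p x) ∣[k] (mapGL ℝ g)) :=
    SL_smul_slash k g _ (p : ℂ)
  rw [factor, factor, SlashAction.add_slash, h1, h3, ← SlashAction.slash_mul, hmul,
    SlashAction.slash_mul, h2]

theorem card_univ_onePoint :
    ((Finset.univ : Finset (OnePoint (ZMod p))).card : ℤ) = (p : ℤ) + 1 := by
  rw [Finset.card_univ]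
  have : Fintype.card (OnePoint (ZMod p)) = p + 1 := by
    rw [show Fintype.card (OnePoint (ZMod p)) = Fintype.card (Option (ZMod p)) from rfl,
      Fintype.card_option, ZMod.card]
  rw [this]
  push_cast
  rfl

omit [Fact p.Prime] in
theorem factor_mdiff (x : OnePoint (ZMod p)) : MDiff (factor p k f₁ f₂ x) :=
  f₁.holo'.add ((f₂.holo'.slash k _).const_smul (p : ℂ))

theorem heckeRep_one_zero (x : OnePoint (ZMod p)) :
    ((heckeRep p x : GL (Fin 2) ℝ) : Matrix (Fin 2) (Fin 2) ℝ) 1 0 = 0 := by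
  have hp : p ≠ 0 := (Fact.out : p.Prime).ne_zero
  induction x using OnePoint.rec with
  | infty => rw [heckeRep_infty, val_heckeDiagMatrix hp]; rfl
  | coe j => rw [heckeRep_coe, val_heckeMatrix hp]; rfl

theorem bdd_levelOne (f : ModularForm 𝒮ℒ k) : IsBoundedAtImInfty f :=
  ModularFormClass.bdd_at_infty f

theorem factor_bdd (x : OnePoint (ZMod p)) : IsBoundedAtImInfty (factor p k f₁ f₂ x) :=
  (bdd_levelOne k f₁).add
    (((bdd_levelOne k f₂).slash k (heckeRep_one_zero p x)).const_smul_left (p : ℂ))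

/-- the norm form as a slash invariant form. -/
def normSIF : SlashInvariantForm 𝒮ℒ (k * ((p : ℤ) + 1)) where
  toFun := ∏ x : OnePoint (ZMod p), factor p k f₁ f₂ x
  slash_action_eq' γ hγ := by
    obtain ⟨g, rfl⟩ := hγ
    rw [← card_univ_onePoint, prod_slash]
    simp only [factor_slash]
    have hdet : |(mapGL ℝ g).det.val| = 1 := by simp
    rw [hdet, one_zpow, one_smul]
    exact Equiv.prod_comp (MulAction.toPerm (redMatrix p g)) (fun x ↦ factor p k f₁ f₂ x)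

theorem prod_factor_bdd :
    IsBoundedAtImInfty (∏ x : OnePoint (ZMod p), factor p k f₁ f₂ x) :=
  Filter.BoundedAtFilter.prod (s := Finset.univ) fun x _ => factor_bdd p k f₁ f₂ x

/-- the norm form as a modular form. -/
def normMF : ModularForm 𝒮ℒ (k * ((p : ℤ) + 1)) where
  toSlashInvariantForm := normSIF p k f₁ f₂
  holo' := MDifferentiable.prod (t := Finset.univ) (fun x _ => factor_mdiff p k f₁ f₂ x)
  bdd_at_cusps' {c} hc := by
    rw [OnePoint.isBoundedAt_iff_exists_SL2Z hc]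
    obtain ⟨γ, rfl⟩ := isCusp_SL2Z_iff'.mp hc
    refine ⟨γ, rfl, ?_⟩
    have : (normSIF p k f₁ f₂).toFun ∣[k * ((p : ℤ) + 1)] γ = (normSIF p k f₁ f₂).toFun :=
      (normSIF p k f₁ f₂).slash_action_eq' _ ⟨γ, rfl⟩
    rw [this]
    exact prod_factor_bdd p k f₁ f₂

theorem coe_normMF :
    ⇑(normMF p k f₁ f₂) = ∏ x : OnePoint (ZMod p), factor p k f₁ f₂ x := rfl

section QExp

variable (f : ModularForm 𝒮ℒ k)

omit [Fact p.Prime] in
theorem good_one : Good 1 f :=
  ⟨by simpa using SlashInvariantFormClass.periodic_comp_ofComplex f one_mem_strictPeriods_SL,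
    f.holo', bdd_levelOne k f⟩

omit [Fact p.Prime] in
theorem hasSum_one (τ : ℍ) :
    HasSum (fun m ↦ (qExpansion 1 f).coeff m • 𝕢 1 τ ^ m) (f τ) := by
  have hg := good_one k f
  exact UpperHalfPlane.hasSum_qExpansion one_pos hg.per hg.holo hg.bdd τ

theorem qParam_diag (τ : ℍ) :
    𝕢 1 ((heckeDiagMatrix p • τ : ℍ) : ℂ) = (𝕢 p τ) ^ (p ^ 2) := by
  have hp : p ≠ 0 := (Fact.out : p.Prime).ne_zero
  have hp' : (p : ℂ) ≠ 0 := by exact_mod_cast hp
  rw [coe_heckeDiagMatrix_smul hp, Periodic.qParam, Periodic.qParam, ← Complex.exp_nat_mul]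
  congr 1
  push_cast
  field_simp

theorem qParam_hecke (j : ℕ) (τ : ℍ) :
    𝕢 1 ((heckeMatrix p j • τ : ℍ) : ℂ) = 𝕢 p τ * ((zetaC p : ℂ) ^ j) := by
  have hp : p ≠ 0 := (Fact.out : p.Prime).ne_zero
  have hp' : (p : ℂ) ≠ 0 := by exact_mod_cast hp
  rw [coe_heckeMatrix_smul hp, Periodic.qParam, Periodic.qParam, zetaC, Units.val_mk0,
    ← Complex.exp_nat_mul, ← Complex.exp_add]
  congr 1
  push_cast
  field_simp

theorem qParam_self (τ : ℍ) : 𝕢 1 (τ : ℂ) = (𝕢 p τ) ^ p := by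
  have hp : p ≠ 0 := (Fact.out : p.Prime).ne_zero
  have hp' : (p : ℂ) ≠ 0 := by exact_mod_cast hp
  rw [Periodic.qParam, Periodic.qParam, ← Complex.exp_nat_mul]
  congr 1
  push_cast
  field_simp

theorem p_ne_zero : p ≠ 0 := (Fact.out : p.Prime).ne_zero

theorem p_pos : (0 : ℝ) < p := by exact_mod_cast (Fact.out : p.Prime).pos

theorem hasSum_self (τ : ℍ) :
    HasSum (fun n ↦ ((qExpansion 1 f).expand p (p_ne_zero p)).coeff n • 𝕢 p τ ^ n) (f τ) :=
  hasSum_expand _ p _ _ _ (by rw [← qParam_self]; exact hasSum_one k f τ)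

theorem hasSum_diag (τ : ℍ) :
    HasSum (fun n ↦ ((p : ℂ) ^ (k - 1) •
      (qExpansion 1 f).expand (p ^ 2) (pow_ne_zero 2 (p_ne_zero p))).coeff n • 𝕢 p τ ^ n)
      ((⇑f ∣[k] heckeDiagMatrix p) τ) := by
  rw [slash_heckeDiagMatrix_apply k (p_ne_zero p)]
  apply hasSum_smul
  apply hasSum_expand
  rw [← qParam_diag]
  exact hasSum_one k f _

theorem hasSum_hecke (j : ℕ) (τ : ℍ) :
    HasSum (fun n ↦ ((p : ℂ)⁻¹ •
      PowerSeries.rescale ((zetaC p : ℂ) ^ j) (qExpansion 1 f)).coeff n • 𝕢 p τ ^ n)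
      ((⇑f ∣[k] heckeMatrix p j) τ) := by
  rw [slash_heckeMatrix_apply k (p_ne_zero p)]
  apply hasSum_smul
  apply hasSum_rescale
  rw [← qParam_hecke]
  exact hasSum_one k f _

/-- the expected expansion of `factor`. -/
def factorQ (x : OnePoint (ZMod p)) : PowerSeries ℂ :=
  (qExpansion 1 f₁).expand p (p_ne_zero p) + (p : ℂ) •
    x.elim ((p : ℂ) ^ (k - 1) • (qExpansion 1 f₂).expand (p ^ 2) (pow_ne_zero 2 (p_ne_zero p)))
      (fun j => (p : ℂ)⁻¹ • PowerSeries.rescale ((zetaC p : ℂ) ^ j.val) (qExpansion 1 f₂))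

theorem hasSum_factor (x : OnePoint (ZMod p)) (τ : ℍ) :
    HasSum (fun n ↦ (factorQ p k f₁ f₂ x).coeff n • 𝕢 p τ ^ n) (factor p k f₁ f₂ x τ) := by
  rw [factor, factorQ, Pi.add_apply, Pi.smul_apply, smul_eq_mul]
  apply hasSum_add _ _ _ _ _ (hasSum_self p k f₁ τ)
  apply hasSum_smul
  induction x using OnePoint.rec with
  | infty => exact hasSum_diag p k f₂ τ
  | coe j => exact hasSum_hecke p k f₂ j.val τ

theorem qExpansion_factor (x : OnePoint (ZMod p)) :
    qExpansion p (factor p k f₁ f₂ x) = factorQ p k f₁ f₂ x :=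
  qExpansion_eq_of_hasSum (p_pos p) (factor_mdiff p k f₁ f₂ x) (hasSum_factor p k f₁ f₂ x)

theorem good_factor (x : OnePoint (ZMod p)) : Good p (factor p k f₁ f₂ x) :=
  good_of_hasSum (p_pos p) (factor_mdiff p k f₁ f₂ x) (hasSum_factor p k f₁ f₂ x)

theorem qExpansion_self :
    qExpansion p f = (qExpansion 1 f).expand p (p_ne_zero p) :=
  qExpansion_eq_of_hasSum (p_pos p) f.holo' (hasSum_self p k f)

theorem prod_range_eq_prod_zmod {M : Type*} [CommMonoid M] (F : ℕ → M) :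
    ∏ j ∈ Finset.range p, F j = ∏ x : ZMod p, F x.val := by
  refine Finset.prod_nbij' (fun j : ℕ ↦ (j : ZMod p)) (fun x : ZMod p ↦ x.val)
    (fun _ _ ↦ Finset.mem_univ _)
    (fun x _ ↦ Finset.mem_range.mpr x.val_lt) (fun j hj ↦ ?_) (fun x _ ↦ ?_) (fun j hj ↦ ?_)
  · exact ZMod.val_cast_of_lt (Finset.mem_range.mp hj)
  · exact ZMod.natCast_zmod_val x
  · rw [ZMod.val_cast_of_lt (Finset.mem_range.mp hj)]

theorem expand_qExpansion_normMF :
    (qExpansion 1 (normMF p k f₁ f₂)).expand p (p_ne_zero p) =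
      factorQ p k f₁ f₂ OnePoint.infty *
        ∏ b ∈ Finset.range p, factorQ p k f₁ f₂ ((b : ZMod p) : OnePoint (ZMod p)) := by
  rw [← qExpansion_self, coe_normMF, UpperHalfPlane.qExpansion_prod _
    (fun x _ => (good_factor p k f₁ f₂ x).analytic (p_pos p))]
  simp only [qExpansion_factor]
  rw [prod_range_eq_prod_zmod p]
  simp only [ZMod.natCast_zmod_val]
  exact Fintype.prod_option (fun x : OnePoint (ZMod p) ↦ factorQ p k f₁ f₂ x)

end QExp

end Form

end NormForm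

/-- (AN) the "norm form": `∏_{α ∈ ℙ¹(𝔽_p)} (f₁ + (p f₂)|_k α)` is a level one form of weight
`k (p+1)`; its `q`-expansion in the variable `t = q^{1/p}`. -/
theorem exists_normForm (p : ℕ) (hp : p.Prime) (k : ℕ) (f₁ f₂ : ModularForm 𝒮ℒ (k : ℤ)) :
    ∃ G : ModularForm 𝒮ℒ ((k : ℤ) * ((p : ℤ) + 1)),
      (qExpansion 1 G).expand p hp.ne_zero =
        ((qExpansion 1 f₁).expand p hp.ne_zero +
            (p : ℂ) ^ k • (qExpansion 1 f₂).expand (p ^ 2) (pow_ne_zero 2 hp.ne_zero)) *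
          ∏ b ∈ Finset.range p, ((qExpansion 1 f₁).expand p hp.ne_zero +
            PowerSeries.rescale ((zetaC p : ℂ) ^ b) (qExpansion 1 f₂)) := by
  have : Fact p.Prime := ⟨hp⟩
  have hp' : (p : ℂ) ≠ 0 := by exact_mod_cast hp.ne_zero
  refine ⟨NormForm.normMF p k f₁ f₂, ?_⟩
  rw [NormForm.expand_qExpansion_normMF]
  congr 1
  · rw [NormForm.factorQ]
    congr 1
    change (p : ℂ) • ((p : ℂ) ^ ((k : ℤ) - 1) • _) = _
    rw [smul_smul, ← zpow_one_add₀ hp', show (1 : ℤ) + ((k : ℤ) - 1) = k by ring, zpow_natCast]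
  · refine Finset.prod_congr rfl fun b hb => ?_
    rw [NormForm.factorQ]
    congr 1
    change (p : ℂ) • ((p : ℂ)⁻¹ • _) = _
    rw [smul_smul, mul_inv_cancel₀ hp', one_smul, ZMod.val_cast_of_lt (Finset.mem_range.mp hb)]

end Fermat.Agent.S28

end
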