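import Fermat.Agent.S28.Defs

/-!
# S28, WP-6: level one forms of weight `12 n` are spanned by `E₄^(3i) Δ^(n-i)`
-/

set_option autoImplicit false

noncomputable section

namespace Fermat.Agent.S28

open ModularCurve UpperHalfPlane ModularForm EisensteinSeries MatrixGroups ModularFormClass
open scoped Real

namespace Span

theorem aux (n : ℕ) : ∀ (k : ℤ) (_ : k = 12 * (n : ℤ)) (f : ModularForm 𝒮ℒ k),
    ∃ c : ℕ → ℂ, qExpansion 1 f = ∑ i ∈ Finset.range (n + 1),
      c i • ((qExpansion 1 E₄) ^ (3 * i) * (qExpansion 1 ModularForm.discriminant) ^ (n - i)) := by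
  induction n with
  | zero =>
    intro k hk f
    obtain rfl : k = 0 := by simpa using hk
    obtain ⟨c, hc⟩ := levelOne_weight_zero_const f
    refine ⟨fun _ => c, ?_⟩
    have hF : f = c • (1 : ModularForm 𝒮ℒ 0) := by
      ext z
      simp [hc]
    rw [hF, FunLike.coe_smul, ModularForm.qExpansion_smul one_pos one_mem_strictPeriods_SL,
      ModularForm.qExpansion_one]
    simp
  | succ n ih =>
    intro k hk f
    set a0 := (qExpansion 1 f).coeff 0 with ha0
    set P : ModularForm 𝒮ℒ k := ModularForm.mcast (by rw [hk]; push_cast; ring)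
      (E₄.pow (3 * (n + 1))) with hP
    have hPq : qExpansion 1 P = (qExpansion 1 E₄) ^ (3 * (n + 1)) := by
      rw [hP, coe_mcast, ModularForm.qExpansion_pow one_pos one_mem_strictPeriods_SL]
    have hE0 : (qExpansion 1 E₄).coeff 0 = 1 := E_qExpansion_coeff_zero _ ⟨2, rfl⟩
    have hP0 : (qExpansion 1 P).coeff 0 = 1 := by
      rw [hPq, PowerSeries.coeff_zero_eq_constantCoeff_apply, map_pow,
        ← PowerSeries.coeff_zero_eq_constantCoeff_apply, hE0, one_pow]
    set F' : ModularForm 𝒮ℒ k := f - a0 • P with hF'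
    have hF'q : qExpansion 1 F' = qExpansion 1 f - a0 • qExpansion 1 P := by
      rw [hF', FunLike.coe_sub, ModularForm.qExpansion_sub one_pos one_mem_strictPeriods_SL,
        FunLike.coe_smul, ModularForm.qExpansion_smul one_pos one_mem_strictPeriods_SL]
    have h0 : (qExpansion 1 F').coeff 0 = 0 := by
      rw [hF'q, map_sub, PowerSeries.coeff_smul, hP0, smul_eq_mul, mul_one, sub_self]
    obtain ⟨c, hc⟩ := ih (k - 12) (by rw [hk]; push_cast; ring)
      (CuspForm.discriminantEquiv (toCuspForm F' h0))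
    have h1 := qExpansion_eq_qExpansion_discriminant_mul F' h0
    rw [hc, hF'q, hPq, sub_eq_iff_eq_add] at h1
    refine ⟨fun i => if i = n + 1 then a0 else c i, ?_⟩
    rw [h1, Finset.sum_range_succ _ (n + 1), Finset.mul_sum]
    congr 1
    · refine Finset.sum_congr rfl fun i hi => ?_
      have hi' : i < n + 1 := Finset.mem_range.mp hi
      have hne : i ≠ n + 1 := by omega
      simp only [if_neg hne]
      rw [show n + 1 - i = (n - i) + 1 by omega, pow_succ, mul_smul_comm]
      congr 1
      ring
    · simp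

end Span

/-- (SP) -/
theorem levelOne_span (n : ℕ) (f : ModularForm 𝒮ℒ (12 * (n : ℤ))) :
    ∃ c : ℕ → ℂ, qExpansion 1 f = ∑ i ∈ Finset.range (n + 1),
      c i • ((qExpansion 1 E₄) ^ (3 * i) * (qExpansion 1 ModularForm.discriminant) ^ (n - i)) :=
  Span.aux n _ rfl f

end Fermat.Agent.S28

end
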