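import Fermat.Agent.S28.Formal

/-!
# S28, WP-10: transfer of the modular equations between coefficient rings
-/

set_option autoImplicit false

noncomputable section

namespace Fermat.Agent.S28

open ModularCurve Polynomial

namespace Transfer

section Maps

variable {R₀ R₁ : Type*} [CommRing R₀] [CommRing R₁] (φ : R₀ →+* R₁)

theorem coeffMap_qExpand (e : ℕ) [NeZero e] (x : LaurentSeries R₀) :
    coeffMap φ (qExpand R₀ e x) = qExpand R₁ e (coeffMap φ x) := by
  ext k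
  by_cases hk : (e : ℤ) ∣ k
  · obtain ⟨m, rfl⟩ := hk
    rw [coeffMap_coeff, qExpand_coeff_mul, qExpand_coeff_mul, coeffMap_coeff]
  · rw [coeffMap_coeff, qExpand_coeff_of_not_dvd e _ hk, qExpand_coeff_of_not_dvd e _ hk, map_zero]

theorem coeffMap_jqModC : coeffMap φ (jqModC R₀) = jqModC R₁ := by
  rw [jqModC_eq, map_mul, coeffMap_E4cubeC, coeffMap_DeltaInvC, ← jqModC_eq]

variable (p : ℕ) [NeZero p] (ζ : R₀ˣ)

theorem coeffMap_jConj (α : Option (Fin p)) :
    coeffMap φ (jConj R₀ p ζ α) = jConj R₁ p (Units.map (φ : R₀ →* R₁) ζ) α := by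
  cases α with
  | none => simp only [jConj, coeffMap_qExpand, coeffMap_jqModC]
  | some b => simp only [jConj, coeffMap_scale, coeffMap_jqModC, map_pow]

theorem coeffMap_uConj (α : Option (Fin p)) :
    coeffMap φ (uConj R₀ p ζ α) = uConj R₁ p (Units.map (φ : R₀ →* R₁) ζ) α := by
  cases α with
  | none =>
    simp only [uConj, map_mul, map_pow, map_natCast, coeffMap_qExpand, coeffMap_DeltaC,
      coeffMap_DeltaInvC]
  | some b =>
    simp only [uConj, map_mul, coeffMap_scale, coeffMap_qExpand, coeffMap_DeltaC,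
      coeffMap_DeltaInvC, map_pow]

theorem evJ_comp_map :
    (evJ R₁ p).comp (Polynomial.mapRingHom φ) = (coeffMap φ).comp (evJ R₀ p) := by
  refine Polynomial.ringHom_ext (fun a => ?_) ?_
  · simp only [evJ, RingHom.comp_apply, Polynomial.coe_mapRingHom, Polynomial.map_C,
      AlgHom.toRingHom_eq_coe, RingHom.coe_coe, Polynomial.aeval_C, algebraMap_eq_C, coeffMap_C]
  · simp only [evJ, RingHom.comp_apply, Polynomial.coe_mapRingHom, Polynomial.map_X,
      AlgHom.toRingHom_eq_coe, RingHom.coe_coe, Polynomial.aeval_X, coeffMap_qExpand,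
      coeffMap_jqModC]

theorem map_map_evJ (F : Polynomial (Polynomial R₀)) :
    (F.map (Polynomial.mapRingHom φ)).map (evJ R₁ p) = (F.map (evJ R₀ p)).map (coeffMap φ) := by
  rw [Polynomial.map_map, Polynomial.map_map, evJ_comp_map]

/-- the three right hand sides of `ModEq`. -/
def rhsΦ (R : Type*) [CommRing R] (p : ℕ) [NeZero p] (ζ : Rˣ) : Polynomial (LaurentSeries R) :=
  ∏ α, (X - C (jConj R p ζ α))

def rhsP (R : Type*) [CommRing R] (p : ℕ) [NeZero p] (ζ : Rˣ) : Polynomial (LaurentSeries R) :=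
  ∏ α, (X - C (uConj R p ζ α))

def rhsΛ (R : Type*) [CommRing R] (p : ℕ) [NeZero p] (ζ : Rˣ) : Polynomial (LaurentSeries R) :=
  ∑ α, C (jConj R p ζ α * uConj R p ζ α) *
      ∏ β ∈ Finset.univ.erase α, (X - C (uConj R p ζ β))

theorem map_rhsΦ : (rhsΦ R₀ p ζ).map (coeffMap φ) = rhsΦ R₁ p (Units.map (φ : R₀ →* R₁) ζ) := by
  simp only [rhsΦ, Polynomial.map_prod, Polynomial.map_sub, Polynomial.map_X, Polynomial.map_C,
    coeffMap_jConj]

theorem map_rhsP : (rhsP R₀ p ζ).map (coeffMap φ) = rhsP R₁ p (Units.map (φ : R₀ →* R₁) ζ) := by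
  simp only [rhsP, Polynomial.map_prod, Polynomial.map_sub, Polynomial.map_X, Polynomial.map_C,
    coeffMap_uConj]

theorem map_rhsΛ : (rhsΛ R₀ p ζ).map (coeffMap φ) = rhsΛ R₁ p (Units.map (φ : R₀ →* R₁) ζ) := by
  simp only [rhsΛ, Polynomial.map_sum, Polynomial.map_mul, Polynomial.map_prod, Polynomial.map_sub,
    Polynomial.map_X, Polynomial.map_C, map_mul, coeffMap_uConj, coeffMap_jConj]

theorem modEq_iff (R : Type*) [CommRing R] (p : ℕ) [NeZero p] (ζ : Rˣ) :
    ModEq R p ζ ↔ ∃ Φ P Λ : Polynomial (Polynomial R),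
      Φ.map (evJ R p) = rhsΦ R p ζ ∧ P.map (evJ R p) = rhsP R p ζ ∧
        Λ.map (evJ R p) = rhsΛ R p ζ := Iff.rfl

/-- key descent lemma: a series over `R₀` which becomes a polynomial in `j(t^p)` over `R₁`
is already one over `R₀`. -/
theorem exists_aeval_eq (hφ : Function.Injective φ) (n : ℕ) :
    ∀ (Q : Polynomial R₁), Q.natDegree < n → ∀ c : LaurentSeries R₀,
      coeffMap φ c = evJ R₁ p Q → ∃ Q₀ : Polynomial R₀, evJ R₀ p Q₀ = c := by
  have hJ : ∀ (R : Type _) [CommRing R], LeadsWith (qExpand R p (jqModC R)) (-(p : ℤ)) 1 := by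
    intro R _
    have := (leadsWith_jqModC R).qExpand p
    simpa using this
  have hp : (-(p : ℤ)) < 0 := by
    have : 0 < p := Nat.pos_of_ne_zero (NeZero.ne p)
    omega
  induction n with
  | zero => intro Q hQ; exact absurd hQ (Nat.not_lt_zero _)
  | succ n ih =>
    intro Q hQ c hc
    by_cases hQ0 : Q = 0
    · refine ⟨0, ?_⟩
      rw [hQ0, map_zero] at hc
      rw [map_zero]
      exact (coeffMap_injective φ hφ (by rw [hc, map_zero])).symm
    -- leading coefficient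
    have hlead := leadsWith_aeval (hJ R₁) hp Q
    set a : R₀ := c.coeff (Q.natDegree * (-(p : ℤ))) with ha
    have hφa : φ a = Q.leadingCoeff := by
      rw [ha, ← coeffMap_coeff, hc]
      exact hlead.1
    by_cases hdeg : Q.natDegree = 0
    · -- constant
      refine ⟨C a, ?_⟩
      apply coeffMap_injective φ hφ
      rw [hc, Polynomial.eq_C_of_natDegree_eq_zero hdeg]
      have : Q.coeff 0 = φ a := by
        rw [hφa, Polynomial.leadingCoeff, hdeg]
      rw [this]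
      simp only [evJ, AlgHom.toRingHom_eq_coe, RingHom.coe_coe, Polynomial.aeval_C,
        algebraMap_eq_C, coeffMap_C]
    · obtain ⟨Q₀, hQ₀⟩ := ih Q.eraseLead
        (by
          have := Polynomial.eraseLead_natDegree_lt_or_eraseLead_eq_zero Q
          rcases this with h | h
          · omega
          · rw [h]; simp; omega)
        (c - evJ R₀ p (C a * X ^ Q.natDegree))
        (by
          rw [map_sub, hc]
          have h1 : coeffMap φ (evJ R₀ p (C a * X ^ Q.natDegree)) =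
              evJ R₁ p (C Q.leadingCoeff * X ^ Q.natDegree) := by
            have := congrArg (fun f => f (C a * X ^ Q.natDegree)) (evJ_comp_map φ p)
            simp only [RingHom.comp_apply, Polynomial.coe_mapRingHom, Polynomial.map_mul,
              Polynomial.map_C, Polynomial.map_pow, Polynomial.map_X, hφa] at this
            exact this.symm
          rw [h1, ← map_sub]
          congr 1
          rw [sub_eq_iff_eq_add]
          exact (Polynomial.eraseLead_add_C_mul_X_pow Q).symm)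
      exact ⟨Q₀ + C a * X ^ Q.natDegree, by rw [map_add, hQ₀]; ring⟩

theorem exists_map_eq (hφ : Function.Injective φ) (F₀ : Polynomial (LaurentSeries R₀))
    (F₁ : Polynomial (Polynomial R₁)) (h : F₁.map (evJ R₁ p) = F₀.map (coeffMap φ)) :
    ∃ F : Polynomial (Polynomial R₀), F.map (evJ R₀ p) = F₀ := by
  rw [← Polynomial.mem_lifts, Polynomial.lifts_iff_coeff_lifts]
  intro n
  obtain ⟨Q₀, hQ₀⟩ := exists_aeval_eq φ p hφ _ (F₁.coeff n) (Nat.lt_succ_self _) (F₀.coeff n)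
    (by rw [← Polynomial.coeff_map, ← h, Polynomial.coeff_map])
  exact ⟨Q₀, hQ₀⟩

end Maps

end Transfer

open Transfer

/-- (M3) descent along an injective ring hom. -/
theorem ModEq.descent {R₀ R₁ : Type*} [CommRing R₀] [CommRing R₁] (φ : R₀ →+* R₁)
    (hφ : Function.Injective φ) (p : ℕ) [NeZero p] (ζ : R₀ˣ)
    (h : ModEq R₁ p (Units.map (φ : R₀ →* R₁) ζ)) : ModEq R₀ p ζ := by
  rw [modEq_iff] at h ⊢
  obtain ⟨Φ, P, Λ, h1, h2, h3⟩ := h
  obtain ⟨Φ₀, h1'⟩ := exists_map_eq φ p hφ (rhsΦ R₀ p ζ) Φ (by rw [h1, map_rhsΦ])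
  obtain ⟨P₀, h2'⟩ := exists_map_eq φ p hφ (rhsP R₀ p ζ) P (by rw [h2, map_rhsP])
  obtain ⟨Λ₀, h3'⟩ := exists_map_eq φ p hφ (rhsΛ R₀ p ζ) Λ (by rw [h3, map_rhsΛ])
  exact ⟨Φ₀, P₀, Λ₀, h1', h2', h3'⟩

/-- (M4) base change. -/
theorem ModEq.map {R₀ R₁ : Type*} [CommRing R₀] [CommRing R₁] (φ : R₀ →+* R₁)
    (p : ℕ) [NeZero p] (ζ : R₀ˣ) (h : ModEq R₀ p ζ) :
    ModEq R₁ p (Units.map (φ : R₀ →* R₁) ζ) := by
  rw [modEq_iff] at h ⊢
  obtain ⟨Φ, P, Λ, h1, h2, h3⟩ := h
  refine ⟨Φ.map (Polynomial.mapRingHom φ), P.map (Polynomial.mapRingHom φ),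
    Λ.map (Polynomial.mapRingHom φ), ?_, ?_, ?_⟩
  · rw [map_map_evJ, h1, map_rhsΦ]
  · rw [map_map_evJ, h2, map_rhsP]
  · rw [map_map_evJ, h3, map_rhsΛ]

/-- (M5) `ℤ[ζ_p]`, for an arbitrary primitive `p`-th root of unity of `ℂ`. -/
theorem exists_cyclotomic_ring_of_isPrimitiveRoot (p : ℕ) [NeZero p] (z : ℂˣ)
    (hz : IsPrimitiveRoot z p) :
    ∃ (R₀ : Type) (_ : CommRing R₀) (ζ₀ : R₀ˣ) (φ : R₀ →+* ℂ), Function.Injective φ ∧
      Units.map (φ : R₀ →* ℂ) ζ₀ = z ∧
      ∀ (k : Type) [Field k] (ζ : kˣ), IsPrimitiveRoot ζ p →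
        ∃ ψ : R₀ →+* k, Units.map (ψ : R₀ →* k) ζ₀ = ζ := by
  have hpos : 0 < p := Nat.pos_of_ne_zero (NeZero.ne p)
  have hroot : ∀ (k : Type) [Field k] (ζ : kˣ), IsPrimitiveRoot ζ p →
      Polynomial.eval₂ (Int.castRingHom k) (ζ : k) (cyclotomic p ℤ) = 0 := by
    intro k _ ζ hζ
    have h1 : IsPrimitiveRoot (ζ : k) p := hζ.map_of_injective (f := Units.coeHom k) Units.val_injective
    have := h1.isRoot_cyclotomic hpos
    rw [← Polynomial.map_cyclotomic_int, Polynomial.IsRoot.def, Polynomial.eval_map] at this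
    exact this
  have hpow : (AdjoinRoot.root (cyclotomic p ℤ)) ^ p = 1 := by
    have h1 : cyclotomic p ℤ ∣ X ^ p - 1 := Polynomial.cyclotomic.dvd_X_pow_sub_one p ℤ
    have h2 : AdjoinRoot.mk (cyclotomic p ℤ) (X ^ p - 1) = 0 := AdjoinRoot.mk_eq_zero.mpr h1
    rw [map_sub, map_pow, AdjoinRoot.mk_X, map_one, sub_eq_zero] at h2
    exact h2
  refine ⟨AdjoinRoot (cyclotomic p ℤ), inferInstance,
    Units.ofPowEqOne _ p hpow (NeZero.ne p),
    AdjoinRoot.lift (Int.castRingHom ℂ) (z : ℂ) (hroot ℂ z hz), ?_, ?_, ?_⟩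
  · rw [injective_iff_map_eq_zero]
    intro x hx
    obtain ⟨f, rfl⟩ := AdjoinRoot.mk_surjective x
    rw [AdjoinRoot.lift_mk] at hx
    rw [AdjoinRoot.mk_eq_zero]
    have h1 : IsPrimitiveRoot (z : ℂ) p := hz.map_of_injective (f := Units.coeHom ℂ) Units.val_injective
    rw [Polynomial.cyclotomic_eq_minpoly h1 hpos]
    apply minpoly.isIntegrallyClosed_dvd (h1.isIntegral hpos)
    rw [Polynomial.aeval_def, RingHom.ext_int (algebraMap ℤ ℂ) (Int.castRingHom ℂ)]
    exact hx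
  · ext
    simp [Units.coe_map]
  · intro k _ ζ hζ
    refine ⟨AdjoinRoot.lift (Int.castRingHom k) (ζ : k) (hroot k ζ hζ), ?_⟩
    ext
    simp [Units.coe_map]

/-- (M) the modular equations over any algebraically closed field in which `p ≠ 0`,
from the modular equations over `ℂ`. -/
theorem modEq_field_of_complex (p : ℕ) [NeZero p] (z : ℂˣ) (hz : IsPrimitiveRoot z p)
    (h : ModEq ℂ p z) (k : Type) [Field k] [IsAlgClosed k] (hpk : (p : k) ≠ 0) :
    ∃ ζ : kˣ, IsPrimitiveRoot ζ p ∧ ModEq k p ζ := by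
  obtain ⟨R₀, _, ζ₀, φ, hφ, hζ₀, H⟩ := exists_cyclotomic_ring_of_isPrimitiveRoot p z hz
  have : NeZero (p : k) := ⟨hpk⟩
  obtain ⟨ζ', hζ'⟩ := HasEnoughRootsOfUnity.exists_primitiveRoot k p
  have hu : IsUnit ζ' := hζ'.isUnit (NeZero.ne p)
  obtain ⟨ζ, rfl⟩ := hu
  have hζ : IsPrimitiveRoot ζ p := IsPrimitiveRoot.coe_units_iff.mp hζ'
  obtain ⟨ψ, hψ⟩ := H k ζ hζ
  refine ⟨ζ, hζ, ?_⟩
  rw [← hψ]
  apply ModEq.map
  apply ModEq.descent φ hφ
  rw [hζ₀]
  exact h

end Fermat.Agent.S28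

end
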