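import Fermat.Agent.S28.Formal

set_option autoImplicit false

noncomputable section

namespace Fermat.Agent.S28.Core

open ModularCurve UpperHalfPlane ModularForm EisensteinSeries MatrixGroups
open scoped Real

variable {R : Type*} [CommRing R]

/-- the inclusion of power series in Laurent series -/
abbrev ops : PowerSeries R →+* LaurentSeries R := HahnSeries.ofPowerSeries ℤ R

theorem ops_coeff_natCast (f : PowerSeries R) (n : ℕ) : (ops f).coeff (n : ℤ) = f.coeff n := by
  simp [ops, HahnSeries.ofPowerSeries_apply_coeff]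

theorem ops_coeff_neg (f : PowerSeries R) {n : ℤ} (hn : n < 0) : (ops f).coeff n = 0 := by
  rw [ops, HahnSeries.ofPowerSeries_apply]
  apply HahnSeries.embDomain_of_notMem_range
  rintro ⟨m, hm⟩
  simp at hm
  omega

theorem ops_expand (n : ℕ) [NeZero n] (f : PowerSeries R) :
    ops (f.expand n (NeZero.ne n)) = qExpand R n (ops f) := by
  have hn : (0 : ℤ) < n := by exact_mod_cast Nat.pos_of_ne_zero (NeZero.ne n)
  ext k
  rcases lt_or_ge k 0 with hk | hk
  · rw [ops_coeff_neg _ hk]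
    by_cases hd : (n : ℤ) ∣ k
    · obtain ⟨m, rfl⟩ := hd
      rw [qExpand_coeff_mul, ops_coeff_neg]
      by_contra hm
      rw [not_lt] at hm
      nlinarith
    · rw [qExpand_coeff_of_not_dvd n _ hd]
  · lift k to ℕ using hk
    rw [ops_coeff_natCast]
    by_cases hd : n ∣ k
    · obtain ⟨m, rfl⟩ := hd
      rw [PowerSeries.coeff_expand_mul]
      push_cast
      rw [qExpand_coeff_mul, ops_coeff_natCast]
    · rw [PowerSeries.coeff_expand_of_not_dvd _ _ _ hd, qExpand_coeff_of_not_dvd]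
      exact_mod_cast hd

theorem ops_rescale (c : Rˣ) (f : PowerSeries R) :
    ops (PowerSeries.rescale (c : R) f) = scale c (ops f) := by
  ext k
  rw [scale_coeff]
  rcases lt_or_ge k 0 with hk | hk
  · rw [ops_coeff_neg _ hk, ops_coeff_neg _ hk, mul_zero]
  · lift k to ℕ using hk
    rw [ops_coeff_natCast, ops_coeff_natCast, PowerSeries.coeff_rescale]
    simp

theorem ops_smul (c : R) (f : PowerSeries R) : ops (c • f) = c • ops f := by
  ext k
  rcases lt_or_ge k 0 with hk | hk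
  · rw [HahnSeries.coeff_smul, ops_coeff_neg _ hk, ops_coeff_neg _ hk, smul_zero]
  · lift k to ℕ using hk
    rw [HahnSeries.coeff_smul, ops_coeff_natCast, ops_coeff_natCast, PowerSeries.coeff_smul]

theorem qExpand_smul (n : ℕ) [NeZero n] (c : R) (f : LaurentSeries R) :
    qExpand R n (c • f) = c • qExpand R n f := by
  ext k
  by_cases hd : (n : ℤ) ∣ k
  · obtain ⟨m, rfl⟩ := hd
    rw [HahnSeries.coeff_smul, qExpand_coeff_mul, qExpand_coeff_mul, HahnSeries.coeff_smul]
  · rw [HahnSeries.coeff_smul, qExpand_coeff_of_not_dvd n _ hd, qExpand_coeff_of_not_dvd n _ hd,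
      smul_zero]

/-- `Δ` as a modular form of weight `12`. -/
def DeltaMF : ModularForm 𝒮ℒ ((12 : ℕ) : ℤ) :=
  ModularForm.mcast (by norm_num) (ModularFormClass.modularForm CuspForm.discriminant)

/-- `E₄³` as a modular form of weight `12`. -/
def E4cubeMF : ModularForm 𝒮ℒ ((12 : ℕ) : ℤ) :=
  ModularForm.mcast (by norm_num) (E₄.pow 3)

theorem qExpansion_DeltaMF : qExpansion 1 DeltaMF = qExpansion 1 ModularForm.discriminant := rfl

theorem qExpansion_E4cubeMF : qExpansion 1 E4cubeMF = (qExpansion 1 E₄) ^ 3 := by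
  rw [E4cubeMF, ModularForm.qExpansion_mcast,
    ModularForm.qExpansion_pow one_pos one_mem_strictPeriods_SL]

theorem ops_qExpansion_discriminant
    (qExpansion_discriminant : qExpansion 1 ModularForm.discriminant =
      PowerSeries.X * dedekindEtaUnit.map (Int.castRingHom ℂ)) :
    ops (qExpansion 1 ModularForm.discriminant) = DeltaC ℂ := by
  rw [qExpansion_discriminant, map_mul, DeltaC]
  congr 1
  simp [ops]

theorem ops_qExpansion_E4_cube
    (qExpansion_E4 : qExpansion 1 E₄ = eisenstein4.map (Int.castRingHom ℂ)) :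
    ops ((qExpansion 1 E₄) ^ 3) = E4cubeC ℂ := by
  rw [qExpansion_E4, E4cubeC, map_pow (PowerSeries.map _)]

/-- (M1) the analytic core, in formal terms, with the inputs of WP-5, WP-6, WP-7 as hypotheses
(`zetaC` is any unit of `ℂ` for which the norm form statement holds). -/
theorem analytic_core_of (p : ℕ) [NeZero p] (hp : p.Prime) (zetaC : ℕ → ℂˣ)
    (qExpansion_E4 : qExpansion 1 E₄ = eisenstein4.map (Int.castRingHom ℂ))
    (qExpansion_discriminant : qExpansion 1 ModularForm.discriminant =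
      PowerSeries.X * dedekindEtaUnit.map (Int.castRingHom ℂ))
    (levelOne_span : ∀ (n : ℕ) (f : ModularForm 𝒮ℒ (12 * (n : ℤ))),
      ∃ c : ℕ → ℂ, qExpansion 1 f = ∑ i ∈ Finset.range (n + 1),
        c i • ((qExpansion 1 E₄) ^ (3 * i) * (qExpansion 1 ModularForm.discriminant) ^ (n - i)))
    (exists_normForm : ∀ (p : ℕ) (hp : p.Prime) (k : ℕ) (f₁ f₂ : ModularForm 𝒮ℒ (k : ℤ)),
      ∃ G : ModularForm 𝒮ℒ ((k : ℤ) * ((p : ℤ) + 1)),
        (qExpansion 1 G).expand p hp.ne_zero =
          ((qExpansion 1 f₁).expand p hp.ne_zero +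
              (p : ℂ) ^ k • (qExpansion 1 f₂).expand (p ^ 2) (pow_ne_zero 2 hp.ne_zero)) *
            ∏ b ∈ Finset.range p, ((qExpansion 1 f₁).expand p hp.ne_zero +
              PowerSeries.rescale ((zetaC p : ℂ) ^ b) (qExpansion 1 f₂)))
    (x y z : ℂ) :
    ∃ c : ℕ → ℂ,
      (x • qExpand ℂ p (DeltaC ℂ) +
          (p : ℂ) ^ 12 • qExpand ℂ (p ^ 2) (y • DeltaC ℂ + z • E4cubeC ℂ)) *
        ∏ b ∈ Finset.range p, (x • qExpand ℂ p (DeltaC ℂ) +
          scale (zetaC p ^ b) (y • DeltaC ℂ + z • E4cubeC ℂ)) =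
      ∑ i ∈ Finset.range (p + 2),
        c i • qExpand ℂ p (E4cubeC ℂ ^ i * DeltaC ℂ ^ (p + 1 - i)) := by
  let f₁ : ModularForm 𝒮ℒ ((12 : ℕ) : ℤ) := x • DeltaMF
  let f₂ : ModularForm 𝒮ℒ ((12 : ℕ) : ℤ) := y • DeltaMF + z • E4cubeMF
  have hf₁ : ops (qExpansion 1 f₁) = x • DeltaC ℂ := by
    have : qExpansion 1 f₁ = x • qExpansion 1 DeltaMF :=
      ModularForm.qExpansion_smul one_pos one_mem_strictPeriods_SL x DeltaMF
    rw [this, ops_smul, qExpansion_DeltaMF, ops_qExpansion_discriminant qExpansion_discriminant]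
  have hf₂ : ops (qExpansion 1 f₂) = y • DeltaC ℂ + z • E4cubeC ℂ := by
    have h1 : qExpansion 1 f₂ = qExpansion 1 (y • DeltaMF) + qExpansion 1 (z • E4cubeMF) :=
      ModularForm.qExpansion_add one_pos one_mem_strictPeriods_SL (y • DeltaMF) (z • E4cubeMF)
    have h2 : qExpansion 1 (y • DeltaMF) = y • qExpansion 1 DeltaMF :=
      ModularForm.qExpansion_smul one_pos one_mem_strictPeriods_SL y DeltaMF
    have h3 : qExpansion 1 (z • E4cubeMF) = z • qExpansion 1 E4cubeMF :=
      ModularForm.qExpansion_smul one_pos one_mem_strictPeriods_SL z E4cubeMF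
    rw [h1, h2, h3, map_add, ops_smul, ops_smul, qExpansion_DeltaMF, qExpansion_E4cubeMF,
      ops_qExpansion_discriminant qExpansion_discriminant, ops_qExpansion_E4_cube qExpansion_E4]
  obtain ⟨G, hG⟩ := exists_normForm p hp 12 f₁ f₂
  let G' : ModularForm 𝒮ℒ (12 * ((p + 1 : ℕ) : ℤ)) := ModularForm.mcast (by push_cast; ring) G
  obtain ⟨c, hc⟩ := levelOne_span (p + 1) G'
  have hGG' : qExpansion 1 G' = qExpansion 1 G := rfl
  rw [hGG'] at hc
  refine ⟨c, ?_⟩
  have h := congrArg ops hG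
  rw [ops_expand p, hc, map_mul, map_add, map_prod, ops_expand p, ops_smul] at h
  have hsq : ops ((qExpansion 1 f₂).expand (p ^ 2) (pow_ne_zero 2 hp.ne_zero)) =
      qExpand ℂ (p ^ 2) (ops (qExpansion 1 f₂)) := ops_expand (p ^ 2) _
  rw [hsq, hf₁, hf₂, qExpand_smul] at h
  have hprod : ∀ b ∈ Finset.range p,
      ops ((qExpansion 1 f₁).expand p hp.ne_zero +
        PowerSeries.rescale ((zetaC p : ℂ) ^ b) (qExpansion 1 f₂)) =
      x • qExpand ℂ p (DeltaC ℂ) + scale (zetaC p ^ b) (y • DeltaC ℂ + z • E4cubeC ℂ) := by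
    intro b _
    have hb : ((zetaC p : ℂ) ^ b) = ((zetaC p ^ b : ℂˣ) : ℂ) := (Units.val_pow_eq_pow_val _ _).symm
    rw [map_add, hb, ops_rescale, hf₂]
    have : ops ((qExpansion 1 f₁).expand p hp.ne_zero) = qExpand ℂ p (ops (qExpansion 1 f₁)) :=
      ops_expand p _
    rw [this, hf₁, qExpand_smul]
  rw [Finset.prod_congr rfl hprod] at h
  rw [← h, map_sum, map_sum]
  refine Finset.sum_congr rfl fun i _ => ?_
  rw [ops_smul, qExpand_smul, map_mul ops, map_pow ops, map_pow ops, pow_mul, ← map_pow ops _ 3,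
    ops_qExpansion_E4_cube qExpansion_E4, ops_qExpansion_discriminant qExpansion_discriminant]

end Fermat.Agent.S28.Core

end
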