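import Fermat.Agent.S28.Tower

/-!
# S28: `DegreeData` from the tower
-/

set_option autoImplicit false
set_option linter.style.haveILetI false

noncomputable section

namespace Fermat.Agent.S28

open ModularCurve Polynomial

section CoeffMapAeval

variable {R S : Type*} [CommRing R] [CommRing S] (φ : R →+* S)

theorem coeffMap_aeval (x : LaurentSeries R) (P : R[X]) :
    coeffMap φ (aeval x P) = aeval (coeffMap φ x) (P.map φ) := by
  rw [Polynomial.aeval_def, Polynomial.aeval_def, Polynomial.hom_eval₂, Polynomial.eval₂_map]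
  congr 1
  ext a : 1
  simp only [RingHom.comp_apply, algebraMap_eq_C, coeffMap_C]

theorem coeff_algebraMap_mul (a : R) (x : LaurentSeries R) (n : ℤ) :
    (algebraMap R (LaurentSeries R) a * x).coeff n = a * x.coeff n := by
  rw [algebraMap_eq_C, HahnSeries.C_mul_eq_smul, HahnSeries.coeff_smul, smul_eq_mul]

theorem coeffMap_coeffMap_intCast (x : LaurentSeries ℤ) :
    coeffMap φ (coeffMap (Int.castRingHom R) x) = coeffMap (Int.castRingHom S) x := by
  ext n
  simp only [coeffMap_coeff, eq_intCast, map_intCast]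

end CoeffMapAeval

section Descent

variable {k : Type} [Field k] [Algebra ℚ k]

/-- apply a `ℚ`-linear functional to the coefficients of a polynomial. -/
def mapCoeffLin (φ : k →ₗ[ℚ] ℚ) (P : k[X]) : ℚ[X] :=
  ∑ a ∈ P.support, monomial a (φ (P.coeff a))

theorem coeff_mapCoeffLin (φ : k →ₗ[ℚ] ℚ) (P : k[X]) (a : ℕ) :
    (mapCoeffLin φ P).coeff a = φ (P.coeff a) := by
  rw [mapCoeffLin, Polynomial.finsetSum_coeff]
  simp only [Polynomial.coeff_monomial]
  rw [Finset.sum_ite_eq']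
  split_ifs with h
  · rfl
  · rw [Polynomial.notMem_support_iff.mp h, map_zero]

theorem mapCoeffLin_add (φ : k →ₗ[ℚ] ℚ) (P Q : k[X]) :
    mapCoeffLin φ (P + Q) = mapCoeffLin φ P + mapCoeffLin φ Q := by
  ext a
  simp only [coeff_mapCoeffLin, Polynomial.coeff_add, map_add]

theorem mapCoeffLin_monomial (φ : k →ₗ[ℚ] ℚ) (a : ℕ) (c : k) :
    mapCoeffLin φ (monomial a c) = monomial a (φ c) := by
  ext n
  simp only [coeff_mapCoeffLin, Polynomial.coeff_monomial]
  split_ifs
  · rfl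
  · exact map_zero φ

theorem descent_coeff (φ : k →ₗ[ℚ] ℚ) (j v : LaurentSeries ℚ) (P : k[X]) (n : ℤ) :
    φ ((aeval (coeffMap (algebraMap ℚ k) j) P * coeffMap (algebraMap ℚ k) v).coeff n) =
      (aeval j (mapCoeffLin φ P) * v).coeff n := by
  induction P using Polynomial.induction_on' with
  | add P Q hP hQ =>
    rw [map_add, add_mul, HahnSeries.coeff_add, map_add, hP, hQ, mapCoeffLin_add, map_add, add_mul,
      HahnSeries.coeff_add]
  | monomial a c =>
    rw [mapCoeffLin_monomial, Polynomial.aeval_monomial, Polynomial.aeval_monomial, mul_assoc,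
      mul_assoc, ← map_pow, ← map_mul, coeff_algebraMap_mul, coeff_algebraMap_mul, coeffMap_coeff,
      mul_comm c, ← Algebra.smul_def, map_smul, smul_eq_mul, mul_comm]

theorem descent_rel {ι : Type} [Fintype ι] (j x : LaurentSeries ℚ) (v : ι → LaurentSeries ℚ)
    (d : k[X]) (hd : d ≠ 0) (c : ι → k[X])
    (h : aeval (coeffMap (algebraMap ℚ k) j) d * coeffMap (algebraMap ℚ k) x =
      ∑ i, aeval (coeffMap (algebraMap ℚ k) j) (c i) * coeffMap (algebraMap ℚ k) (v i)) :
    ∃ d' : ℚ[X], d' ≠ 0 ∧ ∃ c' : ι → ℚ[X], aeval j d' * x = ∑ i, aeval j (c' i) * v i := by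
  have hlc : d.leadingCoeff ≠ 0 := Polynomial.leadingCoeff_ne_zero.mpr hd
  obtain ⟨φ, hφ⟩ : ∃ φ : Module.Dual ℚ k, φ d.leadingCoeff ≠ 0 := by
    by_contra hcon
    push Not at hcon
    exact hlc ((Module.forall_dual_apply_eq_zero_iff ℚ _).mp hcon)
  refine ⟨mapCoeffLin φ d, ?_, fun i => mapCoeffLin φ (c i), ?_⟩
  · intro h0
    apply hφ
    rw [Polynomial.leadingCoeff, ← coeff_mapCoeffLin, h0, Polynomial.coeff_zero]
  · ext n
    rw [← descent_coeff, h, HahnSeries.coeff_sum, map_sum, HahnSeries.coeff_sum]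
    exact Finset.sum_congr rfl fun i _ => descent_coeff φ j (v i) (c i) n

end Descent

section ClearDenominators

theorem exists_int_multiples {σ : Type} [Fintype σ] (f : σ → ℚ[X]) :
    ∃ m : ℤ, m ≠ 0 ∧ ∀ s, ∃ Q : ℤ[X], Q.map (Int.castRingHom ℚ) = C (m : ℚ) * f s := by
  classical
  choose b hb0 hb using fun s => IsLocalization.integerNormalization_spec (nonZeroDivisors ℤ) (f s)
  refine ⟨∏ s, b s, Finset.prod_ne_zero_iff.mpr fun s _ => nonZeroDivisors.ne_zero (hb0 s),
    fun s => ⟨C (∏ t ∈ Finset.univ.erase s, b t) *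
      IsLocalization.integerNormalization (nonZeroDivisors ℤ) (f s), ?_⟩⟩
  have h1 : (IsLocalization.integerNormalization (nonZeroDivisors ℤ) (f s)).map
      (Int.castRingHom ℚ) = C ((b s : ℤ) : ℚ) * f s := by
    have := hb s
    rw [show algebraMap ℤ ℚ = Int.castRingHom ℚ from rfl] at this
    rw [this, zsmul_eq_mul]
    simp
  rw [Polynomial.map_mul, h1, Polynomial.map_C, ← mul_assoc, ← C_mul,
    ← Finset.mul_prod_erase Finset.univ b (Finset.mem_univ s)]
  congr 2
  rw [eq_intCast]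
  push_cast
  ring

end ClearDenominators

section Final

variable (N : ℕ) [NeZero N] (ℓ : ℕ) [Fact ℓ.Prime]

omit [NeZero N] in
theorem coeffMap_mem_range {k : Type} [Field k] [Algebra ℚ k] {ι : Type} [Fintype ι]
    {b : ι → LaurentSeries ℤ} {E : Type} [Field E] [Algebra k E]
    (T : TowerData k N b E) {x : LaurentSeries ℚ} (hx : x ∈ modularFunctionFieldFull N) :
    coeffMap (algebraMap ℚ k) x ∈ T.ιx.fieldRange := by
  induction hx using IntermediateField.adjoin_induction with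
  | mem x hx =>
    obtain ⟨d, hd, hdN, rfl⟩ := hx
    haveI := hd
    have h1 : coeffMap (algebraMap ℚ k) jq = jqModC k := coeffMap_jqModC (R := ℚ) _
    rw [coeffMap_qExpand, h1, ← qE_apply, ← jce_one_eq]
    exact AlgHom.mem_fieldRange.mpr (T.full d hdN)
  | algebraMap q =>
    rw [algebraMap_eq_C, coeffMap_C, ← algebraMap_eq_C]
    exact IntermediateField.algebraMap_mem _ _
  | add x y _ _ hx hy => rw [map_add]; exact add_mem hx hy
  | inv x _ hx => rw [map_inv₀]; exact inv_mem hx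
  | mul x y _ _ hx hy => rw [map_mul]; exact mul_mem hx hy

theorem degreeData_of_fieldHyp (k0 : Type) [Field k0] [Algebra ℚ k0] (h0 : FieldHyp k0 N)
    (kl : Type) [Field kl] [Algebra (ZMod ℓ) kl] (hl : FieldHyp kl N) : DegreeData N ℓ := by
  obtain ⟨ι, _, b, hb, hT⟩ := exists_tower N (NeZero.ne N)
  refine ⟨ι, inferInstance, b, hb, ?_, ?_⟩
  · intro x hx
    obtain ⟨E, _, _, ⟨T⟩⟩ := hT k0 h0
    obtain ⟨z, hz⟩ := AlgHom.mem_fieldRange.mp (coeffMap_mem_range N T hx)
    obtain ⟨d, hd, c, hc⟩ := T.span z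
    have hj : coeffMap (algebraMap ℚ k0) jq = jqModC k0 := coeffMap_jqModC (R := ℚ) _
    have h2 : aeval (coeffMap (algebraMap ℚ k0) jq) d * coeffMap (algebraMap ℚ k0) x =
        ∑ i, aeval (coeffMap (algebraMap ℚ k0) jq) (c i) *
          coeffMap (algebraMap ℚ k0) (coeffMap (Int.castRingHom ℚ) (b i)) := by
      have h1 := congrArg T.ιx hc
      rw [map_mul, map_sum, ← Polynomial.aeval_algHom_apply, T.x_e0, hz, jce_one_one] at h1
      rw [hj, h1]
      refine Finset.sum_congr rfl fun i _ => ?_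
      rw [map_mul, ← Polynomial.aeval_algHom_apply, T.x_e0, jce_one_one, T.x_β,
        coeffMap_coeffMap_intCast]
    obtain ⟨d', hd', c', hc'⟩ :=
      descent_rel jq x (fun i => coeffMap (Int.castRingHom ℚ) (b i)) d hd c h2
    obtain ⟨m, hm, hQ⟩ := exists_int_multiples (fun s : Option ι => s.elim d' c')
    choose Q hQ using hQ
    have hae : ∀ s, aeval jq (Q s) = (m : LaurentSeries ℚ) * aeval jq ((s.elim d' c' : ℚ[X])) := by
      intro s
      have e1 : aeval jq (Q s) = aeval jq ((Q s).map (Int.castRingHom ℚ)) := by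
        rw [Polynomial.aeval_def, Polynomial.aeval_def, Polynomial.eval₂_map]
        congr 1
        exact RingHom.ext_int _ _
      rw [e1, hQ s, map_mul, Polynomial.aeval_C]
      congr 1
      simp
    refine ⟨Q none, ?_, fun i => Q (some i), ?_⟩
    · intro h0'
      have := hQ none
      rw [h0', Polynomial.map_zero] at this
      have hm' : (C (m : ℚ) : ℚ[X]) ≠ 0 := by
        rw [Ne, Polynomial.C_eq_zero]; exact_mod_cast hm
      exact mul_ne_zero hm' hd' this.symm
    · rw [hae none]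
      simp only [hae, Option.elim]
      rw [mul_assoc, hc', Finset.mul_sum]
      exact Finset.sum_congr rfl fun i _ => (mul_assoc _ _ _).symm
  · intro c hc
    obtain ⟨E, _, _, ⟨T⟩⟩ := hT kl hl
    have h1 := congrArg (coeffMap (algebraMap (ZMod ℓ) kl)) hc
    rw [map_sum, map_zero] at h1
    have h2 : T.ιx (∑ i, aeval T.e0 ((c i).map (algebraMap (ZMod ℓ) kl)) * T.β i) = 0 := by
      rw [map_sum, ← h1]
      refine Finset.sum_congr rfl fun i _ => ?_
      rw [map_mul, map_mul, ← Polynomial.aeval_algHom_apply, T.x_e0, jce_one_one, T.x_β,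
        coeffMap_coeffMap_intCast, coeffMap_aeval, coeffMap_jqModC]
    have hinjx : Function.Injective T.ιx := (T.ιx : E →+* LaurentSeries kl).injective
    have h3 := T.indep _ ((map_eq_zero_iff _ hinjx).mp h2)
    intro i
    exact (Polynomial.map_eq_zero_iff (algebraMap (ZMod ℓ) kl).injective).mp (h3 i)

omit [NeZero N] in
theorem fieldHyp_of (k : Type) [Field k] (hNk : (N : k) ≠ 0)
    (H : ∀ (p : ℕ) [NeZero p], p.Prime → (p : k) ≠ 0 →
      ∃ ζ : kˣ, IsPrimitiveRoot ζ p ∧ ModEq k p ζ)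
    (HF : ∀ (M : ℕ) [NeZero M] (p : ℕ) [NeZero p], p.Prime → ¬ p ∣ M → (p : k) ≠ 0 →
      (M : k) ≠ 0 → qExpand k p (jqModC k) ∉ modularFunctionFieldFullC k M) : FieldHyp k N := by
  have hdvd : ∀ m : ℕ, m ∣ N → (m : k) ≠ 0 := by
    rintro m ⟨c, rfl⟩ h
    apply hNk
    rw [Nat.cast_mul, h, zero_mul]
  refine ⟨fun r hr hrN => ?_, fun p M hp hpM hn => ?_⟩
  · haveI : NeZero r := ⟨hr.ne_zero⟩
    obtain ⟨ζ, hζ, hmod⟩ := H r hr (hdvd r hrN)
    obtain ⟨Φ, hΦ⟩ := hmod.exists_isModPoly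
    exact ⟨inferInstance, ζ, Φ, hζ, hΦ⟩
  · haveI : NeZero p := ⟨hp.ne_zero⟩
    have hMk : (M : k) ≠ 0 := hdvd M ((Dvd.intro_left p rfl).trans hpM)
    haveI : NeZero M := ⟨fun h => hMk (by rw [h, Nat.cast_zero])⟩
    rw [jce_one_eq, qE_apply]
    exact HF M p hp hn (hdvd p ((Dvd.intro M rfl).trans hpM)) hMk

/-- (D) degree data from the modular equations (and the non-membership statement `HF`). -/
theorem degreeData_of_modEq' (hℓN : ¬ ℓ ∣ N)
    (H : ∀ (k : Type) [Field k] [IsAlgClosed k] (p : ℕ) [NeZero p], p.Prime → (p : k) ≠ 0 →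
      ∃ ζ : kˣ, IsPrimitiveRoot ζ p ∧ ModEq k p ζ)
    (HF : ∀ (k : Type) [Field k] [IsAlgClosed k] (M : ℕ) [NeZero M] (p : ℕ) [NeZero p],
      p.Prime → ¬ p ∣ M → (p : k) ≠ 0 → (M : k) ≠ 0 →
      (∀ (r : ℕ) [NeZero r], r.Prime → (r : k) ≠ 0 →
        ∃ ζ : kˣ, IsPrimitiveRoot ζ r ∧ ModEq k r ζ) →
      qExpand k p (jqModC k) ∉ modularFunctionFieldFullC k M) :
    DegreeData N ℓ := by
  refine degreeData_of_fieldHyp N ℓ ℂ ?_ (AlgebraicClosure (ZMod ℓ)) ?_
  · exact fieldHyp_of N ℂ (Nat.cast_ne_zero.mpr (NeZero.ne N)) (fun p _ hp hpk => H ℂ p hp hpk)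
      (fun M _ p _ hp hpM hpk hMk => HF ℂ M p hp hpM hpk hMk (fun r _ hr hrk => H ℂ r hr hrk))
  · refine fieldHyp_of N (AlgebraicClosure (ZMod ℓ)) ?_ (fun p _ hp hpk => H _ p hp hpk)
      (fun M _ p _ hp hpM hpk hMk => HF _ M p hp hpM hpk hMk (fun r _ hr hrk => H _ r hr hrk))
    rw [Ne, CharP.cast_eq_zero_iff (AlgebraicClosure (ZMod ℓ)) ℓ N]
    exact hℓN

end Final

end Fermat.Agent.S28

end
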