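import Fermat.Agent.S28.Formal

/-!
# S28, WP-9: extraction of the modular equations over `ℂ` from the analytic core
-/

set_option autoImplicit false

noncomputable section

namespace Fermat.Agent.S28

open ModularCurve Polynomial

namespace Extract

local notation "L" => LaurentSeries ℂ

/-- interpolation: a polynomial all of whose values at constants lie in a subspace has
all its coefficients in that subspace. -/
theorem coeff_mem_of_eval_mem (V : Submodule ℂ L) (F : Polynomial L)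
    (h : ∀ x : ℂ, F.eval (HahnSeries.C x) ∈ V) (n : ℕ) : F.coeff n ∈ V := by
  by_contra hn
  obtain ⟨f, hf, hV⟩ := Submodule.exists_le_ker_of_notMem hn
  let G : Polynomial ℂ :=
    ∑ j ∈ Finset.range (F.natDegree + 1), Polynomial.monomial j (f (F.coeff j))
  have hG : ∀ x, G.eval x = f (F.eval (HahnSeries.C x)) := by
    intro x
    rw [Polynomial.eval_eq_sum_range (p := F), map_sum, Polynomial.eval_finsetSum]
    refine Finset.sum_congr rfl fun j _ => ?_
    rw [Polynomial.eval_monomial, ← map_pow, mul_comm (F.coeff j), ← smul_eq_C_mul, map_smul,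
      smul_eq_mul, mul_comm]
  have hG0 : G = 0 := Polynomial.funext fun x => by
    rw [hG, Polynomial.eval_zero]; exact hV (h x)
  apply hf
  by_cases hnd : n ≤ F.natDegree
  · have : G.coeff n = f (F.coeff n) := by
      simp only [G, Polynomial.finsetSum_coeff, Polynomial.coeff_monomial]
      rw [Finset.sum_ite_eq' ]
      simp [hnd]
    rw [← this, hG0, Polynomial.coeff_zero]
  · rw [Polynomial.coeff_eq_zero_of_natDegree_lt (not_le.mp hnd), map_zero]

theorem qExpand_smul (e : ℕ) [NeZero e] (a : ℂ) (x : L) :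
    qExpand ℂ e (a • x) = a • qExpand ℂ e x := by
  rw [smul_eq_C_mul, smul_eq_C_mul, map_mul, qExpand_C]

theorem scale_smul (c : ℂˣ) (a : ℂ) (x : L) : scale c (a • x) = a • scale c x := by
  rw [smul_eq_C_mul, smul_eq_C_mul, map_mul, scale_C]

variable (p : ℕ) [NeZero p] (ζ : ℂˣ)

def D0 : L := qExpand ℂ p (DeltaC ℂ)
def D0inv : L := qExpand ℂ p (DeltaInvC ℂ)
def J : L := qExpand ℂ p (jqModC ℂ)

def Dc : Option (Fin p) → L
  | none => (p : ℂ) ^ 12 • qExpand ℂ (p ^ 2) (DeltaC ℂ)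
  | some b => scale (ζ ^ (b : ℕ)) (DeltaC ℂ)

def Ec : Option (Fin p) → L
  | none => (p : ℂ) ^ 12 • qExpand ℂ (p ^ 2) (E4cubeC ℂ)
  | some b => scale (ζ ^ (b : ℕ)) (E4cubeC ℂ)

theorem D0_mul_D0inv : D0 p * D0inv p = 1 := by
  rw [D0, D0inv, ← map_mul, DeltaC_mul_DeltaInvC, map_one]

theorem D0_ne_zero : D0 p ≠ 0 := left_ne_zero_of_mul_eq_one (D0_mul_D0inv p)

omit [NeZero p] in
theorem natCast_pow_smul (x : L) : (p : ℂ) ^ 12 • x = (p : L) ^ 12 * x := by
  rw [smul_eq_C_mul, map_pow, map_natCast]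

theorem Dc_eq (a : Option (Fin p)) : Dc p ζ a = D0 p * uConj ℂ p ζ a := by
  have h := D0_mul_D0inv p
  cases a with
  | none =>
    simp only [Dc, uConj, natCast_pow_smul]
    change _ = D0 p * (_ * _ * D0inv p)
    calc _ = (p : L) ^ 12 * qExpand ℂ (p ^ 2) (DeltaC ℂ) * (D0 p * D0inv p) := by rw [h, mul_one]
      _ = _ := by ring
  | some b =>
    simp only [Dc, uConj]
    change _ = D0 p * (_ * D0inv p)
    calc _ = scale (ζ ^ (b : ℕ)) (DeltaC ℂ) * (D0 p * D0inv p) := by rw [h, mul_one]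
      _ = _ := by ring

theorem Ec_eq (a : Option (Fin p)) : Ec p ζ a = Dc p ζ a * jConj ℂ p ζ a := by
  cases a with
  | none =>
    simp only [Ec, Dc, jConj, ← jqModC_mul_DeltaC, map_mul, natCast_pow_smul]
    ring
  | some b =>
    simp only [Ec, Dc, jConj, ← jqModC_mul_DeltaC, map_mul]
    ring

theorem Ec_eq' (a : Option (Fin p)) :
    Ec p ζ a = D0 p * (jConj ℂ p ζ a * uConj ℂ p ζ a) := by
  rw [Ec_eq, Dc_eq]; ring

/-- the space `Δ(t^p)^(p+1) ℂ[j(t^p)]`. -/
def V : Submodule ℂ L where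
  carrier := {w | ∃ Q : Polynomial ℂ, D0 p ^ (p + 1) * Polynomial.aeval (J p) Q = w}
  add_mem' := by
    rintro _ _ ⟨Q, rfl⟩ ⟨Q', rfl⟩
    exact ⟨Q + Q', by rw [map_add, mul_add]⟩
  zero_mem' := ⟨0, by simp⟩
  smul_mem' := by
    rintro c _ ⟨Q, rfl⟩
    exact ⟨C c * Q, by rw [map_mul, aeval_C, algebraMap_eq_C, smul_eq_C_mul]; ring⟩

theorem mem_V (w : L) : w ∈ V p ↔ ∃ Q : Polynomial ℂ, D0 p ^ (p + 1) * Polynomial.aeval (J p) Q = w :=
  Iff.rfl

/-- the statement of the analytic core, for a root of unity `ζ`. -/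
def Core : Prop :=
  ∀ x y z : ℂ, ∃ c : ℕ → ℂ,
      (x • qExpand ℂ p (DeltaC ℂ) +
          (p : ℂ) ^ 12 • qExpand ℂ (p ^ 2) (y • DeltaC ℂ + z • E4cubeC ℂ)) *
        ∏ b ∈ Finset.range p, (x • qExpand ℂ p (DeltaC ℂ) +
          scale (ζ ^ b) (y • DeltaC ℂ + z • E4cubeC ℂ)) =
      ∑ i ∈ Finset.range (p + 2),
        c i • qExpand ℂ p (E4cubeC ℂ ^ i * DeltaC ℂ ^ (p + 1 - i))

theorem basis_mem_V (i : ℕ) (hi : i ∈ Finset.range (p + 2)) :
    qExpand ℂ p (E4cubeC ℂ ^ i * DeltaC ℂ ^ (p + 1 - i)) ∈ V p := by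
  refine ⟨X ^ i, ?_⟩
  have hi' : i ≤ p + 1 := Nat.lt_succ_iff.mp (Finset.mem_range.mp hi)
  rw [map_pow, aeval_X, J, D0, ← map_pow, ← map_pow, ← map_mul, ← jqModC_mul_DeltaC, mul_pow]
  congr 1
  rw [mul_assoc, ← pow_add, Nat.add_sub_cancel' hi', mul_comm]

variable {p ζ}

theorem Core.mem_V (h : Core p ζ) (x y z : ℂ) :
    ∏ a, (x • D0 p + y • Dc p ζ a + z • Ec p ζ a) ∈ V p := by
  obtain ⟨c, hc⟩ := h x y z
  have : ∏ a, (x • D0 p + y • Dc p ζ a + z • Ec p ζ a) =
      ∑ i ∈ Finset.range (p + 2),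
        c i • qExpand ℂ p (E4cubeC ℂ ^ i * DeltaC ℂ ^ (p + 1 - i)) := by
    rw [← hc, Fintype.prod_option, Finset.prod_range]
    congr 1
    · simp only [Dc, Ec, D0, map_add, qExpand_smul, smul_add, add_assoc]
      rw [smul_comm y, smul_comm z]
    · refine Finset.prod_congr rfl fun b _ => ?_
      simp only [Dc, Ec, D0, map_add, scale_smul, add_assoc]
  rw [this]
  exact Submodule.sum_mem _ fun i hi => Submodule.smul_mem _ _ (basis_mem_V p i hi)

variable (p)

theorem exists_lift (G : Polynomial L) (h : ∀ n, D0 p ^ (p + 1) * G.coeff n ∈ V p) :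
    ∃ P : Polynomial (Polynomial ℂ), P.map (evJ ℂ p) = G := by
  rw [← Polynomial.mem_lifts, Polynomial.lifts_iff_coeff_lifts]
  intro n
  obtain ⟨Q, hQ⟩ := h n
  exact ⟨Q, mul_left_cancel₀ (pow_ne_zero _ (D0_ne_zero p)) hQ⟩

omit [NeZero p] in
theorem card_option_fin : (Finset.univ : Finset (Option (Fin p))).card = p + 1 := by
  rw [Finset.card_univ, Fintype.card_option, Fintype.card_fin]

variable {p}

/-- Step 1: the polynomial `P`. -/
theorem Core.exists_P (h : Core p ζ) :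
    ∃ P : Polynomial (Polynomial ℂ), P.map (evJ ℂ p) = ∏ α, (X - C (uConj ℂ p ζ α)) := by
  apply exists_lift
  intro n
  have h1 : C (D0 p ^ (p + 1)) * ∏ α, (X - C (uConj ℂ p ζ α)) =
      ∏ α, (C (D0 p) * X - C (Dc p ζ α)) := by
    rw [← card_option_fin p, map_pow,
      ← Finset.prod_const (s := (Finset.univ : Finset (Option (Fin p)))) (C (D0 p)),
      ← Finset.prod_mul_distrib]
    refine Finset.prod_congr rfl fun a _ => ?_
    rw [Dc_eq, map_mul]; ring
  rw [← Polynomial.coeff_C_mul, h1]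
  apply coeff_mem_of_eval_mem
  intro x
  have := h.mem_V x (-1) 0
  convert this using 1
  rw [Polynomial.eval_prod]
  refine Finset.prod_congr rfl fun a _ => ?_
  simp only [eval_sub, eval_mul, eval_C, eval_X, smul_eq_C_mul, map_neg, map_one, map_zero]
  ring

theorem coeff_one_prod {ι : Type*} [DecidableEq ι] (s : Finset ι) (A B : ι → L) :
    (∏ a ∈ s, (C (A a) + C (B a) * X)).coeff 1 = ∑ a ∈ s, B a * ∏ b ∈ s.erase a, A b := by
  have h1 := Polynomial.coeff_derivative (∏ a ∈ s, (C (A a) + C (B a) * X)) 0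
  simp only [zero_add, Nat.cast_zero, mul_one] at h1
  rw [← h1, Polynomial.coeff_zero_eq_eval_zero, Polynomial.derivative_prod_finset,
    Polynomial.eval_finsetSum]
  refine Finset.sum_congr rfl fun a _ => ?_
  rw [Polynomial.eval_mul, Polynomial.eval_prod]
  simp [mul_comm]

/-- Step 2: the polynomial `Λ`. -/
theorem Core.exists_Λ (h : Core p ζ) :
    ∃ Λ : Polynomial (Polynomial ℂ), Λ.map (evJ ℂ p) =
      ∑ α, C (jConj ℂ p ζ α * uConj ℂ p ζ α) *
        ∏ β ∈ Finset.univ.erase α, (X - C (uConj ℂ p ζ β)) := by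
  apply exists_lift
  intro n
  have h1 : C (D0 p ^ (p + 1)) * ∑ α, C (jConj ℂ p ζ α * uConj ℂ p ζ α) *
        ∏ β ∈ Finset.univ.erase α, (X - C (uConj ℂ p ζ β)) =
      ∑ α, C (Ec p ζ α) * ∏ β ∈ Finset.univ.erase α, (C (D0 p) * X - C (Dc p ζ β)) := by
    rw [Finset.mul_sum]
    refine Finset.sum_congr rfl fun a _ => ?_
    have hcard : (Finset.univ.erase a).card = p := by
      rw [Finset.card_erase_of_mem (Finset.mem_univ a), card_option_fin, Nat.add_sub_cancel]
    have h2 : ∏ β ∈ Finset.univ.erase a, (C (D0 p) * X - C (Dc p ζ β)) =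
        C (D0 p) ^ p * ∏ β ∈ Finset.univ.erase a, (X - C (uConj ℂ p ζ β)) := by
      have h3 := Finset.prod_const (s := Finset.univ.erase a) (C (D0 p))
      rw [hcard] at h3
      rw [← h3, ← Finset.prod_mul_distrib]
      refine Finset.prod_congr rfl fun b _ => ?_
      rw [Dc_eq, map_mul]; ring
    rw [h2, Ec_eq', C_mul (a := D0 p), map_pow, pow_succ]
    ring
  rw [← Polynomial.coeff_C_mul, h1]
  apply coeff_mem_of_eval_mem
  intro x
  have h3 : (∏ a, (C (x • D0 p - Dc p ζ a) + C (Ec p ζ a) * X)).coeff 1 ∈ V p := by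
    apply coeff_mem_of_eval_mem
    intro z
    have := h.mem_V x (-1) z
    convert this using 1
    rw [Polynomial.eval_prod]
    refine Finset.prod_congr rfl fun a _ => ?_
    simp only [eval_add, eval_mul, eval_C, eval_X, smul_eq_C_mul, map_neg, map_one]
    ring
  rw [coeff_one_prod] at h3
  convert h3 using 1
  rw [Polynomial.eval_finsetSum]
  refine Finset.sum_congr rfl fun a _ => ?_
  rw [Polynomial.eval_mul, Polynomial.eval_prod, eval_C]
  congr 1
  refine Finset.prod_congr rfl fun b _ => ?_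
  simp only [eval_sub, eval_mul, eval_C, eval_X, smul_eq_C_mul]
  ring

theorem leadsWith_prod {ι : Type*} (s : Finset ι) (f : ι → L) (n : ι → ℤ) (a : ι → ℂ)
    (h : ∀ i ∈ s, LeadsWith (f i) (n i) (a i)) :
    LeadsWith (∏ i ∈ s, f i) (∑ i ∈ s, n i) (∏ i ∈ s, a i) := by
  classical
  induction s using Finset.induction_on with
  | empty => simpa using leadsWith_one
  | insert i s hi ih =>
    rw [Finset.prod_insert hi, Finset.sum_insert hi, Finset.prod_insert hi]
    exact (h i (Finset.mem_insert_self i s)).mul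
      (ih fun j hj => h j (Finset.mem_insert_of_mem hj))

variable (p ζ)

theorem leadsWith_D0 : LeadsWith (D0 p) p 1 := by
  have := (leadsWith_DeltaC ℂ).qExpand p
  simpa [D0] using this

theorem leadsWith_J : LeadsWith (J p) (-(p : ℤ)) 1 := by
  have := (leadsWith_jqModC ℂ).qExpand p
  simpa [J] using this

theorem exists_leadsWith_Dc (a : Option (Fin p)) :
    ∃ c : ℂ, c ≠ 0 ∧ LeadsWith (Dc p ζ a) (a.elim ((p : ℤ) ^ 2) fun _ => 1) c := by
  cases a with
  | none =>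
    refine ⟨(p : ℂ) ^ 12 * 1, ?_, ?_⟩
    · have : (p : ℂ) ≠ 0 := Nat.cast_ne_zero.mpr (NeZero.ne p)
      simpa using this
    · have := ((leadsWith_DeltaC ℂ).qExpand (p ^ 2)).smul ((p : ℂ) ^ 12)
      simpa [Dc] using this
  | some b =>
    exact ⟨_, mul_ne_zero (Units.ne_zero _) one_ne_zero, (leadsWith_DeltaC ℂ).scale (ζ ^ (b : ℕ))⟩

theorem exists_leadsWith_prod_Dc :
    ∃ c : ℂ, c ≠ 0 ∧ LeadsWith (∏ a, Dc p ζ a) ((p : ℤ) ^ 2 + p) c := by
  choose c hc hl using exists_leadsWith_Dc p ζ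
  refine ⟨∏ a, c a, Finset.prod_ne_zero_iff.mpr fun a _ => hc a, ?_⟩
  have := leadsWith_prod Finset.univ _ _ _ fun a _ => hl a
  rw [Fintype.sum_option] at this
  simpa using this

variable {p ζ}

theorem Core.prod_Dc (h : Core p ζ) :
    ∃ c : ℂ, c ≠ 0 ∧ ∏ a, Dc p ζ a = D0 p ^ (p + 1) * HahnSeries.C c := by
  have h1 : ∏ a, Dc p ζ a ∈ V p := by
    have := h.mem_V 0 1 0
    convert this using 1
    refine Finset.prod_congr rfl fun a _ => ?_
    simp only [smul_eq_C_mul, map_zero, map_one]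
    ring
  obtain ⟨Q, hQ⟩ := h1
  obtain ⟨c, hc, hl⟩ := exists_leadsWith_prod_Dc p ζ
  have hp : (0 : ℤ) < p := by exact_mod_cast Nat.pos_of_ne_zero (NeZero.ne p)
  have hQ0 : Q ≠ 0 := by
    rintro rfl
    rw [map_zero, mul_zero] at hQ
    exact hl.ne_zero hc hQ.symm
  have h2 := ((leadsWith_D0 p).pow (p + 1)).mul (leadsWith_aeval (leadsWith_J p) (by omega) Q)
  rw [hQ] at h2
  obtain ⟨e1, e2⟩ := hl.unique h2 hc
    (by simpa using hQ0)
  have hdeg : Q.natDegree = 0 := by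
    have : (Q.natDegree : ℤ) * p = 0 := by
      push_cast at e1
      linarith
    rcases mul_eq_zero.mp this with h | h
    · exact_mod_cast h
    · omega
  refine ⟨Q.coeff 0, ?_, ?_⟩
  · intro h0
    apply hQ0
    rw [Polynomial.eq_C_of_natDegree_eq_zero hdeg, h0, map_zero]
  · rw [← hQ]
    conv_lhs => rw [Polynomial.eq_C_of_natDegree_eq_zero hdeg]
    rw [aeval_C, algebraMap_eq_C]

/-- Step 3: the polynomial `Φ`. -/
theorem Core.exists_Φ (h : Core p ζ) :
    ∃ Φ : Polynomial (Polynomial ℂ), Φ.map (evJ ℂ p) = ∏ α, (X - C (jConj ℂ p ζ α)) := by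
  apply exists_lift
  intro n
  obtain ⟨c, hc, hprod⟩ := h.prod_Dc
  have h1 : C (∏ a, Dc p ζ a) * ∏ α, (X - C (jConj ℂ p ζ α)) =
      ∏ α, (C (Dc p ζ α) * X - C (Ec p ζ α)) := by
    rw [map_prod, ← Finset.prod_mul_distrib]
    refine Finset.prod_congr rfl fun a _ => ?_
    rw [Ec_eq, map_mul]; ring
  have h2 : (∏ a, Dc p ζ a) * (∏ α, (X - C (jConj ℂ p ζ α))).coeff n ∈ V p := by
    rw [← Polynomial.coeff_C_mul, h1]
    apply coeff_mem_of_eval_mem
    intro y
    have := h.mem_V 0 y (-1)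
    convert this using 1
    rw [Polynomial.eval_prod]
    refine Finset.prod_congr rfl fun a _ => ?_
    simp only [eval_sub, eval_mul, eval_C, eval_X, smul_eq_C_mul, map_neg, map_one, map_zero]
    ring
  have h3 := Submodule.smul_mem _ c⁻¹ h2
  convert h3 using 1
  rw [hprod, smul_eq_C_mul]
  have : (HahnSeries.C c⁻¹ : L) * HahnSeries.C c = 1 := by
    rw [← map_mul, inv_mul_cancel₀ hc, map_one]
  calc _ = (HahnSeries.C c⁻¹ * HahnSeries.C c) *
        (D0 p ^ (p + 1) * (∏ α, (X - C (jConj ℂ p ζ α))).coeff n) := by rw [this, one_mul]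
    _ = _ := by ring

end Extract

/-- (M2) extraction over `ℂ`, from the analytic core w.r.t. any unit `ζ`. -/
theorem modEq_complex_of_core (p : ℕ) [NeZero p] (ζ : ℂˣ)
    (h : ∀ x y z : ℂ, ∃ c : ℕ → ℂ,
      (x • qExpand ℂ p (DeltaC ℂ) +
          (p : ℂ) ^ 12 • qExpand ℂ (p ^ 2) (y • DeltaC ℂ + z • E4cubeC ℂ)) *
        ∏ b ∈ Finset.range p, (x • qExpand ℂ p (DeltaC ℂ) +
          scale (ζ ^ b) (y • DeltaC ℂ + z • E4cubeC ℂ)) =
      ∑ i ∈ Finset.range (p + 2),
        c i • qExpand ℂ p (E4cubeC ℂ ^ i * DeltaC ℂ ^ (p + 1 - i))) :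
    ModEq ℂ p ζ := by
  have h' : Extract.Core p ζ := h
  obtain ⟨Φ, hΦ⟩ := h'.exists_Φ
  obtain ⟨P, hP⟩ := h'.exists_P
  obtain ⟨Λ, hΛ⟩ := h'.exists_Λ
  exact ⟨Φ, P, Λ, hΦ, hP, hΛ⟩

end Fermat.Agent.S28

end
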