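import Fermat.Agent.S28.Step1

set_option autoImplicit false

noncomputable section

namespace Fermat.Agent.S28

open ModularCurve Polynomial

namespace FS

open Step1

section Scale

variable {R : Type*} [CommRing R]

theorem scale_qExpand (c : Rˣ) (N : ℕ) [NeZero N] (x : LaurentSeries R) :
    scale c (qExpand R N x) = qExpand R N (scale (c ^ N) x) := by
  ext n
  rw [scale_coeff]
  by_cases h : (N : ℤ) ∣ n
  · obtain ⟨m, rfl⟩ := h
    rw [qExpand_coeff_mul, qExpand_coeff_mul, scale_coeff, zpow_mul, zpow_natCast]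
  · rw [qExpand_coeff_of_not_dvd N _ h, qExpand_coeff_of_not_dvd N _ h, mul_zero]

theorem scale_scale (c d : Rˣ) (x : LaurentSeries R) : scale c (scale d x) = scale (c * d) x := by
  ext n
  simp only [scale_coeff, mul_zpow, Units.val_mul, mul_assoc]

theorem scale_one (x : LaurentSeries R) : scale (1 : Rˣ) x = x := by
  ext n
  simp

end Scale

section AlgHoms

variable (k : Type*) [Field k]

/-- `scale c` as a `k`-algebra homomorphism. -/
def scaleAlgHom (c : kˣ) : LaurentSeries k →ₐ[k] LaurentSeries k where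
  __ := scale c
  commutes' a := by
    show scale c (algebraMap k (LaurentSeries k) a) = algebraMap k (LaurentSeries k) a
    rw [algebraMap_laurentSeries_eq_single]
    ext n
    rw [scale_coeff]
    by_cases hn : n = 0
    · subst hn; simp
    · rw [HahnSeries.coeff_single_of_ne hn, mul_zero]

@[simp]
theorem scaleAlgHom_apply (c : kˣ) (x : LaurentSeries k) : scaleAlgHom k c x = scale c x := rfl

end AlgHoms

section Embedding

theorem exists_embedding {F L Ω : Type*} [Field F] [Field L] [Field Ω] [Algebra F L]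
    [IsAlgClosed Ω] (ψ : F →+* Ω) (x : L) (hx : IsIntegral F x) (y : Ω)
    (hy : (minpoly F x).eval₂ ψ y = 0) :
    ∃ τ : algebraicClosure F L →+* Ω,
      (∀ a : F, τ (algebraMap F (algebraicClosure F L) a) = ψ a) ∧ τ ⟨x, hx⟩ = y := by
  let := ψ.toAlgebra
  have hK' : ∀ s : algebraicClosure F L,
      IsIntegral F s ∧ ((minpoly F s).map (algebraMap F Ω)).Splits :=
    fun s => ⟨Algebra.IsIntegral.isIntegral s, IsAlgClosed.splits _⟩
  have hmin : minpoly F (⟨x, hx⟩ : algebraicClosure F L) = minpoly F x :=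
    (IntermediateField.minpoly_eq (⟨x, hx⟩ : algebraicClosure F L))
  obtain ⟨φ, hφ⟩ := IntermediateField.exists_algHom_of_splits_of_aeval hK'
    (x := (⟨x, hx⟩ : algebraicClosure F L)) (y := y) (by rw [hmin]; exact hy)
  exact ⟨φ.toRingHom, fun a => φ.commutes a, hφ⟩

end Embedding

section Spec

variable {k : Type*} [Field k] {r : ℕ} [NeZero r] {ζ : kˣ}

/-- specialisation of the modular equation along a `k`-algebra homomorphism. -/
theorem map_spec {A : Type*} [CommRing A] [Algebra k A] (σ : LaurentSeries k →ₐ[k] A)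
    {Φ : Polynomial (Polynomial k)}
    (hΦ : Φ.map (evJ k r) = ∏ α, (X - C (jConj k r ζ α))) :
    Φ.map (aeval (σ (qExpand k r (jqModC k)))).toRingHom = ∏ α, (X - C (σ (jConj k r ζ α))) := by
  have h1 : (aeval (R := k) (σ (qExpand k r (jqModC k)))).toRingHom =
      (σ : LaurentSeries k →+* A).comp (evJ k r) := by
    refine RingHom.ext fun g => ?_
    simp only [evJ, AlgHom.toRingHom_eq_coe, RingHom.coe_coe, RingHom.comp_apply]
    rw [Polynomial.aeval_algHom_apply]
  rw [h1, ← Polynomial.map_map, hΦ, Polynomial.map_prod]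
  simp

/-- `Φ_r(j(q^r), j(q)) = 0`. -/
theorem eval₂_jr {Φ : Polynomial (Polynomial k)}
    (hΦ : Φ.map (evJ k r) = ∏ α, (X - C (jConj k r ζ α))) :
    Φ.eval₂ (aeval (jqModC k)).toRingHom (qExpand k r (jqModC k)) = 0 := by
  apply qExpand_injective (R := k) r
  rw [map_zero, Polynomial.hom_eval₂]
  have h1 : (qExpand k r).comp (aeval (R := k) (jqModC k)).toRingHom = evJ k r := by
    refine RingHom.ext fun g => ?_
    simp only [evJ, AlgHom.toRingHom_eq_coe, RingHom.coe_coe, RingHom.comp_apply]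
    rw [← qExpandAlgHomC_apply, ← qExpandAlgHomC_apply, Polynomial.aeval_algHom_apply]
  have h2 : qExpand k r (qExpand k r (jqModC k)) = jConj k r ζ none := by
    rw [qExpand_qExpand]
    exact qExpand_congr (by ring) _
  rw [h1, h2, ← Polynomial.eval_map, hΦ, Polynomial.eval_prod]
  exact Finset.prod_eq_zero (Finset.mem_univ none) (by simp)

theorem monic_of_modEq (hr : 0 < r) {Φ : Polynomial (Polynomial k)}
    (hΦ : Φ.map (evJ k r) = ∏ α, (X - C (jConj k r ζ α))) : Φ.Monic := by
  have hr0 : (0 : ℤ) < r := by exact_mod_cast hr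
  have hinj : Function.Injective (evJ k r) :=
    transcendental_iff_injective.mp (transcendental_of_isLead hr0 (isLead_J k r))
  refine Polynomial.monic_of_injective hinj ?_
  rw [hΦ]
  exact Polynomial.monic_prod_of_monic _ _ (fun α _ => monic_X_sub_C _)

end Spec

section Main

variable (k : Type) [Field k]

/-- `k(j)`. -/
abbrev K0 : IntermediateField k (LaurentSeries k) := IntermediateField.adjoin k {jqModC k}

/-- the big field. -/
abbrev Om : Type := AlgebraicClosure (LaurentSeries k)

/-- the algebraic closure of `k(j)` in `k((t))`. -/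
abbrev EE : IntermediateField (K0 k) (LaurentSeries k) := algebraicClosure (K0 k) (LaurentSeries k)

/-- the inclusion. -/
def iota : LaurentSeries k →ₐ[k] Om k := IsScalarTower.toAlgHom k (LaurentSeries k) (Om k)

theorem iota_injective : Function.Injective (iota k) := (iota k).toRingHom.injective

theorem isIntegral_EE : Algebra.IsIntegral (K0 k) (EE k) :=
  ⟨fun x => IntermediateField.isIntegral_iff.mpr x.2⟩

variable {k}

theorem tau_algebraMap (n : ℕ) [NeZero n] (τ : EE k →+* Om k)
    (hτ : ∀ a : K0 k, τ (algebraMap (K0 k) (EE k) a) = iota k (qExpand k n (a : LaurentSeries k)))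
    (a : k) : τ (algebraMap k (EE k) a) = algebraMap k (Om k) a := by
  have h1 : algebraMap k (EE k) a = algebraMap (K0 k) (EE k) (algebraMap k (K0 k) a) := rfl
  rw [h1, hτ]
  have h2 : ((algebraMap k (K0 k) a : K0 k) : LaurentSeries k) = algebraMap k (LaurentSeries k) a :=
    rfl
  rw [h2, ← qExpandAlgHomC_apply, AlgHom.commutes, AlgHom.commutes]

theorem tau_comp_aeval (n : ℕ) [NeZero n] (τ : EE k →+* Om k)
    (hτ : ∀ a : K0 k, τ (algebraMap (K0 k) (EE k) a) = iota k (qExpand k n (a : LaurentSeries k)))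
    (z : EE k) : τ.comp (aeval (R := k) z).toRingHom = (aeval (R := k) (τ z)).toRingHom := by
  refine Polynomial.ringHom_ext (fun a => ?_) ?_
  · simp only [RingHom.comp_apply, AlgHom.toRingHom_eq_coe, RingHom.coe_coe, aeval_C]
    exact tau_algebraMap n τ hτ a
  · simp

theorem claim [IsAlgClosed k] (M p : ℕ) [NeZero M] [NeZero p] (hMk : (M : k) ≠ 0)
    (H : ∀ (r : ℕ) [NeZero r], r.Prime → (r : k) ≠ 0 → ∃ ζ : kˣ, IsPrimitiveRoot ζ r ∧ ModEq k r ζ)
    (τ : EE k →+* Om k)
    (hτ : ∀ a : K0 k,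
      τ (algebraMap (K0 k) (EE k) a) = iota k (qExpand k (M * p) (a : LaurentSeries k))) :
    ∀ d : ℕ, d ∣ M → ∀ [NeZero d], ∃ (h : IsIntegral (K0 k) (qExpand k d (jqModC k))) (c : kˣ)
      (e : ℕ) (_ : NeZero e), p * (M / d) ∣ e ∧
        τ ⟨qExpand k d (jqModC k), h⟩ = iota k (qExpand k e (scale c (jqModC k))) := by
  intro d
  induction d using Nat.strong_induction_on with
  | _ d ih =>
  intro hdM hd0
  by_cases hd1 : d = 1
  · subst hd1
    have hj : qExpand k 1 (jqModC k) = algebraMap (K0 k) (LaurentSeries k)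
        (IntermediateField.AdjoinSimple.gen k (jqModC k)) := by
      rw [qExpand_one_apply]; rfl
    have hint : IsIntegral (K0 k) (qExpand k 1 (jqModC k)) := hj ▸ isIntegral_algebraMap
    refine ⟨hint, 1, M * p, inferInstance, ?_, ?_⟩
    · simp [mul_comm]
    · have h1 : (⟨qExpand k 1 (jqModC k), hint⟩ : EE k) =
          algebraMap (K0 k) (EE k) (IntermediateField.AdjoinSimple.gen k (jqModC k)) :=
        Subtype.ext hj
      rw [h1, hτ, scale_one]
      rfl
  · have hr : d.minFac.Prime := Nat.minFac_prime hd1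
    obtain ⟨d', hd'⟩ : d.minFac ∣ d := Nat.minFac_dvd d
    set r := d.minFac with hrdef
    have : NeZero r := ⟨hr.ne_zero⟩
    have hd'0 : d' ≠ 0 := by
      rintro rfl
      exact NeZero.ne d (by simpa using hd')
    have : NeZero d' := ⟨hd'0⟩
    have hd'lt : d' < d := by
      have := hr.two_le
      have := Nat.pos_of_ne_zero hd'0
      rw [hd']
      nlinarith
    have hd'M : d' ∣ M := (Dvd.intro_left r hd'.symm).trans hdM
    obtain ⟨h', c', e', he'0, he', hτ'⟩ := ih d' hd'lt hd'M
    have hrk : (r : k) ≠ 0 := by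
      obtain ⟨s, hs⟩ : r ∣ M := (Nat.minFac_dvd d).trans hdM
      intro h0
      apply hMk
      rw [hs]
      push_cast
      rw [h0, zero_mul]
    obtain ⟨ζr, -, Φ, -, -, hΦ, -, -⟩ := H r hr hrk
    have hMd : M / d' = (M / d) * r := by
      obtain ⟨s, hs⟩ := hdM
      rw [hs, Nat.mul_div_cancel_left s (Nat.pos_of_ne_zero (NeZero.ne d))]
      conv_lhs => rw [hd']
      rw [show r * d' * s = d' * (s * r) by ring,
        Nat.mul_div_cancel_left _ (Nat.pos_of_ne_zero hd'0)]
    obtain ⟨t, ht⟩ := he'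
    have he'' : e' = (p * (M / d) * t) * r := by rw [ht, hMd]; ring
    have he''0 : NeZero (p * (M / d) * t) := ⟨by
      intro h0
      rw [h0, zero_mul] at he''
      exact he'0.out he''⟩
    set e'' := p * (M / d) * t with he''def
    have hdvd : p * (M / d) ∣ e'' := Dvd.intro _ rfl
    obtain ⟨γ0, hγ0⟩ := IsAlgClosed.exists_pow_nat_eq (c' : k) hr.pos
    have hγne : γ0 ≠ 0 := by
      rintro rfl
      rw [zero_pow hr.ne_zero] at hγ0
      exact c'.ne_zero hγ0.symm
    set γ : kˣ := Units.mk0 γ0 hγne with hγdef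
    have hγ : γ ^ r = c' := Units.ext (by simpa [hγdef] using hγ0)
    set σ : LaurentSeries k →ₐ[k] Om k :=
      (iota k).comp ((qExpandAlgHomC k e'').comp (scaleAlgHom k γ)) with hσ
    have hσapply : ∀ y, σ y = iota k (qExpand k e'' (scale γ y)) := fun y => rfl
    have hspec := map_spec σ hΦ
    have hσJ : σ (qExpand k r (jqModC k)) = τ ⟨qExpand k d' (jqModC k), h'⟩ := by
      rw [hτ', hσapply, scale_qExpand, hγ, qExpand_qExpand]
      congr 1
      exact qExpand_congr he''.symm _
    have hz : qExpand k d (jqModC k) = qExpand k d' (qExpand k r (jqModC k)) := by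
      rw [qExpand_qExpand]
      exact qExpand_congr (by rw [hd']; ring) _
    have hrel : Φ.eval₂ (aeval (R := k) (qExpand k d' (jqModC k))).toRingHom
        (qExpand k d (jqModC k)) = 0 := by
      have h1 := congrArg (qExpand k d') (eval₂_jr hΦ)
      rw [map_zero, Polynomial.hom_eval₂, ← hz] at h1
      have h2 : (qExpand k d').comp (aeval (R := k) (jqModC k)).toRingHom =
          (aeval (R := k) (qExpand k d' (jqModC k))).toRingHom := by
        refine RingHom.ext fun g => ?_
        simp only [AlgHom.toRingHom_eq_coe, RingHom.coe_coe, RingHom.comp_apply]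
        rw [← qExpandAlgHomC_apply, ← qExpandAlgHomC_apply, Polynomial.aeval_algHom_apply]
      rwa [h2] at h1
    set z'E : EE k := ⟨qExpand k d' (jqModC k), h'⟩ with hz'E
    have hcompE : (algebraMap (EE k) (LaurentSeries k)).comp (aeval (R := k) z'E).toRingHom =
        (aeval (R := k) (qExpand k d' (jqModC k))).toRingHom := by
      refine Polynomial.ringHom_ext (fun a => ?_) ?_
      · simp only [RingHom.comp_apply, AlgHom.toRingHom_eq_coe, RingHom.coe_coe, aeval_C]
        rfl
      · simp only [RingHom.comp_apply, AlgHom.toRingHom_eq_coe, RingHom.coe_coe, aeval_X]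
        rfl
    have hintE : IsIntegral (EE k) (qExpand k d (jqModC k)) := by
      refine ⟨Φ.map (aeval (R := k) z'E).toRingHom, (monic_of_modEq hr.pos hΦ).map _, ?_⟩
      rw [Polynomial.eval₂_map, hcompE]
      exact hrel
    have hint : IsIntegral (K0 k) (qExpand k d (jqModC k)) :=
      have := isIntegral_EE k
      isIntegral_trans _ hintE
    set zE : EE k := ⟨qExpand k d (jqModC k), hint⟩ with hzE
    have hrelE : Φ.eval₂ (aeval (R := k) z'E).toRingHom zE = 0 := by
      apply (algebraMap (EE k) (LaurentSeries k)).injective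
      rw [map_zero, Polynomial.hom_eval₂, hcompE]
      exact hrel
    have hrelΩ : Φ.eval₂ (aeval (R := k) (τ z'E)).toRingHom (τ zE) = 0 := by
      have h1 := congrArg τ hrelE
      rwa [map_zero, Polynomial.hom_eval₂, tau_comp_aeval (M * p) τ hτ] at h1
    rw [← hσJ, ← Polynomial.eval_map, hspec, Polynomial.eval_prod] at hrelΩ
    obtain ⟨α, -, hα⟩ := Finset.prod_eq_zero_iff.mp hrelΩ
    simp only [Polynomial.eval_sub, Polynomial.eval_X, Polynomial.eval_C] at hα
    have hα' : τ zE = σ (jConj k r ζr α) := sub_eq_zero.mp hα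
    cases α with
    | none =>
      refine ⟨hint, γ ^ (r ^ 2), e'' * r ^ 2, inferInstance, hdvd.mul_right _, ?_⟩
      rw [hα', hσapply]
      show iota k (qExpand k e'' (scale γ (qExpand k (r ^ 2) (jqModC k)))) = _
      rw [scale_qExpand, qExpand_qExpand]
    | some b =>
      refine ⟨hint, γ * ζr ^ (b : ℕ), e'', inferInstance, hdvd, ?_⟩
      rw [hα', hσapply]
      show iota k (qExpand k e'' (scale γ (scale (ζr ^ (b : ℕ)) (jqModC k)))) = _
      rw [scale_scale]

end Main

section Final

variable {k : Type} [Field k] {p : ℕ} [NeZero p] {ζ : kˣ}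

theorem jConj_injective (hp : p.Prime) (hζ : IsPrimitiveRoot ζ p) :
    Function.Injective (jConj k p ζ) := by
  intro α β h
  cases α with
  | none =>
    cases β with
    | none => rfl
    | some b => exact absurd h.symm (jConj_some_ne_none hp b)
  | some a =>
    cases β with
    | none => exact absurd h (jConj_some_ne_none hp a)
    | some b =>
      have h1 := (isLead_jConj_some k p ζ a).2
      rw [h, (isLead_jConj_some k p ζ b).2] at h1
      have h2 : (ζ ^ (b : ℕ)) ^ (-1 : ℤ) = (ζ ^ (a : ℕ)) ^ (-1 : ℤ) := Units.ext h1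
      have h3 : ζ ^ (b : ℕ) = ζ ^ (a : ℕ) := by simpa using h2
      have := hζ.pow_inj b.2 a.2 h3
      rw [Fin.ext this]

/-- closure properties: everything in `k(j(q^d) : d ∣ M)` is sent by `τ` into series in `w^p`. -/
theorem key (M : ℕ) [NeZero M] (τ : EE k →+* Om k)
    (hτ : ∀ a : K0 k,
      τ (algebraMap (K0 k) (EE k) a) = iota k (qExpand k (M * p) (a : LaurentSeries k)))
    (hcl : ∀ d : ℕ, d ∣ M → ∀ [NeZero d], ∃ (h : IsIntegral (K0 k) (qExpand k d (jqModC k)))
      (c : kˣ) (e : ℕ) (_ : NeZero e), p * (M / d) ∣ e ∧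
        τ ⟨qExpand k d (jqModC k), h⟩ = iota k (qExpand k e (scale c (jqModC k))))
    (z : LaurentSeries k) (hz : z ∈ modularFunctionFieldFullC k M) :
    ∃ (h : IsIntegral (K0 k) z) (w : LaurentSeries k), τ ⟨z, h⟩ = iota k (qExpand k p w) := by
  unfold modularFunctionFieldFullC at hz
  induction hz using IntermediateField.adjoin_induction with
  | mem z hz =>
    obtain ⟨d, hd0, hd, rfl⟩ := hz
    obtain ⟨h, c, e, he0, he, hτe⟩ := hcl d hd
    obtain ⟨e1, he1⟩ : p ∣ e := (Dvd.intro _ rfl).trans he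
    have : NeZero e1 := ⟨by
      rintro rfl
      exact he0.out (by simpa using he1)⟩
    refine ⟨h, qExpand k e1 (scale c (jqModC k)), ?_⟩
    rw [hτe, qExpand_qExpand]
    congr 1
    exact qExpand_congr he1 _
  | algebraMap a =>
    have h1 : algebraMap k (LaurentSeries k) a =
        algebraMap (K0 k) (LaurentSeries k) (algebraMap k (K0 k) a) := rfl
    have hint : IsIntegral (K0 k) (algebraMap k (LaurentSeries k) a) := by
      rw [h1]
      exact isIntegral_algebraMap
    refine ⟨hint, algebraMap k (LaurentSeries k) a, ?_⟩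
    have h2 : (⟨algebraMap k (LaurentSeries k) a, hint⟩ : EE k) = algebraMap k (EE k) a := rfl
    rw [h2, tau_algebraMap (M * p) τ hτ, ← qExpandAlgHomC_apply, AlgHom.commutes, AlgHom.commutes]
  | add a b _ _ ha hb =>
    obtain ⟨h1, w1, hw1⟩ := ha
    obtain ⟨h2, w2, hw2⟩ := hb
    refine ⟨h1.add h2, w1 + w2, ?_⟩
    have h3 : (⟨a + b, h1.add h2⟩ : EE k) = ⟨a, h1⟩ + ⟨b, h2⟩ := rfl
    rw [h3, map_add, hw1, hw2, map_add, map_add]
  | inv a _ ha =>
    obtain ⟨h1, w1, hw1⟩ := ha
    have hinv : IsIntegral (K0 k) a⁻¹ := (EE k).inv_mem h1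
    refine ⟨hinv, w1⁻¹, ?_⟩
    have h3 : (⟨a⁻¹, hinv⟩ : EE k) = (⟨a, h1⟩ : EE k)⁻¹ := rfl
    rw [h3, map_inv₀, hw1, map_inv₀, map_inv₀]
  | mul a b _ _ ha hb =>
    obtain ⟨h1, w1, hw1⟩ := ha
    obtain ⟨h2, w2, hw2⟩ := hb
    refine ⟨h1.mul h2, w1 * w2, ?_⟩
    have h3 : (⟨a * b, h1.mul h2⟩ : EE k) = ⟨a, h1⟩ * ⟨b, h2⟩ := rfl
    rw [h3, map_mul, hw1, hw2, map_mul, map_mul]

end Final

end FS

open FS Step1 in
/-- (D-c) `j(q^p) ∉ k(j(q^m) : m ∣ M)` for `p ∤ M`. -/
theorem jp_not_mem_full (k : Type) [Field k] [IsAlgClosed k] (M : ℕ) [NeZero M] (p : ℕ) [NeZero p]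
    (hp : p.Prime) (hpM : ¬ p ∣ M) (hpk : (p : k) ≠ 0) (hMk : (M : k) ≠ 0)
    (H : ∀ (r : ℕ) [NeZero r], r.Prime → (r : k) ≠ 0 → ∃ ζ : kˣ, IsPrimitiveRoot ζ r ∧ ModEq k r ζ) :
    qExpand k p (jqModC k) ∉ modularFunctionFieldFullC k M := by
  intro hmem
  obtain ⟨ζ, hζ, hmod⟩ := H p hp hpk
  have hnot := jp_not_mem_adjoin_j k p hp hpk ζ hζ hmod
  obtain ⟨Φ, -, -, hΦ, -, -⟩ := hmod
  set ev0 : Polynomial k →+* K0 k :=
    (aeval (IntermediateField.AdjoinSimple.gen k (jqModC k))).toRingHom with hev0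
  have hcomp0 : (algebraMap (K0 k) (LaurentSeries k)).comp ev0 =
      (aeval (R := k) (jqModC k)).toRingHom := by
    refine RingHom.ext fun g => ?_
    simp only [RingHom.comp_apply, hev0, AlgHom.toRingHom_eq_coe, RingHom.coe_coe]
    rw [← Polynomial.aeval_algebraMap_apply, IntermediateField.AdjoinSimple.algebraMap_gen]
  have hmonic := monic_of_modEq hp.pos hΦ
  have hroot : aeval (qExpand k p (jqModC k)) (Φ.map ev0) = 0 := by
    rw [Polynomial.aeval_def, Polynomial.eval₂_map, hcomp0]
    exact eval₂_jr hΦ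
  have hint : IsIntegral (K0 k) (qExpand k p (jqModC k)) := ⟨Φ.map ev0, hmonic.map _, hroot⟩
  have hdeg : 2 ≤ (minpoly (K0 k) (qExpand k p (jqModC k))).natDegree :=
    (minpoly.two_le_natDegree_iff hint).mpr (by
      rintro ⟨⟨y, hy⟩, hy'⟩
      have hy'' : y = qExpand k p (jqModC k) := hy'
      exact hnot (hy'' ▸ hy))
  set φ : K0 k →+* LaurentSeries k :=
    (qExpand k p).comp (algebraMap (K0 k) (LaurentSeries k)) with hφ
  have hG : (Φ.map ev0).map φ = ∏ α, (X - C (jConj k p ζ α)) := by
    have h1 : (qExpand k p).comp (aeval (R := k) (jqModC k)).toRingHom = evJ k p := by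
      refine RingHom.ext fun g => ?_
      simp only [evJ, AlgHom.toRingHom_eq_coe, RingHom.coe_coe, RingHom.comp_apply]
      rw [← qExpandAlgHomC_apply, ← qExpandAlgHomC_apply, Polynomial.aeval_algHom_apply]
    rw [Polynomial.map_map, hφ, RingHom.comp_assoc, hcomp0, h1, hΦ]
  obtain ⟨β, hβ, hβ0⟩ := exists_other_root φ (jConj k p ζ) (jConj_injective hp hζ) (Φ.map ev0)
    (minpoly (K0 k) (qExpand k p (jqModC k))) hG (minpoly.dvd _ _ hroot) hdeg none
  cases β with
  | none => exact hβ rfl
  | some b =>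
    set ψ : K0 k →+* Om k := (iota k : LaurentSeries k →+* Om k).comp
      ((qExpand k (M * p)).comp (algebraMap (K0 k) (LaurentSeries k))) with hψ
    have hψ' : ψ = ((iota k : LaurentSeries k →+* Om k).comp (qExpand k M)).comp φ := by
      refine RingHom.ext fun a => ?_
      simp only [hψ, hφ, RingHom.comp_apply, qExpand_qExpand]
    have hy : (minpoly (K0 k) (qExpand k p (jqModC k))).eval₂ ψ
        (iota k (qExpand k M (jConj k p ζ (some b)))) = 0 := by
      have h1 := congrArg ((iota k : LaurentSeries k →+* Om k).comp (qExpand k M)) hβ0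
      rw [map_zero, Polynomial.hom_eval₂, ← hψ'] at h1
      exact h1
    obtain ⟨τ, hτ, hτx⟩ := exists_embedding ψ _ hint _ hy
    have hτ' : ∀ a : K0 k,
        τ (algebraMap (K0 k) (EE k) a) = iota k (qExpand k (M * p) (a : LaurentSeries k)) :=
      fun a => hτ a
    obtain ⟨h, w, hw⟩ := key M τ hτ' (claim M p hMk H τ hτ') _ hmem
    rw [hτx] at hw
    have h1 := congrArg (fun s => HahnSeries.coeff s ((M : ℤ) * (-1))) (iota_injective k hw)
    simp only [qExpand_coeff_mul] at h1
    rw [qExpand_coeff_of_not_dvd p w (by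
      rw [mul_neg_one, Int.dvd_neg]
      exact_mod_cast hpM), (isLead_jConj_some k p ζ b).2] at h1
    exact Units.ne_zero _ h1

end Fermat.Agent.S28

end
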