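import Mathlib
import Fermat.Prelude.Def_GaloisRep_Flat

/-!
# S28: basic facts on `ℤ_(ℓ) = GaloisRep.ratLocalizedAt ℓ`
-/

set_option autoImplicit false

namespace Fermat.Agent.S28.Zl

variable (ℓ : ℕ) [Fact ℓ.Prime]

set_option quotPrecheck false in
local notation "Zl" => ↥(GaloisRep.ratLocalizedAt ℓ)

theorem mem_iff (x : ℚ) : x ∈ GaloisRep.ratLocalizedAt ℓ ↔ x.den.Coprime ℓ := Iff.rfl

theorem intCast_mem (n : ℤ) : (n : ℚ) ∈ GaloisRep.ratLocalizedAt ℓ := by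
  rw [mem_iff]; simp

instance isPrime_span : (Ideal.span {(ℓ : ℤ)}).IsPrime := by
  rw [Ideal.span_singleton_prime (by exact_mod_cast (Fact.out : ℓ.Prime).ne_zero)]
  exact Nat.prime_iff_prime_int.mp Fact.out

theorem inv_intCast_mem {y : ℤ} (hy : ¬ (ℓ : ℤ) ∣ y) : ((y : ℚ)⁻¹) ∈ GaloisRep.ratLocalizedAt ℓ := by
  rw [mem_iff]
  have hy0 : y ≠ 0 := by rintro rfl; exact hy (dvd_zero _)
  rw [Rat.inv_intCast_den, if_neg hy0]
  apply Nat.Coprime.symm
  rw [Nat.Prime.coprime_iff_not_dvd Fact.out]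
  intro h
  exact hy (Int.natCast_dvd.mpr h)

instance isLocalization : IsLocalization.AtPrime Zl (Ideal.span {(ℓ : ℤ)}) := by
  refine (isLocalization_iff _ _).mpr ⟨?_, ?_, ?_⟩
  · rintro ⟨y, hy⟩
    have hy' : ¬ (ℓ : ℤ) ∣ y := by
      intro h
      exact hy (Ideal.mem_span_singleton.mpr h)
    have hy0 : (y : ℚ) ≠ 0 := by
      intro h
      apply hy'
      have : y = 0 := by exact_mod_cast h
      rw [this]; exact dvd_zero _
    refine IsUnit.of_mul_eq_one ⟨(y : ℚ)⁻¹, inv_intCast_mem ℓ hy'⟩ (Subtype.ext ?_)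
    simp [hy0]
  · intro z
    have hz : (z : ℚ).den.Coprime ℓ := z.2
    refine ⟨((z : ℚ).num, ⟨((z : ℚ).den : ℤ), ?_⟩), Subtype.ext ?_⟩
    · intro h
      rw [SetLike.mem_coe, Ideal.mem_span_singleton] at h
      have h2 : ℓ ∣ (z : ℚ).den := by exact_mod_cast h
      have := Nat.Coprime.eq_one_of_dvd hz.symm h2
      exact (Fact.out : ℓ.Prime).one_lt.ne' this
    · simp [Rat.mul_den_eq_num]
  · intro x y h
    refine ⟨1, ?_⟩
    have : (x : ℚ) = (y : ℚ) := by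
      have := congrArg Subtype.val h
      simpa using this
    have : x = y := by exact_mod_cast this
    rw [this]

theorem span_ne_bot : Ideal.span {(ℓ : ℤ)} ≠ ⊥ := by
  intro h
  rw [Ideal.span_singleton_eq_bot] at h
  exact (Fact.out : ℓ.Prime).ne_zero (by exact_mod_cast h)

instance isDVR : IsDiscreteValuationRing Zl :=
  IsLocalization.AtPrime.isDiscreteValuationRing_of_dedekind_domain ℤ (span_ne_bot ℓ) Zl

theorem natCast_ne_zero : (ℓ : Zl) ≠ 0 := by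
  intro h
  have := congrArg Subtype.val h
  simp at this
  exact (Fact.out : ℓ.Prime).ne_zero this

theorem prime_natCast : Prime (ℓ : Zl) := by
  rw [← Ideal.span_singleton_prime (natCast_ne_zero ℓ)]
  have h := IsLocalization.AtPrime.map_eq_maximalIdeal (Ideal.span {(ℓ : ℤ)}) Zl
  rw [Ideal.map_span, Set.image_singleton] at h
  have h2 : algebraMap ℤ Zl (ℓ : ℤ) = (ℓ : Zl) := by simp
  rw [h2] at h
  rw [h]
  exact (IsLocalRing.maximalIdeal.isMaximal _).isPrime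

/-- `ℤ ∩ ℓ ℤ_(ℓ) = ℓ ℤ`. -/
theorem int_dvd_of_eq_mul {n : ℤ} {r : ℚ} (hr : r ∈ GaloisRep.ratLocalizedAt ℓ)
    (h : (n : ℚ) = (ℓ : ℚ) * r) : (ℓ : ℤ) ∣ n := by
  have hden : (r.den : ℚ) ≠ 0 := by exact_mod_cast r.den_ne_zero
  have h1 : (n : ℚ) * r.den = ℓ * r.num := by
    rw [h, mul_assoc, Rat.mul_den_eq_num]
  have h2 : n * (r.den : ℤ) = (ℓ : ℤ) * r.num := by exact_mod_cast h1
  have h3 : (ℓ : ℤ) ∣ n * (r.den : ℤ) := ⟨_, h2⟩
  have hcop : IsCoprime (ℓ : ℤ) (r.den : ℤ) := by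
    rw [Nat.isCoprime_iff_coprime]
    exact Nat.Coprime.symm hr
  exact hcop.dvd_of_dvd_mul_right h3

theorem natCast_dvd_intCast_iff (n : ℤ) : (ℓ : Zl) ∣ (n : Zl) ↔ (ℓ : ℤ) ∣ n := by
  constructor
  · rintro ⟨r, hr⟩
    apply int_dvd_of_eq_mul ℓ r.2
    have := congrArg Subtype.val hr
    simpa using this
  · rintro ⟨m, rfl⟩
    exact ⟨(m : Zl), by push_cast; ring⟩

end Fermat.Agent.S28.Zl
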