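import Fermat.Agent.S28.Defs
import Fermat.Agent.S28.Zl

/-!
# S28, WP-3: elements integral over `ℤ_(ℓ)[S]` have `ℓ`-integral `q`-expansion coefficients
-/

set_option autoImplicit false

noncomputable section

namespace Fermat.Agent.S28

open ModularCurve ModularCurve.IgusaScheme

namespace IntCoeffAux

/-- abstract: an integrally closed domain is integrally closed in every "fraction". -/
theorem exists_eq_of_isIntegralElem {R L : Type*} [CommRing R] [IsDomain R] [IsIntegrallyClosed R]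
    [Field L] (c : R →+* L) (hc : Function.Injective c) (x : L) (a b : R) (hb : b ≠ 0)
    (h : c b * x = c a) (hint : c.IsIntegralElem x) : ∃ r, c r = x := by
  let _ := c.toAlgebra
  have hinj : Function.Injective (Algebra.ofId R L) := hc
  let φ : FractionRing R →ₐ[R] L := IsFractionRing.liftAlgHom hinj
  let y : FractionRing R := algebraMap R (FractionRing R) a / algebraMap R (FractionRing R) b
  have hcb : c b ≠ 0 := by
    rw [Ne, map_eq_zero_iff c hc]; exact hb
  have hφy : φ y = x := by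
    simp only [y, map_div₀, AlgHom.commutes]
    change c a / c b = x
    rw [← h]
    field_simp
  have hy : IsIntegral R y := by
    rw [← isIntegral_algHom_iff φ φ.toRingHom.injective, hφy]
    exact hint
  obtain ⟨r, hr⟩ := IsIntegrallyClosed.isIntegral_iff.mp hy
  refine ⟨r, ?_⟩
  rw [← hφy, ← hr, AlgHom.commutes]
  rfl

variable (ℓ : ℕ)

/-- the inclusion `ℤ_(ℓ)((q)) → ℚ((q))`. -/
def cl : LaurentSeries ↥(GaloisRep.ratLocalizedAt ℓ) →+* LaurentSeries ℚ :=
  coeffMap (GaloisRep.ratLocalizedAt ℓ).subtype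

theorem cl_injective : Function.Injective (cl ℓ) := by
  intro x y h
  ext n
  have := congrArg (fun z => HahnSeries.coeff z n) h
  simpa [cl] using this

theorem intCoeff_iff_mem_range (x : LaurentSeries ℚ) : IntCoeff ℓ x ↔ x ∈ (cl ℓ).range := by
  constructor
  · intro h
    refine ⟨⟨fun n => ⟨x.coeff n, h n⟩, x.isPWO_support.mono ?_⟩, ?_⟩
    · intro n hn
      simp only [Function.mem_support, ne_eq] at hn
      intro h0
      exact hn (Subtype.ext h0)
    · ext n
      simp [cl]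
  · rintro ⟨y, rfl⟩ n
    simp only [cl, coeffMap_coeff]
    exact (y.coeff n).2

theorem intCoeff_coeffMap_intCast (w : LaurentSeries ℤ) :
    IntCoeff ℓ (coeffMap (Int.castRingHom ℚ) w) := by
  intro n
  rw [coeffMap_coeff]
  simp [GaloisRep.ratLocalizedAt]

theorem intCoeff_jq : IntCoeff ℓ jq := by
  have : jq = coeffMap (Int.castRingHom ℚ) (jqModC ℤ) := by
    rw [coeffMap_jqModC]; rfl
  rw [this]
  exact intCoeff_coeffMap_intCast ℓ _

theorem intCoeff_qExpand (d : ℕ) [NeZero d] {x : LaurentSeries ℚ} (hx : IntCoeff ℓ x) :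
    IntCoeff ℓ (qExpand ℚ d x) := by
  intro n
  by_cases h : (d : ℤ) ∣ n
  · obtain ⟨m, rfl⟩ := h
    rw [qExpand_coeff_mul]
    exact hx m
  · rw [qExpand_coeff_of_not_dvd d x h]
    exact zero_mem _

/-- the inverse of `j` in `ℤ((q))`. -/
def jInvZ : LaurentSeries ℤ :=
  HahnSeries.single (1 : ℤ) 1 * HahnSeries.ofPowerSeries ℤ ℤ (jNum.invOfUnit 1)

theorem jqModC_mul_jInvZ : jqModC ℤ * jInvZ = 1 := by
  have h1 : jNum.map (Int.castRingHom ℤ) = jNum := by
    ext n; simp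
  have h2 : jNum * jNum.invOfUnit 1 = 1 :=
    PowerSeries.mul_invOfUnit _ _ (by rw [constantCoeff_jNum]; rfl)
  rw [jqModC, jInvZ, h1]
  calc HahnSeries.single (-1 : ℤ) (1 : ℤ) * HahnSeries.ofPowerSeries ℤ ℤ jNum *
        (HahnSeries.single (1 : ℤ) 1 * HahnSeries.ofPowerSeries ℤ ℤ (jNum.invOfUnit 1))
      = (HahnSeries.single (-1 : ℤ) (1 : ℤ) * HahnSeries.single (1 : ℤ) 1) *
        HahnSeries.ofPowerSeries ℤ ℤ (jNum * jNum.invOfUnit 1) := by
          rw [map_mul]; ring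
    _ = 1 := by
          rw [h2, HahnSeries.single_mul_single]
          simp

theorem jq_inv_eq : jq⁻¹ = coeffMap (Int.castRingHom ℚ) jInvZ := by
  have h := congrArg (coeffMap (Int.castRingHom ℚ)) jqModC_mul_jInvZ
  rw [map_mul, map_one, coeffMap_jqModC] at h
  exact inv_eq_of_mul_eq_one_right h

theorem intCoeff_jq_inv : IntCoeff ℓ jq⁻¹ := by
  rw [jq_inv_eq]
  exact intCoeff_coeffMap_intCast ℓ _

theorem intCoeff_algebraMap_of_mem {r : ℚ} (hr : r ∈ GaloisRep.ratLocalizedAt ℓ) :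
    IntCoeff ℓ (algebraMap ℚ (LaurentSeries ℚ) r) := by
  intro n
  rw [algebraMap_apply_eq_single, HahnSeries.coeff_single]
  split_ifs
  · exact hr
  · exact zero_mem _

section

variable [Fact ℓ.Prime]

instance isIntegrallyClosed_laurent :
    IsIntegrallyClosed (LaurentSeries ↥(GaloisRep.ratLocalizedAt ℓ)) :=
  isIntegrallyClosed_of_isLocalization (R := PowerSeries ↥(GaloisRep.ratLocalizedAt ℓ)) _
    (Submonoid.powers (PowerSeries.X : PowerSeries ↥(GaloisRep.ratLocalizedAt ℓ)))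
    (Submonoid.powers_le.mpr (mem_nonZeroDivisors_of_ne_zero PowerSeries.X_ne_zero))

end

/-- `x` is a fraction of elements of `ℤ_(ℓ)((q))`. -/
def IsFrac (x : LaurentSeries ℚ) : Prop :=
  ∃ a b : LaurentSeries ↥(GaloisRep.ratLocalizedAt ℓ), b ≠ 0 ∧ cl ℓ b * x = cl ℓ a

theorem isFrac_of_intCoeff {x : LaurentSeries ℚ} (hx : IntCoeff ℓ x) : IsFrac ℓ x := by
  obtain ⟨a, rfl⟩ := (intCoeff_iff_mem_range ℓ x).mp hx
  exact ⟨a, 1, one_ne_zero, by simp⟩

theorem isFrac_add {x y : LaurentSeries ℚ} (hx : IsFrac ℓ x) (hy : IsFrac ℓ y) :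
    IsFrac ℓ (x + y) := by
  obtain ⟨a, b, hb, h⟩ := hx
  obtain ⟨a', b', hb', h'⟩ := hy
  refine ⟨a * b' + a' * b, b * b', mul_ne_zero hb hb', ?_⟩
  rw [map_add, map_mul, map_mul, map_mul, ← h, ← h']
  ring

theorem isFrac_mul {x y : LaurentSeries ℚ} (hx : IsFrac ℓ x) (hy : IsFrac ℓ y) :
    IsFrac ℓ (x * y) := by
  obtain ⟨a, b, hb, h⟩ := hx
  obtain ⟨a', b', hb', h'⟩ := hy
  refine ⟨a * a', b * b', mul_ne_zero hb hb', ?_⟩
  rw [map_mul, map_mul, ← h, ← h']
  ring

theorem isFrac_inv {x : LaurentSeries ℚ} (hx : IsFrac ℓ x) : IsFrac ℓ x⁻¹ := by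
  obtain ⟨a, b, hb, h⟩ := hx
  by_cases hx0 : x = 0
  · subst hx0
    exact ⟨0, 1, one_ne_zero, by simp⟩
  · have ha : a ≠ 0 := by
      rintro rfl
      rw [map_zero] at h
      rcases mul_eq_zero.mp h with h1 | h1
      · exact hb ((map_eq_zero_iff _ (cl_injective ℓ)).mp h1)
      · exact hx0 h1
    refine ⟨b, a, ha, ?_⟩
    rw [← h]
    field_simp

theorem isFrac_algebraMap (r : ℚ) : IsFrac ℓ (algebraMap ℚ (LaurentSeries ℚ) r) := by
  have h1 : IsFrac ℓ (algebraMap ℚ (LaurentSeries ℚ) (r.num : ℚ)) :=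
    isFrac_of_intCoeff ℓ (intCoeff_algebraMap_of_mem ℓ (by simp [GaloisRep.ratLocalizedAt]))
  have h2 : IsFrac ℓ (algebraMap ℚ (LaurentSeries ℚ) (r.den : ℚ)) :=
    isFrac_of_intCoeff ℓ (intCoeff_algebraMap_of_mem ℓ (by simp [GaloisRep.ratLocalizedAt]))
  have h3 := isFrac_mul ℓ h1 (isFrac_inv ℓ h2)
  rwa [← map_inv₀, ← map_mul, ← div_eq_mul_inv, Rat.num_div_den] at h3

theorem isFrac_of_mem (N : ℕ) {x : LaurentSeries ℚ} (hx : x ∈ modularFunctionFieldFull N) :
    IsFrac ℓ x := by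
  rw [modularFunctionFieldFull] at hx
  induction hx using IntermediateField.adjoin_induction with
  | mem x hx =>
    obtain ⟨d, hd, -, rfl⟩ := hx
    exact isFrac_of_intCoeff ℓ (intCoeff_qExpand ℓ d (intCoeff_jq ℓ))
  | algebraMap r => exact isFrac_algebraMap ℓ r
  | add x y _ _ hx hy => exact isFrac_add ℓ hx hy
  | inv x _ hx => exact isFrac_inv ℓ hx
  | mul x y _ _ hx hy => exact isFrac_mul ℓ hx hy

end IntCoeffAux

open IntCoeffAux

variable (N : ℕ) [NeZero N] (ℓ : ℕ) [Fact ℓ.Prime]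

/-- (I) elements integral over `ℤ_(ℓ)[S]`, `S` with `ℓ`-integral coefficients, have `ℓ`-integral
coefficients. -/
theorem intCoeff_of_mem_chartAlg (S : Set ↥(modularFunctionFieldFull N))
    (hS : ∀ s ∈ S, IntCoeff ℓ (s : LaurentSeries ℚ))
    (x : ↥(modularFunctionFieldFull N)) (hx : x ∈ chartAlg N ℓ S) :
    IntCoeff ℓ (x : LaurentSeries ℚ) := by
  have hadj : ∀ y ∈ Algebra.adjoin ↥(GaloisRep.ratLocalizedAt ℓ) S,
      (y : LaurentSeries ℚ) ∈ (cl ℓ).range := by
    intro y hy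
    induction hy using Algebra.adjoin_induction with
    | mem y hy => exact (intCoeff_iff_mem_range ℓ _).mp (hS y hy)
    | algebraMap r =>
      have h := (intCoeff_iff_mem_range ℓ _).mp (intCoeff_algebraMap_of_mem ℓ r.2)
      have h2 : ((algebraMap ↥(GaloisRep.ratLocalizedAt ℓ) ↥(modularFunctionFieldFull N) r :
          ↥(modularFunctionFieldFull N)) : LaurentSeries ℚ) =
          algebraMap ℚ (LaurentSeries ℚ) (r : ℚ) := by
        rw [IsScalarTower.algebraMap_apply ↥(GaloisRep.ratLocalizedAt ℓ) ℚ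
          ↥(modularFunctionFieldFull N)]
        simp only [eq_ratCast]
        rfl
      rw [h2]
      exact h
    | add y z _ _ hy hz => exact add_mem hy hz
    | mul y z _ _ hy hz => exact mul_mem hy hz
  obtain ⟨p, hmonic, hroot⟩ := (mem_chartAlg_iff N ℓ).mp hx
  let ψ : ↥(Algebra.adjoin ↥(GaloisRep.ratLocalizedAt ℓ) S) →+* LaurentSeries ℚ :=
    (algebraMap ↥(modularFunctionFieldFull N) (LaurentSeries ℚ)).comp
      (algebraMap ↥(Algebra.adjoin ↥(GaloisRep.ratLocalizedAt ℓ) S) ↥(modularFunctionFieldFull N))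
  have hlifts : p.map ψ ∈ Polynomial.lifts (cl ℓ) := by
    rw [Polynomial.lifts_iff_coeff_lifts]
    intro i
    rw [Polynomial.coeff_map]
    exact hadj _ (p.coeff i).2
  obtain ⟨q, hq, -, hqmonic⟩ :=
    Polynomial.lifts_and_natDegree_eq_and_monic hlifts (hmonic.map ψ)
  have hint : (cl ℓ).IsIntegralElem (x : LaurentSeries ℚ) := by
    refine ⟨q, hqmonic, ?_⟩
    rw [Polynomial.eval₂_eq_eval_map, hq, Polynomial.eval_map]
    have := congrArg (algebraMap ↥(modularFunctionFieldFull N) (LaurentSeries ℚ)) hroot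
    rw [Polynomial.hom_eval₂, map_zero] at this
    exact this
  obtain ⟨a, b, hb, hab⟩ := isFrac_of_mem ℓ N x.2
  obtain ⟨r, hr⟩ := exists_eq_of_isIntegralElem (cl ℓ) (cl_injective ℓ) _ a b hb hab hint
  exact (intCoeff_iff_mem_range ℓ _).mpr ⟨r, hr⟩

set_option linter.unusedSectionVars false in
theorem intCoeff_jFull : IntCoeff ℓ (jFull N : LaurentSeries ℚ) := intCoeff_jq ℓ

set_option linter.unusedSectionVars false in
theorem intCoeff_jFull_inv :
    IntCoeff ℓ (((jFull N)⁻¹ : ↥(modularFunctionFieldFull N)) : LaurentSeries ℚ) :=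
  intCoeff_jq_inv ℓ

end Fermat.Agent.S28

end
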