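import Fermat.Agent.S28.Defs
import Fermat.Agent.S28.Zl
import Fermat.Agent.S28.IntCoeff

/-!
# S28, WP-4: the `q`-expansion principle for the two charts
-/

set_option autoImplicit false

noncomputable section

namespace Fermat.Agent.S28

open ModularCurve ModularCurve.IgusaScheme Polynomial

namespace LemmaQ

section Abstract

theorem minpoly_smul_eq_scaleRoots {K F : Type*} [Field K] [Field F] [Algebra K F] (g : F)
    (hg : IsIntegral K g) (c : K) (hc : c ≠ 0) :
    minpoly K (c • g) = (minpoly K g).scaleRoots c := by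
  symm
  apply minpoly.unique K (c • g)
  · exact (monic_scaleRoots_iff c).mpr (minpoly.monic hg)
  · rw [Algebra.smul_def]
    exact scaleRoots_aeval_eq_zero (minpoly.aeval K g)
  · intro q hq hq0
    rw [degree_scaleRoots]
    have h1 : aeval g (q.scaleRoots c⁻¹) = 0 := by
      have := scaleRoots_aeval_eq_zero (r := c⁻¹) hq0
      rwa [← Algebra.smul_def, smul_smul, inv_mul_cancel₀ hc, one_smul] at this
    have h2 := minpoly.min K g ((monic_scaleRoots_iff c⁻¹).mpr hq) h1
    rwa [degree_scaleRoots] at h2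

attribute [local instance] FractionRing.liftAlgebra in
theorem isIntegral_of_smul_of_smul {R F : Type*} [CommRing R] [IsDomain R] [IsIntegrallyClosed R]
    [Field F] [Algebra R F] [FaithfulSMul R F] (g : F) (a b : R) (ha : Prime a) (hab : ¬ a ∣ b)
    (h1 : IsIntegral R (a • g)) (h2 : IsIntegral R (b • g)) : IsIntegral R g := by
  let K := FractionRing R
  have hinj : Function.Injective (algebraMap R K) := IsFractionRing.injective R K
  have ha0 : algebraMap R K a ≠ 0 := by
    rw [Ne, map_eq_zero_iff _ hinj]; exact ha.ne_zero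
  have hb0 : algebraMap R K b ≠ 0 := by
    rw [Ne, map_eq_zero_iff _ hinj]
    rintro rfl
    exact hab (dvd_zero a)
  have hgK : IsIntegral K g := by
    have h3 : IsIntegral K (algebraMap R K a • g) := by
      rw [algebraMap_smul]; exact h1.tower_top
    have h4 := h3.smul (algebraMap R K a)⁻¹
    rwa [smul_smul, inv_mul_cancel₀ ha0, one_smul] at h4
  set μ := minpoly K g with hμ
  have key : ∀ c : R, algebraMap R K c ≠ 0 → IsIntegral R (c • g) → ∀ i,
      ∃ r : R, μ.coeff i * algebraMap R K c ^ (μ.natDegree - i) = algebraMap R K r := by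
    intro c hc hint i
    have h3 := minpoly.isIntegrallyClosed_eq_field_fractions' K hint
    rw [← algebraMap_smul K c g, minpoly_smul_eq_scaleRoots g hgK _ hc] at h3
    refine ⟨(minpoly R (algebraMap R K c • g)).coeff i, ?_⟩
    rw [← coeff_map, ← h3, coeff_scaleRoots]
  have hlifts : μ ∈ lifts (algebraMap R K) := by
    rw [lifts_iff_coeff_lifts]
    intro i
    obtain ⟨r, hr⟩ := key a ha0 h1 i
    obtain ⟨s, hs⟩ := key b hb0 h2 i
    set k := μ.natDegree - i
    have h3 : r * b ^ k = s * a ^ k := by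
      apply hinj
      rw [map_mul, map_mul, map_pow, map_pow, ← hr, ← hs]
      ring
    have h4 : a ^ k ∣ r := by
      apply ha.pow_dvd_of_dvd_mul_right k (fun h => hab (ha.dvd_of_dvd_pow h))
      exact ⟨s, by rw [h3]; ring⟩
    obtain ⟨u, rfl⟩ := h4
    refine ⟨u, ?_⟩
    rw [map_mul, map_pow, mul_comm] at hr
    exact (mul_left_cancel₀ (pow_ne_zero k ha0) hr).symm
  obtain ⟨q, hq, -, hqmonic⟩ := lifts_and_natDegree_eq_and_monic hlifts (minpoly.monic hgK)
  refine ⟨q, hqmonic, ?_⟩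
  have h5 : aeval g μ = 0 := minpoly.aeval K g
  rw [← hq, aeval_def, eval₂_map, ← IsScalarTower.algebraMap_eq] at h5
  exact h5

theorem isIntegral_of_stab {Z F : Type*} [CommRing Z] [IsDomain Z] [UniqueFactorizationMonoid Z]
    [Field F] [Algebra Z F] (t : F) (ht : Transcendental Z t) (p : Z) (hp : Prime p)
    {ι : Type*} [Fintype ι] (B : ι → F) (hB : ∃ i, B i ≠ 0) (g : F) (δ : Z[X]) (hδ : ¬ C p ∣ δ)
    (Cm : ι → ι → Z[X]) (hstab : ∀ i, aeval t δ * g * B i = ∑ k, aeval t (Cm i k) * B k)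
    (hx : IsIntegral (Algebra.adjoin Z {t}) (algebraMap Z F p * g)) :
    IsIntegral (Algebra.adjoin Z {t}) g := by
  let e := Polynomial.algEquivOfTranscendental Z t ht
  have hic : IsIntegrallyClosed ↥(Algebra.adjoin Z {t}) :=
    IsIntegrallyClosed.of_equiv e.toRingEquiv
  have hcoe : ∀ f : Z[X], ((e f : ↥(Algebra.adjoin Z {t})) : F) = aeval t f := by
    intro f
    rw [Polynomial.algEquivOfTranscendental_apply]
    exact (Subalgebra.aeval_coe _ _ _).symm
  have hprime : Prime (e (C p)) := (MulEquiv.prime_iff e.toMulEquiv).mpr (prime_C_iff.mpr hp)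
  have hndvd : ¬ e (C p) ∣ e δ := by
    intro h
    exact hδ ((map_dvd_iff e).mp h)
  apply isIntegral_of_smul_of_smul g (e (C p)) (e δ) hprime hndvd
  · have : e (C p) • g = algebraMap Z F p * g := by
      rw [Subalgebra.smul_def, hcoe, aeval_C, smul_eq_mul]
    rw [this]
    exact hx
  · have h1 : e δ • g = aeval t δ * g := by
      rw [Subalgebra.smul_def, hcoe, smul_eq_mul]
    rw [h1]
    apply isIntegral_of_smul_mem_submodule (M := F)
      (Submodule.span ↥(Algebra.adjoin Z {t}) (Set.range B))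
    · obtain ⟨i, hi⟩ := hB
      intro h
      have : B i ∈ Submodule.span ↥(Algebra.adjoin Z {t}) (Set.range B) :=
        Submodule.subset_span ⟨i, rfl⟩
      rw [h, Submodule.mem_bot] at this
      exact hi this
    · exact Submodule.fg_span (Set.finite_range B)
    · intro n hn
      induction hn using Submodule.span_induction with
      | mem x hx =>
        obtain ⟨i, rfl⟩ := hx
        rw [smul_eq_mul, hstab i]
        apply Submodule.sum_mem
        intro k _
        have : aeval t (Cm i k) * B k = e (Cm i k) • B k := by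
          rw [Subalgebra.smul_def, hcoe, smul_eq_mul]
        rw [this]
        exact Submodule.smul_mem _ _ (Submodule.subset_span ⟨k, rfl⟩)
      | zero => rw [smul_zero]; exact Submodule.zero_mem _
      | add x y _ _ hx hy => rw [smul_add]; exact Submodule.add_mem _ hx hy
      | smul a x _ hx =>
        rw [smul_comm]
        exact Submodule.smul_mem _ _ hx

end Abstract

section Reduction

theorem aeval_jq_eq (c : ℤ[X]) :
    aeval jq c = coeffMap (Int.castRingHom ℚ) (aeval (jqModC ℤ) c) := by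
  rw [aeval_def, aeval_def, hom_eval₂, coeffMap_jqModC]
  congr 1
  exact RingHom.ext_int _ _

theorem aeval_jqModC_map_eq (ℓ : ℕ) (c : ℤ[X]) :
    aeval (jqModC (ZMod ℓ)) (c.map (Int.castRingHom (ZMod ℓ))) =
      coeffMap (Int.castRingHom (ZMod ℓ)) (aeval (jqModC ℤ) c) := by
  rw [aeval_def, aeval_def, hom_eval₂, coeffMap_jqModC, eval₂_map]
  congr 1
  exact RingHom.ext_int _ _

theorem C_dvd_of_map_eq_zero (ℓ : ℕ) {c : ℤ[X]} (h : c.map (Int.castRingHom (ZMod ℓ)) = 0) :
    C (ℓ : ℤ) ∣ c := by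
  rw [C_dvd_iff_dvd_coeff]
  intro i
  have := congrArg (fun p => coeff p i) h
  simp only [coeff_map, eq_intCast, coeff_zero] at this
  exact (ZMod.intCast_zmod_eq_zero_iff_dvd _ _).mp this

theorem map_ne_zero_of_not_C_dvd (ℓ : ℕ) {c : ℤ[X]} (h : ¬ C (ℓ : ℤ) ∣ c) :
    c.map (Int.castRingHom (ZMod ℓ)) ≠ 0 := fun h0 => h (C_dvd_of_map_eq_zero ℓ h0)

theorem intCoeff_aeval_jq (ℓ : ℕ) (c : ℤ[X]) : IntCoeff ℓ (aeval jq c) := by
  rw [aeval_jq_eq]
  exact IntCoeffAux.intCoeff_coeffMap_intCast ℓ _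

theorem intCoeff_mul {ℓ : ℕ} {x y : LaurentSeries ℚ} (hx : IntCoeff ℓ x) (hy : IntCoeff ℓ y) :
    IntCoeff ℓ (x * y) := by
  rw [IntCoeffAux.intCoeff_iff_mem_range] at *
  exact mul_mem hx hy

variable {ℓ : ℕ} [Fact ℓ.Prime]

/-- If `w ∈ ℤ((q))` equals `ℓ` times a series with `ℓ`-integral coefficients then `w ≡ 0 mod ℓ`. -/
theorem coeffMap_zmod_eq_zero {w : LaurentSeries ℤ} {z : LaurentSeries ℚ} (hz : IntCoeff ℓ z)
    (h : coeffMap (Int.castRingHom ℚ) w = (ℓ : LaurentSeries ℚ) * z) :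
    coeffMap (Int.castRingHom (ZMod ℓ)) w = 0 := by
  ext n
  rw [coeffMap_coeff, HahnSeries.coeff_zero, eq_intCast, ZMod.intCast_zmod_eq_zero_iff_dvd]
  apply Zl.int_dvd_of_eq_mul ℓ (hz n)
  have := congrArg (fun x => HahnSeries.coeff x n) h
  simp only [coeffMap_coeff, eq_intCast] at this
  rw [this]
  have h2 : (ℓ : LaurentSeries ℚ) = HahnSeries.C (ℓ : ℚ) := by simp
  rw [h2, HahnSeries.C_mul_eq_smul, HahnSeries.coeff_smul, smul_eq_mul]

variable {ι : Type} [Fintype ι] (b : ι → LaurentSeries ℤ)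
  (hind : ∀ c : ι → Polynomial (ZMod ℓ),
        ∑ i, Polynomial.aeval (jqModC (ZMod ℓ)) (c i) *
          coeffMap (Int.castRingHom (ZMod ℓ)) (b i) = 0 → ∀ i, c i = 0)

include hind in
theorem div_step {y : LaurentSeries ℚ} (hy : IntCoeff ℓ y) (e : ℤ[X]) (c : ι → ℤ[X])
    (h : aeval jq (C (ℓ : ℤ) * e) * y =
      ∑ i, aeval jq (c i) * coeffMap (Int.castRingHom ℚ) (b i)) :
    ∃ c' : ι → ℤ[X], aeval jq e * y =
      ∑ i, aeval jq (c' i) * coeffMap (Int.castRingHom ℚ) (b i) := by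
  let w : LaurentSeries ℤ := ∑ i, aeval (jqModC ℤ) (c i) * b i
  have hw : coeffMap (Int.castRingHom ℚ) w = (ℓ : LaurentSeries ℚ) * (aeval jq e * y) := by
    simp only [w, map_sum, map_mul, ← aeval_jq_eq]
    rw [← h, map_mul, aeval_C]
    simp [mul_assoc]
  have hw0 := coeffMap_zmod_eq_zero (intCoeff_mul (intCoeff_aeval_jq ℓ e) hy) hw
  simp only [w, map_sum, map_mul, ← aeval_jqModC_map_eq] at hw0
  have hc := hind (fun i => (c i).map (Int.castRingHom (ZMod ℓ))) hw0
  have hc' : ∀ i, ∃ c' : ℤ[X], c i = C (ℓ : ℤ) * c' := fun i => C_dvd_of_map_eq_zero ℓ (hc i)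
  choose c' hc' using hc'
  refine ⟨c', ?_⟩
  have hℓ : (ℓ : LaurentSeries ℚ) ≠ 0 := by
    have : CharZero (LaurentSeries ℚ) := algebraRat.charZero _
    exact Nat.cast_ne_zero.mpr (Fact.out : ℓ.Prime).ne_zero
  apply mul_left_cancel₀ hℓ
  have h3 : ∀ p : ℤ[X], aeval jq (C (ℓ : ℤ) * p) = (ℓ : LaurentSeries ℚ) * aeval jq p := by
    intro p
    rw [map_mul, aeval_C]
    simp
  rw [← mul_assoc, ← h3, h, Finset.mul_sum]
  refine Finset.sum_congr rfl fun i _ => ?_
  rw [hc' i, h3, mul_assoc]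

include hind in
theorem div_steps {y : LaurentSeries ℚ} (hy : IntCoeff ℓ y) (e : ℤ[X]) (k : ℕ) :
    ∀ c : ι → ℤ[X], aeval jq (C (ℓ : ℤ) ^ k * e) * y =
      ∑ i, aeval jq (c i) * coeffMap (Int.castRingHom ℚ) (b i) →
    ∃ c' : ι → ℤ[X], aeval jq e * y =
      ∑ i, aeval jq (c' i) * coeffMap (Int.castRingHom ℚ) (b i) := by
  induction k with
  | zero =>
    intro c h
    exact ⟨c, by simpa using h⟩
  | succ k ih =>
    intro c h
    rw [pow_succ', mul_assoc] at h
    obtain ⟨c', hc'⟩ := div_step b hind hy _ c h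
    exact ih c' hc'

include hind in
/-- Step (1): denominators can be chosen nonzero mod `ℓ`. -/
theorem exists_good_denominator {y : LaurentSeries ℚ} (hy : IntCoeff ℓ y)
    (hspan : ∃ d : Polynomial ℤ, d ≠ 0 ∧ ∃ c : ι → Polynomial ℤ,
        Polynomial.aeval jq d * y =
          ∑ i, Polynomial.aeval jq (c i) * coeffMap (Int.castRingHom ℚ) (b i)) :
    ∃ d : Polynomial ℤ, d.map (Int.castRingHom (ZMod ℓ)) ≠ 0 ∧ ∃ c : ι → Polynomial ℤ,
        Polynomial.aeval jq d * y =
          ∑ i, Polynomial.aeval jq (c i) * coeffMap (Int.castRingHom ℚ) (b i) := by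
  obtain ⟨d, hd, c, h⟩ := hspan
  have hnu : ¬ IsUnit (C (ℓ : ℤ)) := by
    rw [Polynomial.isUnit_C, Int.isUnit_iff]
    have := (Fact.out : ℓ.Prime).two_le
    omega
  obtain ⟨k, e, he, rfl⟩ := WfDvdMonoid.max_power_factor' hd hnu
  obtain ⟨c', hc'⟩ := div_steps b hind hy e k c h
  exact ⟨e, map_ne_zero_of_not_C_dvd ℓ he, c', hc'⟩

include hind in
/-- Step (2): a multiple `δ(j) g`, `δ ≢ 0 mod ℓ`, stabilises the `ℤ[j]`-span of the `b i`. -/
theorem exists_stab {g : LaurentSeries ℚ} (hg : IntCoeff ℓ g)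
    (hspan : ∀ i, ∃ d : Polynomial ℤ, d ≠ 0 ∧ ∃ c : ι → Polynomial ℤ,
        Polynomial.aeval jq d * (g * coeffMap (Int.castRingHom ℚ) (b i)) =
          ∑ k, Polynomial.aeval jq (c k) * coeffMap (Int.castRingHom ℚ) (b k)) :
    ∃ δ : Polynomial ℤ, δ.map (Int.castRingHom (ZMod ℓ)) ≠ 0 ∧ ∃ Cm : ι → ι → Polynomial ℤ,
      ∀ i, Polynomial.aeval jq δ * g * coeffMap (Int.castRingHom ℚ) (b i) =
          ∑ k, Polynomial.aeval jq (Cm i k) * coeffMap (Int.castRingHom ℚ) (b k) := by
  classical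
  have h1 := fun i => exists_good_denominator b hind
    (intCoeff_mul hg (IntCoeffAux.intCoeff_coeffMap_intCast ℓ (b i))) (hspan i)
  choose δ hδ c hc using h1
  refine ⟨∏ i, δ i, ?_, fun i k => (∏ i' ∈ Finset.univ.erase i, δ i') * c i k, ?_⟩
  · rw [Polynomial.map_prod, Finset.prod_ne_zero_iff]
    exact fun i _ => hδ i
  · intro i
    rw [← Finset.mul_prod_erase Finset.univ δ (Finset.mem_univ i), map_mul]
    calc aeval jq (δ i) * aeval jq (∏ x ∈ Finset.univ.erase i, δ x) * g *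
          coeffMap (Int.castRingHom ℚ) (b i)
        = aeval jq (∏ x ∈ Finset.univ.erase i, δ x) *
          (aeval jq (δ i) * (g * coeffMap (Int.castRingHom ℚ) (b i))) := by ring
      _ = _ := by
          rw [hc i, Finset.mul_sum]
          refine Finset.sum_congr rfl fun k _ => ?_
          rw [map_mul, mul_assoc]

theorem aeval_inv_reflect_mul_pow (D : ℕ) (f : ℤ[X]) (hf : f.natDegree ≤ D) :
    aeval jq⁻¹ (reflect D f) * jq ^ D = aeval jq f := by
  let _ : Invertible jq := invertibleOfNonzero jq_ne_zero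
  have := eval₂_reflect_mul_pow (algebraMap ℤ (LaurentSeries ℚ)) jq D f hf
  rwa [invOf_eq_inv] at this

/-- Step (2) for the chart at infinity. -/
theorem exists_stab_inv {g : LaurentSeries ℚ}
    (h : ∃ δ : Polynomial ℤ, δ.map (Int.castRingHom (ZMod ℓ)) ≠ 0 ∧ ∃ Cm : ι → ι → Polynomial ℤ,
      ∀ i, Polynomial.aeval jq δ * g * coeffMap (Int.castRingHom ℚ) (b i) =
          ∑ k, Polynomial.aeval jq (Cm i k) * coeffMap (Int.castRingHom ℚ) (b k)) :
    ∃ δ : Polynomial ℤ, δ.map (Int.castRingHom (ZMod ℓ)) ≠ 0 ∧ ∃ Cm : ι → ι → Polynomial ℤ,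
      ∀ i, Polynomial.aeval jq⁻¹ δ * g * coeffMap (Int.castRingHom ℚ) (b i) =
          ∑ k, Polynomial.aeval jq⁻¹ (Cm i k) * coeffMap (Int.castRingHom ℚ) (b k) := by
  obtain ⟨δ, hδ, Cm, h⟩ := h
  let D : ℕ := δ.natDegree + ∑ i, ∑ k, (Cm i k).natDegree
  have hD1 : δ.natDegree ≤ D := Nat.le_add_right _ _
  have hD2 : ∀ i k, (Cm i k).natDegree ≤ D := by
    intro i k
    refine le_trans ?_ (Nat.le_add_left _ _)
    refine le_trans ?_ (Finset.single_le_sum (f := fun i => ∑ k, (Cm i k).natDegree)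
      (fun _ _ => Nat.zero_le _) (Finset.mem_univ i))
    exact Finset.single_le_sum (f := fun k => (Cm i k).natDegree)
      (fun _ _ => Nat.zero_le _) (Finset.mem_univ k)
  refine ⟨reflect D δ, ?_, fun i k => reflect D (Cm i k), ?_⟩
  · rw [← reflect_map, Ne, reflect_eq_zero_iff]
    exact hδ
  · intro i
    apply mul_right_cancel₀ (pow_ne_zero D jq_ne_zero)
    calc aeval jq⁻¹ (reflect D δ) * g * coeffMap (Int.castRingHom ℚ) (b i) * jq ^ D
        = (aeval jq⁻¹ (reflect D δ) * jq ^ D) * g * coeffMap (Int.castRingHom ℚ) (b i) := by ring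
      _ = _ := by
          rw [aeval_inv_reflect_mul_pow D δ hD1, h i, Finset.sum_mul]
          refine Finset.sum_congr rfl fun k _ => ?_
          rw [← aeval_inv_reflect_mul_pow D (Cm i k) (hD2 i k)]
          ring

end Reduction

section Transc

variable (N : ℕ) [NeZero N] (ℓ : ℕ) [Fact ℓ.Prime]

theorem transcendental_jq : Transcendental ℚ jq :=
  P2MW.S_ModularCurve_coeff_jqModC_neg_one.ModularCurve.CharLRows.transcendental_jqModC ℚ

theorem transcendental_jq_inv : Transcendental ℚ jq⁻¹ := by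
  intro h
  exact transcendental_jq (IsAlgebraic.inv_iff.mp h)

theorem coe_algebraMap_Zl (r : ↥(GaloisRep.ratLocalizedAt ℓ)) :
    ((algebraMap ↥(GaloisRep.ratLocalizedAt ℓ) ↥(modularFunctionFieldFull N) r :
      ↥(modularFunctionFieldFull N)) : LaurentSeries ℚ) =
      algebraMap ℚ (LaurentSeries ℚ) (r : ℚ) := by
  rw [IsScalarTower.algebraMap_apply ↥(GaloisRep.ratLocalizedAt ℓ) ℚ
    ↥(modularFunctionFieldFull N)]
  simp only [eq_ratCast]
  rfl

theorem transcendental_of_coe (t : ↥(modularFunctionFieldFull N))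
    (ht : Transcendental ℚ (t : LaurentSeries ℚ)) :
    Transcendental ↥(GaloisRep.ratLocalizedAt ℓ) t := by
  rw [transcendental_iff]
  intro p hp
  have h1 : aeval (t : LaurentSeries ℚ) (p.map (GaloisRep.ratLocalizedAt ℓ).subtype) = 0 := by
    have h2 := congrArg (algebraMap ↥(modularFunctionFieldFull N) (LaurentSeries ℚ)) hp
    rw [map_zero, aeval_def, hom_eval₂] at h2
    rw [aeval_def, eval₂_map]
    convert h2 using 2
    · refine RingHom.ext fun r => ?_
      exact (coe_algebraMap_Zl N ℓ r).symm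
    · rfl
  have h3 := (transcendental_iff.mp ht) _ h1
  exact (Polynomial.map_eq_zero_iff (Subtype.val_injective)).mp h3

theorem coe_aeval_map (t : ↥(modularFunctionFieldFull N)) (f : ℤ[X]) :
    ((aeval t (f.map (Int.castRingHom ↥(GaloisRep.ratLocalizedAt ℓ))) :
      ↥(modularFunctionFieldFull N)) : LaurentSeries ℚ) = aeval (t : LaurentSeries ℚ) f := by
  change algebraMap ↥(modularFunctionFieldFull N) (LaurentSeries ℚ) _ = _
  rw [aeval_def, hom_eval₂, eval₂_map, aeval_def]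
  congr 1
  exact RingHom.ext_int _ _

theorem aeval_jq_ne_zero {d : ℤ[X]} (hd : d ≠ 0) : aeval jq d ≠ 0 := by
  intro h
  apply hd
  have h1 : aeval jq (d.map (Int.castRingHom ℚ)) = 0 := by
    rw [← h, aeval_def, eval₂_map, aeval_def]
    congr 1
    exact RingHom.ext_int _ _
  have h2 := (transcendental_iff.mp transcendental_jq) _ h1
  exact (Polynomial.map_eq_zero_iff Int.cast_injective).mp h2

theorem exists_eq_mul_aux (hD : DegreeData N ℓ) (t : ↥(modularFunctionFieldFull N))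
    (ht : (t : LaurentSeries ℚ) = jq ∨ (t : LaurentSeries ℚ) = jq⁻¹)
    (x : ↥(modularFunctionFieldFull N)) (hx : x ∈ chartAlg N ℓ {t})
    (hx' : DvdCoeff ℓ (x : LaurentSeries ℚ)) :
    ∃ y ∈ chartAlg N ℓ {t}, x = (ℓ : ↥(modularFunctionFieldFull N)) * y := by
  classical
  obtain ⟨ι, _, b, hmem, hspan, hind⟩ := hD
  have hℓ0 : (ℓ : ℚ) ≠ 0 := Nat.cast_ne_zero.mpr (Fact.out : ℓ.Prime).ne_zero
  have hℓF : (ℓ : ↥(modularFunctionFieldFull N)) ≠ 0 :=
    Nat.cast_ne_zero.mpr (Fact.out : ℓ.Prime).ne_zero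
  let g : ↥(modularFunctionFieldFull N) := (ℓ : ↥(modularFunctionFieldFull N))⁻¹ * x
  have hxg : x = (ℓ : ↥(modularFunctionFieldFull N)) * g := by
    simp only [g]
    field_simp
  refine ⟨g, ?_, hxg⟩
  rw [mem_chartAlg_iff] at hx ⊢
  have hg : IntCoeff ℓ (g : LaurentSeries ℚ) := by
    intro n
    obtain ⟨r, hr, hrn⟩ := hx' n
    have h1 : (x : LaurentSeries ℚ) = HahnSeries.C (ℓ : ℚ) * (g : LaurentSeries ℚ) := by
      have := congrArg (fun z : ↥(modularFunctionFieldFull N) => (z : LaurentSeries ℚ)) hxg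
      simp only [IntermediateField.coe_mul] at this
      rw [this]
      congr 1
    rw [h1, HahnSeries.C_mul_eq_smul, HahnSeries.coeff_smul, smul_eq_mul] at hrn
    rw [mul_left_cancel₀ hℓ0 hrn]
    exact hr
  have hstab0 := exists_stab b hind hg (fun i => hspan _ (mul_mem g.2 (hmem i)))
  have hstab : ∃ δ : Polynomial ℤ, δ.map (Int.castRingHom (ZMod ℓ)) ≠ 0 ∧
      ∃ Cm : ι → ι → Polynomial ℤ,
      ∀ i, Polynomial.aeval (t : LaurentSeries ℚ) δ * g * coeffMap (Int.castRingHom ℚ) (b i) =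
          ∑ k, Polynomial.aeval (t : LaurentSeries ℚ) (Cm i k) *
            coeffMap (Int.castRingHom ℚ) (b k) := by
    rcases ht with ht | ht
    · rw [ht]; exact hstab0
    · rw [ht]; exact exists_stab_inv b hstab0
  obtain ⟨δ, hδ, Cm, hst⟩ := hstab
  have htr : Transcendental ↥(GaloisRep.ratLocalizedAt ℓ) t := by
    apply transcendental_of_coe N ℓ t
    rcases ht with ht | ht
    · rw [ht]; exact transcendental_jq
    · rw [ht]; exact transcendental_jq_inv
  have hne : Nonempty ι := by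
    by_contra hemp
    rw [not_nonempty_iff] at hemp
    obtain ⟨d, hd, c, h⟩ := hspan 1 (one_mem _)
    rw [mul_one, Finset.univ_eq_empty, Finset.sum_empty] at h
    exact aeval_jq_ne_zero hd h
  obtain ⟨i₀⟩ := hne
  have hB : ∃ i, (⟨coeffMap (Int.castRingHom ℚ) (b i), hmem i⟩ : ↥(modularFunctionFieldFull N)) ≠ 0 := by
    refine ⟨i₀, ?_⟩
    intro h0
    have h1 : coeffMap (Int.castRingHom ℚ) (b i₀) = 0 := congrArg Subtype.val h0
    have h2 : b i₀ = 0 := by
      ext n
      have := congrArg (fun z => HahnSeries.coeff z n) h1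
      simpa using this
    have h3 := hind (Pi.single i₀ 1) (by
      apply Finset.sum_eq_zero
      intro i _
      by_cases hi : i = i₀
      · subst hi
        rw [h2, map_zero, mul_zero]
      · rw [Pi.single_eq_of_ne hi, map_zero, zero_mul]) i₀
    rw [Pi.single_eq_same] at h3
    exact one_ne_zero h3
  have hδ' : ¬ C (ℓ : ↥(GaloisRep.ratLocalizedAt ℓ)) ∣
      δ.map (Int.castRingHom ↥(GaloisRep.ratLocalizedAt ℓ)) := by
    intro h
    apply hδ
    rw [C_dvd_iff_dvd_coeff] at h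
    ext i
    rw [coeff_map, coeff_zero, eq_intCast, ZMod.intCast_zmod_eq_zero_iff_dvd]
    have := h i
    rw [coeff_map, eq_intCast] at this
    exact (Zl.natCast_dvd_intCast_iff ℓ _).mp this
  apply isIntegral_of_stab t htr (ℓ : ↥(GaloisRep.ratLocalizedAt ℓ)) (Zl.prime_natCast ℓ)
    (fun i => (⟨coeffMap (Int.castRingHom ℚ) (b i), hmem i⟩ : ↥(modularFunctionFieldFull N))) hB g
    (δ.map (Int.castRingHom ↥(GaloisRep.ratLocalizedAt ℓ))) hδ'
    (fun i k => (Cm i k).map (Int.castRingHom ↥(GaloisRep.ratLocalizedAt ℓ)))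
  · intro i
    apply Subtype.ext
    simp only [IntermediateField.coe_mul, IntermediateField.coe_sum, coe_aeval_map]
    exact hst i
  · rw [map_natCast, ← hxg]
    exact hx

end Transc

end LemmaQ

variable (N : ℕ) [NeZero N] (ℓ : ℕ) [Fact ℓ.Prime]

/-- (Q) the `q`-expansion principle for the two charts. -/
theorem exists_eq_mul_of_dvdCoeff_fin (hD : DegreeData N ℓ)
    (x : ↥(modularFunctionFieldFull N)) (hx : x ∈ chartAlgFin N ℓ)
    (hx' : DvdCoeff ℓ (x : LaurentSeries ℚ)) :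
    ∃ y ∈ chartAlgFin N ℓ, x = (ℓ : ↥(modularFunctionFieldFull N)) * y :=
  LemmaQ.exists_eq_mul_aux N ℓ hD (jFull N) (Or.inl rfl) x hx hx'

theorem exists_eq_mul_of_dvdCoeff_inf (hD : DegreeData N ℓ)
    (x : ↥(modularFunctionFieldFull N)) (hx : x ∈ chartAlgInf N ℓ)
    (hx' : DvdCoeff ℓ (x : LaurentSeries ℚ)) :
    ∃ y ∈ chartAlgInf N ℓ, x = (ℓ : ↥(modularFunctionFieldFull N)) * y :=
  LemmaQ.exists_eq_mul_aux N ℓ hD (jFull N)⁻¹ (Or.inr rfl) x hx hx'

end Fermat.Agent.S28

end
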