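import Fermat.Agent.S28.Defs
import Fermat.Agent.S28.Formal

/-!
# S28, WP-2: the tensor part

`A ⊗_{ℤ_(ℓ)} K` embeds into `K((q))` by reduction of `q`-expansions.
-/

set_option autoImplicit false
set_option linter.unusedSectionVars false
set_option linter.style.haveILetI false
set_option warn.classDefReducibility false

noncomputable section

namespace Fermat.Agent.S28

open ModularCurve ModularCurve.IgusaScheme
open scoped TensorProduct

namespace Tensor

variable (ℓ : ℕ) [Fact ℓ.Prime]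

set_option quotPrecheck false in
local notation "Zl" => ↥(GaloisRep.ratLocalizedAt ℓ)

/-- every element of `ℤ_(ℓ)` is congruent to an integer mod `ℓ`. -/
theorem exists_int_add (r : Zl) : ∃ (m : ℤ) (r' : Zl), r = (m : Zl) + (ℓ : Zl) * r' := by
  obtain ⟨q, hq⟩ := r
  have hcop : Nat.Coprime q.den ℓ := hq
  -- u * den + v * ℓ = 1
  have hb : IsCoprime (q.den : ℤ) (ℓ : ℤ) := Nat.isCoprime_iff_coprime.mpr hcop
  obtain ⟨u, v, huv⟩ := hb
  have hmem : (v : ℚ) * q ∈ GaloisRep.ratLocalizedAt ℓ :=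
    mul_mem (intCast_mem _ v) hq
  refine ⟨u * q.num, ⟨(v : ℚ) * q, hmem⟩, ?_⟩
  apply Subtype.ext
  have hden : (q.den : ℚ) ≠ 0 := by exact_mod_cast q.den_nz
  have hq' : q * q.den = q.num := Rat.mul_den_eq_num q
  have huv' : (u : ℚ) * q.den + v * ℓ = 1 := by exact_mod_cast huv
  push_cast
  calc q = q * ((u : ℚ) * q.den + v * ℓ) := by rw [huv', mul_one]
    _ = u * (q * q.den) + ℓ * (v * q) := by ring
    _ = u * q.num + ℓ * (v * q) := by rw [hq']

/-- lift of an `ℓ`-integral series. -/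
def liftZ (x : LaurentSeries ℚ) (h : IntCoeff ℓ x) : LaurentSeries Zl where
  coeff := fun n => ⟨x.coeff n, h n⟩
  isPWO_support' := x.isPWO_support.mono (by
    intro n hn
    simp only [Function.mem_support, ne_eq] at hn
    exact fun h' => hn (Subtype.ext h'))

theorem coeffMap_liftZ (x : LaurentSeries ℚ) (h : IntCoeff ℓ x) :
    coeffMap (GaloisRep.ratLocalizedAt ℓ).subtype (liftZ ℓ x h) = x := by
  ext n
  rw [coeffMap_coeff]
  rfl

theorem coeffMap_subtype_injective :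
    Function.Injective (coeffMap (GaloisRep.ratLocalizedAt ℓ).subtype) := by
  intro x y hxy
  ext n
  have := congrArg (fun z => z.coeff n) hxy
  simp only [coeffMap_coeff] at this
  exact congrArg Subtype.val (Subtype.ext this)

variable (N : ℕ) [NeZero N]

/-- the lift as a ring hom on `A`. -/
def liftHom (A : Subalgebra Zl ↥(modularFunctionFieldFull N))
    (h1 : ∀ x ∈ A, IntCoeff ℓ (x : LaurentSeries ℚ)) : ↥A →+* LaurentSeries Zl where
  toFun a := liftZ ℓ ((a : ↥(modularFunctionFieldFull N)) : LaurentSeries ℚ) (h1 a a.2)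
  map_zero' := by
    apply coeffMap_subtype_injective ℓ
    rw [coeffMap_liftZ, map_zero]; rfl
  map_one' := by
    apply coeffMap_subtype_injective ℓ
    rw [coeffMap_liftZ, map_one]; rfl
  map_add' a b := by
    apply coeffMap_subtype_injective ℓ
    rw [map_add, coeffMap_liftZ, coeffMap_liftZ, coeffMap_liftZ]; rfl
  map_mul' a b := by
    apply coeffMap_subtype_injective ℓ
    rw [map_mul, coeffMap_liftZ, coeffMap_liftZ, coeffMap_liftZ]; rfl

theorem liftHom_coeff (A : Subalgebra Zl ↥(modularFunctionFieldFull N))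
    (h1 : ∀ x ∈ A, IntCoeff ℓ (x : LaurentSeries ℚ)) (a : ↥A) (n : ℤ) :
    (((liftHom ℓ N A h1 a).coeff n : Zl) : ℚ) =
      ((a : ↥(modularFunctionFieldFull N)) : LaurentSeries ℚ).coeff n := rfl

variable (K : Type) [Field K] [Algebra ↥(GaloisRep.ratLocalizedAt ℓ) K]

/-- reduction of `q`-expansions `A → K((q))`. -/
def redHom (A : Subalgebra Zl ↥(modularFunctionFieldFull N))
    (h1 : ∀ x ∈ A, IntCoeff ℓ (x : LaurentSeries ℚ)) : ↥A →+* LaurentSeries K :=
  (coeffMap (algebraMap Zl K)).comp (liftHom ℓ N A h1)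

theorem redHom_coeff (A : Subalgebra Zl ↥(modularFunctionFieldFull N))
    (h1 : ∀ x ∈ A, IntCoeff ℓ (x : LaurentSeries ℚ)) (a : ↥A) (n : ℤ) :
    (redHom ℓ N K A h1 a).coeff n = algebraMap Zl K ((liftHom ℓ N A h1 a).coeff n) := by
  rw [redHom, RingHom.comp_apply, coeffMap_coeff]

theorem liftHom_algebraMap (A : Subalgebra Zl ↥(modularFunctionFieldFull N))
    (h1 : ∀ x ∈ A, IntCoeff ℓ (x : LaurentSeries ℚ)) (r : Zl) :
    liftHom ℓ N A h1 (algebraMap Zl ↥A r) = HahnSeries.C r := by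
  apply coeffMap_subtype_injective ℓ
  have h : coeffMap (GaloisRep.ratLocalizedAt ℓ).subtype (liftHom ℓ N A h1 (algebraMap Zl ↥A r))
      = (((algebraMap Zl ↥A r : ↥A) : ↥(modularFunctionFieldFull N)) : LaurentSeries ℚ) :=
    coeffMap_liftZ ℓ _ _
  rw [h]
  have h2 : (((algebraMap Zl ↥A r : ↥A) : ↥(modularFunctionFieldFull N)) : LaurentSeries ℚ)
      = algebraMap ℚ (LaurentSeries ℚ) (r : ℚ) := by
    have e1 : ((algebraMap Zl ↥A r : ↥A) : ↥(modularFunctionFieldFull N)) =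
      algebraMap Zl ↥(modularFunctionFieldFull N) r := rfl
    have e2 : algebraMap Zl ↥(modularFunctionFieldFull N) r =
      algebraMap ℚ ↥(modularFunctionFieldFull N) (r : ℚ) := rfl
    rw [e1, e2, eq_ratCast (algebraMap ℚ ↥(modularFunctionFieldFull N)) (r : ℚ),
      eq_ratCast (algebraMap ℚ (LaurentSeries ℚ)) (r : ℚ)]
    norm_cast
  rw [h2, algebraMap_eq_C]
  exact (coeffMap_C (GaloisRep.ratLocalizedAt ℓ).subtype r).symm

theorem redHom_algebraMap (A : Subalgebra Zl ↥(modularFunctionFieldFull N))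
    (h1 : ∀ x ∈ A, IntCoeff ℓ (x : LaurentSeries ℚ)) (r : Zl) :
    redHom ℓ N K A h1 (algebraMap Zl ↥A r) = HahnSeries.C (algebraMap Zl K r) := by
  rw [redHom, RingHom.comp_apply, liftHom_algebraMap]
  exact coeffMap_single _ _ _

/-- the algebra structure on `K((q))` used for the tensor product map. -/
def algLS : Algebra Zl (LaurentSeries K) :=
  ((HahnSeries.C : K →+* LaurentSeries K).comp (algebraMap Zl K)).toAlgebra

/-- the map `A ⊗ K → K((q))`. -/
def tensorHom (A : Subalgebra Zl ↥(modularFunctionFieldFull N))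
    (h1 : ∀ x ∈ A, IntCoeff ℓ (x : LaurentSeries ℚ)) :
    (↥A ⊗[Zl] K) →+* LaurentSeries K :=
  letI := algLS ℓ K
  (Algebra.TensorProduct.productMap
    ({ redHom ℓ N K A h1 with commutes' := fun r => redHom_algebraMap ℓ N K A h1 r } :
      ↥A →ₐ[Zl] LaurentSeries K)
    ({ (HahnSeries.C : K →+* LaurentSeries K) with commutes' := fun _ => rfl } :
      K →ₐ[Zl] LaurentSeries K)).toRingHom

theorem tensorHom_tmul (A : Subalgebra Zl ↥(modularFunctionFieldFull N))
    (h1 : ∀ x ∈ A, IntCoeff ℓ (x : LaurentSeries ℚ)) (a : ↥A) (c : K) :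
    tensorHom ℓ N K A h1 (a ⊗ₜ c) = redHom ℓ N K A h1 a * HahnSeries.C c := by
  letI := algLS ℓ K
  exact Algebra.TensorProduct.productMap_apply_tmul _ _ _ _

variable [CharP K ℓ]

theorem exists_zmod (r : Zl) :
    letI := ZMod.algebra K ℓ
    ∃ m : ZMod ℓ, (∀ c : K, algebraMap Zl K r * c = m • c) ∧
      (m = 0 → ∃ r' : Zl, r = (ℓ : Zl) * r') := by
  letI := ZMod.algebra K ℓ
  obtain ⟨m, r', h⟩ := exists_int_add ℓ r
  refine ⟨(m : ZMod ℓ), fun c => ?_, fun hm => ?_⟩
  · rw [h, map_add, map_mul, map_natCast, map_intCast, CharP.cast_eq_zero K ℓ, zero_mul, add_zero,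
      Algebra.smul_def, map_intCast]
  · rw [ZMod.intCast_zmod_eq_zero_iff_dvd] at hm
    obtain ⟨k, rfl⟩ := hm
    refine ⟨(k : Zl) + r', ?_⟩
    rw [h]
    push_cast
    ring

theorem natCast_tmul_eq_zero (A : Subalgebra Zl ↥(modularFunctionFieldFull N)) (y : ↥A) (c : K) :
    (((ℓ : ↥A) * y) ⊗ₜ[Zl] c : ↥A ⊗[Zl] K) = 0 := by
  have h : (ℓ : ↥A) * y = (ℓ : Zl) • y := by
    rw [Algebra.smul_def, map_natCast]
  rw [h, TensorProduct.smul_tmul, Algebra.smul_def, map_natCast, CharP.cast_eq_zero K ℓ, zero_mul,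
    TensorProduct.tmul_zero]

set_option synthInstance.maxHeartbeats 400000 in
theorem tensorHom_injective (A : Subalgebra Zl ↥(modularFunctionFieldFull N))
    (h1 : ∀ x ∈ A, IntCoeff ℓ (x : LaurentSeries ℚ))
    (h2 : ∀ x ∈ A, DvdCoeff ℓ (x : LaurentSeries ℚ) →
      ∃ y ∈ A, x = (ℓ : ↥(modularFunctionFieldFull N)) * y) :
    Function.Injective (tensorHom ℓ N K A h1) := by
  letI := ZMod.algebra K ℓ
  haveI : NeZero ℓ := ⟨(Fact.out : ℓ.Prime).ne_zero⟩
  let e := Module.Basis.ofVectorSpace (ZMod ℓ) K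
  let Ψ : (Module.Basis.ofVectorSpaceIndex (ZMod ℓ) K →₀ ↥A) →+ (↥A ⊗[Zl] K) :=
    Finsupp.liftAddHom (fun s => ((TensorProduct.mk Zl ↥A K).flip (e s)).toAddMonoidHom)
  have hΨ1 : ∀ s a, Ψ (Finsupp.single s a) = a ⊗ₜ e s := by
    intro s a
    simp [Ψ]
  have hΨ2 : ∀ f, Ψ f = f.sum (fun s a => a ⊗ₜ e s) := by
    intro f
    simp only [Ψ, Finsupp.liftAddHom_apply]
    rfl
  have hsurj : ∀ x, x ∈ AddMonoidHom.mrange Ψ := by
    intro x
    induction x using TensorProduct.induction_on with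
    | zero => exact zero_mem _
    | add x y hx hy => exact add_mem hx hy
    | tmul a c =>
      have hc : c = ∑ s ∈ (e.repr c).support, (e.repr c s) • e s := by
        conv_lhs => rw [← e.linearCombination_repr c]
        rw [Finsupp.linearCombination_apply, Finsupp.sum]
      rw [hc, TensorProduct.tmul_sum]
      refine sum_mem fun s _ => ⟨Finsupp.single s (((e.repr c s).val : Zl) • a), ?_⟩
      rw [hΨ1, TensorProduct.smul_tmul]
      congr 1
      rw [Nat.cast_smul_eq_nsmul, ← Nat.cast_smul_eq_nsmul (ZMod ℓ), ZMod.natCast_zmod_val]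
  rw [injective_iff_map_eq_zero]
  intro x hx
  obtain ⟨f, rfl⟩ := hsurj x
  rw [hΨ2] at hx ⊢
  rw [Finsupp.sum] at hx ⊢
  rw [map_sum] at hx
  have key : ∀ n : ℤ, ∀ s ∈ f.support, ∃ r' : Zl,
      (liftHom ℓ N A h1 (f s)).coeff n = (ℓ : Zl) * r' := by
    intro n
    choose m hm1 hm2 using fun s => exists_zmod ℓ K ((liftHom ℓ N A h1 (f s)).coeff n)
    have h0 := congrArg (fun z => z.coeff n) hx
    simp only [HahnSeries.coeff_sum, HahnSeries.coeff_zero] at h0
    have h3 : ∑ s ∈ f.support, m s • e s = 0 := by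
      rw [← h0]
      refine Finset.sum_congr rfl fun s _ => ?_
      rw [tensorHom_tmul, mul_comm, HahnSeries.C_mul_eq_smul, HahnSeries.coeff_smul, redHom_coeff,
        smul_eq_mul, mul_comm, hm1]
    intro s hs
    exact hm2 s (linearIndependent_iff'.mp e.linearIndependent f.support m h3 s hs)
  refine Finset.sum_eq_zero fun s hs => ?_
  have hd : DvdCoeff ℓ (((f s : ↥A) : ↥(modularFunctionFieldFull N)) : LaurentSeries ℚ) := by
    intro n
    obtain ⟨r', hr'⟩ := key n s hs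
    refine ⟨r', r'.2, ?_⟩
    rw [← liftHom_coeff ℓ N A h1 (f s) n, hr']
    push_cast
    rfl
  obtain ⟨y, hy, hfy⟩ := h2 _ (f s).2 hd
  have hfy' : f s = (ℓ : ↥A) * ⟨y, hy⟩ := by
    apply Subtype.ext
    rw [hfy]
    push_cast
    rfl
  rw [hfy']
  exact natCast_tmul_eq_zero ℓ N K A _ _

end Tensor

variable (N : ℕ) [NeZero N] (ℓ : ℕ) [Fact ℓ.Prime]

/-- (T1) tensor part: domain -/
theorem isDomain_tensor_of_qexp
    (K : Type) [Field K] [CharP K ℓ] [Algebra ↥(GaloisRep.ratLocalizedAt ℓ) K]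
    (A : Subalgebra ↥(GaloisRep.ratLocalizedAt ℓ) ↥(modularFunctionFieldFull N))
    (h1 : ∀ x ∈ A, IntCoeff ℓ (x : LaurentSeries ℚ))
    (h2 : ∀ x ∈ A, DvdCoeff ℓ (x : LaurentSeries ℚ) → ∃ y ∈ A, x = (ℓ : ↥(modularFunctionFieldFull N)) * y) :
    IsDomain (↥A ⊗[↥(GaloisRep.ratLocalizedAt ℓ)] K) :=
  Function.Injective.isDomain (Tensor.tensorHom ℓ N K A h1) (Tensor.tensorHom_injective ℓ N K A h1 h2)

/-- (T2) tensor part: nontrivial -/
theorem nontrivial_tensor_of_intCoeff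
    (K : Type) [Field K] [CharP K ℓ] [Algebra ↥(GaloisRep.ratLocalizedAt ℓ) K]
    (A : Subalgebra ↥(GaloisRep.ratLocalizedAt ℓ) ↥(modularFunctionFieldFull N))
    (h1 : ∀ x ∈ A, IntCoeff ℓ (x : LaurentSeries ℚ)) :
    Nontrivial (↥A ⊗[↥(GaloisRep.ratLocalizedAt ℓ)] K) :=
  (Tensor.tensorHom ℓ N K A h1).domain_nontrivial

end Fermat.Agent.S28

end
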