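import Fermat.Agent.S28.Scheme
import Fermat.Agent.S28.Tensor
import Fermat.Agent.S28.IntCoeff
import Fermat.Agent.S28.Degree
import Fermat.Agent.S28.FS
import Fermat.Agent.S28.Transfer
import Fermat.Agent.S28.Core
import Fermat.Agent.S28.QExp
import Fermat.Agent.S28.Span
import Fermat.Agent.S28.NormForm
import Fermat.Agent.S28.Extract
import Fermat.Agent.S28.LemmaQ

/-!
# S28: assembly of all the packages
-/

set_option autoImplicit false

noncomputable section

namespace Fermat.Agent.S28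

open ModularCurve ModularCurve.IgusaScheme AlgebraicGeometry CategoryTheory CategoryTheory.Limits
open scoped TensorProduct

/-- (M1) the analytic core, in formal terms. -/
theorem analytic_core (p : ℕ) [NeZero p] (hp : p.Prime) (x y z : ℂ) :
    ∃ c : ℕ → ℂ,
      (x • qExpand ℂ p (DeltaC ℂ) +
          (p : ℂ) ^ 12 • qExpand ℂ (p ^ 2) (y • DeltaC ℂ + z • E4cubeC ℂ)) *
        ∏ b ∈ Finset.range p, (x • qExpand ℂ p (DeltaC ℂ) +
          scale (zetaC p ^ b) (y • DeltaC ℂ + z • E4cubeC ℂ)) =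
      ∑ i ∈ Finset.range (p + 2),
        c i • qExpand ℂ p (E4cubeC ℂ ^ i * DeltaC ℂ ^ (p + 1 - i)) :=
  Core.analytic_core_of p hp zetaC qExpansion_E4 qExpansion_discriminant levelOne_span
    exists_normForm x y z

variable (N : ℕ) [NeZero N] (ℓ : ℕ) [Fact ℓ.Prime]

/-- (M2) the modular equations over `ℂ`. -/
theorem modEq_complex (p : ℕ) [NeZero p] (hp : p.Prime) : ModEq ℂ p (zetaC p) :=
  modEq_complex_of_core p (zetaC p) (fun x y z => analytic_core p hp x y z)

theorem main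
    (hℓN : ¬ ℓ ∣ N)
    (K : Type) [Field K] [CharP K ℓ] [Algebra ↥(GaloisRep.ratLocalizedAt ℓ) K] :
    IsIntegral ↑(pullback (igusaTo N ℓ)
      (Spec.map (CommRingCat.ofHom (algebraMap ↥(GaloisRep.ratLocalizedAt ℓ) K)))) := by
  have modEq_field : ∀ (k : Type) [Field k] [IsAlgClosed k] (p : ℕ) [NeZero p], p.Prime →
      (p : k) ≠ 0 → ∃ ζ : kˣ, IsPrimitiveRoot ζ p ∧ ModEq k p ζ :=
    fun k _ _ p _ hp hpk =>
      modEq_field_of_complex p (zetaC p) (isPrimitiveRoot_zetaC p) (modEq_complex p hp) k hpk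
  have hD : DegreeData N ℓ := degreeData_of_modEq' N ℓ hℓN modEq_field
    (fun k _ _ M _ p _ hp hpM hpk hMk H => jp_not_mem_full k M p hp hpM hpk hMk H)
  have hj := intCoeff_jFull N ℓ
  have hj' := intCoeff_jFull_inv N ℓ
  refine isIntegral_pullback_of_charts N ℓ K ?_ ?_ ?_
  · refine isDomain_tensor_of_qexp N ℓ K _ (fun x hx => intCoeff_of_mem_chartAlg N ℓ _ ?_ x hx)
      (fun x hx hx' => exists_eq_mul_of_dvdCoeff_fin N ℓ hD x hx hx')
    rintro s rfl; exact hj
  · refine isDomain_tensor_of_qexp N ℓ K _ (fun x hx => intCoeff_of_mem_chartAlg N ℓ _ ?_ x hx)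
      (fun x hx hx' => exists_eq_mul_of_dvdCoeff_inf N ℓ hD x hx hx')
    rintro s rfl; exact hj'
  · refine nontrivial_tensor_of_intCoeff N ℓ K _ (fun x hx => intCoeff_of_mem_chartAlg N ℓ _ ?_ x hx)
    rintro s (rfl | rfl)
    · exact hj
    · exact hj'

end Fermat.Agent.S28

end
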