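import Mathlib
import Fermat.Prelude.Def_ModularCurve_IgusaScheme
import Fermat.Prelude.Def_ModularCurve_X0ModL

/-!
# S28: basic definitions shared by all modules

* `scale c` : the substitution `q ↦ c q` on Laurent series (`c` a unit).
* `DeltaC R`, `DeltaInvC R`, `E4cubeC R` : the formal `Δ`, `Δ⁻¹`, `E₄³`.
* `ModEq R p ζ` : the package of "modular equations of level `p`" over `R`.
* `DegreeData N ℓ` : the degree comparison between characteristic `0` and `ℓ`.
-/

set_option autoImplicit false

noncomputable section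

namespace Fermat.Agent.S28

open ModularCurve Polynomial

section Scale

variable {R : Type*} [CommRing R]

/-- auxiliary: the underlying function of `scale`. -/
def scaleFun (c : Rˣ) (x : LaurentSeries R) : LaurentSeries R where
  coeff := fun n => ((c ^ n : Rˣ) : R) * x.coeff n
  isPWO_support' := x.isPWO_support.mono (by
    intro n hn
    simp only [Function.mem_support, ne_eq] at hn
    exact fun h => hn (by rw [h, mul_zero]))

theorem scaleFun_coeff (c : Rˣ) (x : LaurentSeries R) (n : ℤ) :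
    (scaleFun c x).coeff n = ((c ^ n : Rˣ) : R) * x.coeff n := rfl

theorem mem_support_scaleFun (c : Rˣ) (x : LaurentSeries R) (n : ℤ) :
    n ∈ (scaleFun c x).support ↔ n ∈ x.support := by
  rw [HahnSeries.mem_support, HahnSeries.mem_support, scaleFun_coeff, ne_eq, ne_eq,
    Units.mul_right_eq_zero]

/-- The substitution `q ↦ c q`. -/
def scale (c : Rˣ) : LaurentSeries R →+* LaurentSeries R where
  toFun x := scaleFun c x
  map_zero' := by ext n; simp [scaleFun_coeff]
  map_one' := by
    ext n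
    rw [scaleFun_coeff]
    simp only [HahnSeries.coeff_one]
    split_ifs with h
    · subst h; simp
    · simp
  map_add' x y := by ext n; simp [scaleFun_coeff, mul_add]
  map_mul' x y := by
    ext n
    rw [HahnSeries.coeff_mul, scaleFun_coeff, HahnSeries.coeff_mul, Finset.mul_sum]
    refine Finset.sum_congr ?_ fun ij hij => ?_
    · ext ij
      simp only [Finset.mem_antidiagonal, mem_support_scaleFun]
    · have h : ij.1 + ij.2 = n := (Finset.mem_antidiagonal.mp hij).2.2
      rw [scaleFun_coeff, scaleFun_coeff, ← h, zpow_add, Units.val_mul]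
      ring

@[simp]
theorem scale_coeff (c : Rˣ) (x : LaurentSeries R) (n : ℤ) :
    (scale c x).coeff n = ((c ^ n : Rˣ) : R) * x.coeff n := rfl

end Scale

section FormalForms

variable (R : Type*) [CommRing R]

/-- formal `Δ = q ∏ (1 - qⁿ)²⁴`. -/
def DeltaC : LaurentSeries R :=
  HahnSeries.single (1 : ℤ) 1 *
    HahnSeries.ofPowerSeries ℤ R (dedekindEtaUnit.map (Int.castRingHom R))

/-- formal `Δ⁻¹`. -/
def DeltaInvC : LaurentSeries R :=
  HahnSeries.single (-1 : ℤ) 1 *
    HahnSeries.ofPowerSeries ℤ R (dedekindEtaUnitInv.map (Int.castRingHom R))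

/-- formal `E₄³`. -/
def E4cubeC : LaurentSeries R :=
  HahnSeries.ofPowerSeries ℤ R ((eisenstein4 ^ 3).map (Int.castRingHom R))

end FormalForms

section ModEq

variable (R : Type*) [CommRing R] (p : ℕ) [NeZero p] (ζ : Rˣ)

instance instNeZeroSq : NeZero (p ^ 2) := ⟨pow_ne_zero 2 (NeZero.ne p)⟩

/-- evaluation `Y ↦ j(t^p)`. -/
def evJ : Polynomial R →+* LaurentSeries R :=
  (Polynomial.aeval (qExpand R p (jqModC R))).toRingHom

/-- the "conjugates" of `j(p τ)`, in the variable `t = q^{1/p}`:
`j(t^{p²})` and `j(ζ^b t)`. -/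
def jConj : Option (Fin p) → LaurentSeries R
  | none => qExpand R (p ^ 2) (jqModC R)
  | some b => scale (ζ ^ (b : ℕ)) (jqModC R)

/-- the "conjugates" of `p¹² Δ(pτ)/Δ(τ)`, in the variable `t = q^{1/p}`:
`p¹² Δ(t^{p²})/Δ(t^p)` and `Δ(ζ^b t)/Δ(t^p)`. -/
def uConj : Option (Fin p) → LaurentSeries R
  | none => (p : LaurentSeries R) ^ 12 * qExpand R (p ^ 2) (DeltaC R) * qExpand R p (DeltaInvC R)
  | some b => scale (ζ ^ (b : ℕ)) (DeltaC R) * qExpand R p (DeltaInvC R)

/-- The modular equations of level `p` over `R` (w.r.t. the `p`-th root of unity `ζ`):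
all the symmetric expressions below are polynomials in `j(t^p)`. -/
def ModEq : Prop :=
  ∃ Φ P Λ : Polynomial (Polynomial R),
    Φ.map (evJ R p) = ∏ α, (X - C (jConj R p ζ α)) ∧
    P.map (evJ R p) = ∏ α, (X - C (uConj R p ζ α)) ∧
    Λ.map (evJ R p) = ∑ α, C (jConj R p ζ α * uConj R p ζ α) *
      ∏ β ∈ Finset.univ.erase α, (X - C (uConj R p ζ β))

end ModEq

/-- Degree comparison between characteristic `0` and characteristic `ℓ`:
a finite family of integral Laurent series lying in the function field, spanning it over `ℚ(j)`,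
and whose reductions mod `ℓ` are linearly independent over `𝔽_ℓ[j]`. -/
def DegreeData (N : ℕ) [NeZero N] (ℓ : ℕ) : Prop :=
  ∃ (ι : Type) (_ : Fintype ι) (b : ι → LaurentSeries ℤ),
    (∀ i, coeffMap (Int.castRingHom ℚ) (b i) ∈ modularFunctionFieldFull N) ∧
    (∀ x ∈ modularFunctionFieldFull N, ∃ d : Polynomial ℤ, d ≠ 0 ∧ ∃ c : ι → Polynomial ℤ,
        Polynomial.aeval jq d * x =
          ∑ i, Polynomial.aeval jq (c i) * coeffMap (Int.castRingHom ℚ) (b i)) ∧
    (∀ c : ι → Polynomial (ZMod ℓ),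
        ∑ i, Polynomial.aeval (jqModC (ZMod ℓ)) (c i) *
          coeffMap (Int.castRingHom (ZMod ℓ)) (b i) = 0 → ∀ i, c i = 0)

/-- A rational Laurent series has `ℓ`-integral coefficients. -/
def IntCoeff (ℓ : ℕ) (x : LaurentSeries ℚ) : Prop :=
  ∀ n : ℤ, x.coeff n ∈ GaloisRep.ratLocalizedAt ℓ

/-- A rational Laurent series has all coefficients in `ℓ ℤ_(ℓ)`. -/
def DvdCoeff (ℓ : ℕ) (x : LaurentSeries ℚ) : Prop :=
  ∀ n : ℤ, ∃ r ∈ GaloisRep.ratLocalizedAt ℓ, x.coeff n = (ℓ : ℚ) * r

end Fermat.Agent.S28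

end
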