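import Fermat.Agent.S28.Defs

set_option autoImplicit false

noncomputable section

namespace Fermat.Agent.S28.Scheme

open AlgebraicGeometry CategoryTheory CategoryTheory.Limits

universe u

/-- Topological lemma: a space covered by two irreducible open subsets that meet is irreducible. -/
theorem irreducibleSpace_of_two_opens {X : Type*} [TopologicalSpace X] (U V : Set X)
    (hU : IsOpen U) (hV : IsOpen V) (hUi : IsIrreducible U) (hVi : IsIrreducible V)
    (hUV : (U ∩ V).Nonempty) (hcov : U ∪ V = Set.univ) : IrreducibleSpace X := by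
  have h1 : U ⊆ closure (U ∩ V) :=
    subset_closure_inter_of_isPreirreducible_of_isOpen hUi.isPreirreducible hV hUV
  have h2 : V ⊆ closure (U ∩ V) := by
    rw [Set.inter_comm]
    exact subset_closure_inter_of_isPreirreducible_of_isOpen hVi.isPreirreducible hU
      (by rwa [Set.inter_comm])
  have h3 : closure (U ∩ V) = Set.univ := by
    apply Set.eq_univ_of_univ_subset
    rw [← hcov]
    exact Set.union_subset h1 h2
  have h4 : IsIrreducible (U ∩ V) :=
    ⟨hUV, hUi.isPreirreducible.open_subset (hU.inter hV) Set.inter_subset_left⟩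
  have h5 : IsIrreducible (Set.univ : Set X) := h3 ▸ h4.closure
  exact (irreducibleSpace_def X).mpr h5

/-- A scheme covered by two integral open subschemes that meet is integral. -/
theorem isIntegral_of_two_charts {P U₁ U₂ : Scheme.{u}} (u₁ : U₁ ⟶ P) (u₂ : U₂ ⟶ P)
    [IsOpenImmersion u₁] [IsOpenImmersion u₂] [IsIntegral U₁] [IsIntegral U₂]
    (hcov : ∀ x : P, x ∈ Set.range u₁ ∨ x ∈ Set.range u₂)
    (hmeet : ∃ z : P, z ∈ Set.range u₁ ∧ z ∈ Set.range u₂) : IsIntegral P := by
  have : IsReduced P := by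
    have (x : P) : _root_.IsReduced (P.presheaf.stalk x) := by
      rcases hcov x with ⟨y, rfl⟩ | ⟨y, rfl⟩
      · exact isReduced_of_injective _
          (asIso <| u₁.stalkMap y).commRingCatIsoToRingEquiv.injective
      · exact isReduced_of_injective _
          (asIso <| u₂.stalkMap y).commRingCatIsoToRingEquiv.injective
    exact isReduced_of_isReduced_stalk _
  have : IrreducibleSpace P := by
    refine irreducibleSpace_of_two_opens (Set.range u₁) (Set.range u₂)
      u₁.isOpenEmbedding.isOpen_range u₂.isOpenEmbedding.isOpen_range ?_ ?_ ?_ ?_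
    · rw [← Set.image_univ]
      exact (IrreducibleSpace.isIrreducible_univ U₁).image _ u₁.continuous.continuousOn
    · rw [← Set.image_univ]
      exact (IrreducibleSpace.isIrreducible_univ U₂).image _ u₂.continuous.continuousOn
    · obtain ⟨z, h1, h2⟩ := hmeet
      exact ⟨z, h1, h2⟩
    · ext x; simpa using hcov x
  exact isIntegral_of_irreducibleSpace_of_isReduced P

/-- General form: the base change of a scheme glued from two affine charts. -/
theorem isIntegral_pullback_of_two_affine_charts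
    {R A₁ A₂ A₃ K : Type u} [CommRing R] [CommRing A₁] [CommRing A₂] [CommRing A₃] [CommRing K]
    [Algebra R A₁] [Algebra R A₂] [Algebra R A₃] [Algebra R K]
    {X : Scheme.{u}} (f : X ⟶ Spec (CommRingCat.of R))
    (ι₁ : Spec (CommRingCat.of A₁) ⟶ X) (ι₂ : Spec (CommRingCat.of A₂) ⟶ X)
    (ι₃ : Spec (CommRingCat.of A₃) ⟶ X)
    [IsOpenImmersion ι₁] [IsOpenImmersion ι₂]
    (h₁ : ι₁ ≫ f = Spec.map (CommRingCat.ofHom (algebraMap R A₁)))
    (h₂ : ι₂ ≫ f = Spec.map (CommRingCat.ofHom (algebraMap R A₂)))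
    (h₃ : ι₃ ≫ f = Spec.map (CommRingCat.ofHom (algebraMap R A₃)))
    (hcov : ∀ x : X, x ∈ Set.range ι₁ ∨ x ∈ Set.range ι₂)
    (h₃₁ : Set.range ι₃ ⊆ Set.range ι₁) (h₃₂ : Set.range ι₃ ⊆ Set.range ι₂)
    (hD₁ : IsDomain (TensorProduct R A₁ K)) (hD₂ : IsDomain (TensorProduct R A₂ K))
    (hN : Nontrivial (TensorProduct R A₃ K)) :
    IsIntegral ↑(pullback f (Spec.map (CommRingCat.ofHom (algebraMap R K)))) := by
  let g := Spec.map (CommRingCat.ofHom (algebraMap R K))
  let u₁ := pullback.map (Spec.map (CommRingCat.ofHom (algebraMap R A₁))) g f g ι₁ (𝟙 _) (𝟙 _)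
    (by rw [Category.comp_id, h₁]) (by simp)
  let u₂ := pullback.map (Spec.map (CommRingCat.ofHom (algebraMap R A₂))) g f g ι₂ (𝟙 _) (𝟙 _)
    (by rw [Category.comp_id, h₂]) (by simp)
  let u₃ := pullback.map (Spec.map (CommRingCat.ofHom (algebraMap R A₃))) g f g ι₃ (𝟙 _) (𝟙 _)
    (by rw [Category.comp_id, h₃]) (by simp)
  have hr₁ : Set.range u₁ = pullback.fst f g ⁻¹' Set.range ι₁ := by
    rw [Scheme.Pullback.range_map]
    simp
  have hr₂ : Set.range u₂ = pullback.fst f g ⁻¹' Set.range ι₂ := by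
    rw [Scheme.Pullback.range_map]
    simp
  have : IsIntegral (pullback (Spec.map (CommRingCat.ofHom (algebraMap R A₁))) g) :=
    IsIntegral.of_isIso (pullbackSpecIso R A₁ K).inv
  have : IsIntegral (pullback (Spec.map (CommRingCat.ofHom (algebraMap R A₂))) g) :=
    IsIntegral.of_isIso (pullbackSpecIso R A₂ K).inv
  refine isIntegral_of_two_charts u₁ u₂ ?_ ?_
  · intro x
    rw [hr₁, hr₂]
    exact hcov _
  · have : Nonempty (Spec (CommRingCat.of (TensorProduct R A₃ K))) :=
      inferInstanceAs (Nonempty (PrimeSpectrum (TensorProduct R A₃ K)))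
    obtain ⟨w⟩ := this
    let w' := (pullbackSpecIso R A₃ K).inv w
    have key : pullback.fst f g (u₃ w') ∈ Set.range ι₃ := by
      refine ⟨pullback.fst (Spec.map (CommRingCat.ofHom (algebraMap R A₃))) g w', ?_⟩
      have : u₃ ≫ pullback.fst f g =
          pullback.fst (Spec.map (CommRingCat.ofHom (algebraMap R A₃))) g ≫ ι₃ :=
        pullback.lift_fst _ _ _
      rw [← Scheme.Hom.comp_apply u₃, this, Scheme.Hom.comp_apply]
    refine ⟨u₃ w', ?_, ?_⟩
    · rw [hr₁]
      exact h₃₁ key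
    · rw [hr₂]
      exact h₃₂ key

end Fermat.Agent.S28.Scheme

namespace Fermat.Agent.S28

open ModularCurve ModularCurve.IgusaScheme AlgebraicGeometry CategoryTheory CategoryTheory.Limits
open scoped TensorProduct

variable (N : ℕ) [NeZero N] (ℓ : ℕ) [Fact ℓ.Prime]

/-- (S) scheme part -/
theorem isIntegral_pullback_of_charts
    (K : Type) [Field K] [Algebra ↥(GaloisRep.ratLocalizedAt ℓ) K]
    (hFin : IsDomain (↥(chartAlgFin N ℓ) ⊗[↥(GaloisRep.ratLocalizedAt ℓ)] K))
    (hInf : IsDomain (↥(chartAlgInf N ℓ) ⊗[↥(GaloisRep.ratLocalizedAt ℓ)] K))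
    (hMid : Nontrivial (↥(chartAlgMid N ℓ) ⊗[↥(GaloisRep.ratLocalizedAt ℓ)] K)) :
    IsIntegral ↑(pullback (igusaTo N ℓ)
      (Spec.map (CommRingCat.ofHom (algebraMap ↥(GaloisRep.ratLocalizedAt ℓ) K)))) := by
  refine Scheme.isIntegral_pullback_of_two_affine_charts
    (A₁ := ↥(chartAlgFin N ℓ)) (A₂ := ↥(chartAlgInf N ℓ)) (A₃ := ↥(chartAlgMid N ℓ))
    (igusaTo N ℓ) (ιFin N ℓ) (ιInf N ℓ) (fFin N ℓ ≫ ιFin N ℓ)
    (ιFin_igusaTo N ℓ) (ιInf_igusaTo N ℓ) ?_ (mem_range_ιFin_or_mem_range_ιInf N ℓ) ?_ ?_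
    hFin hInf hMid
  · rw [Category.assoc, ιFin_igusaTo, ← Spec.map_comp, ← CommRingCat.ofHom_comp]
    congr 2
  · rintro _ ⟨y, rfl⟩
    exact ⟨fFin N ℓ y, by rw [Scheme.Hom.comp_apply]⟩
  · rintro _ ⟨y, rfl⟩
    rw [glue_condition]
    exact ⟨fInf N ℓ y, by rw [Scheme.Hom.comp_apply]⟩

end Fermat.Agent.S28

end
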