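import Fermat.Agent.S28.Defs

set_option autoImplicit false

noncomputable section

namespace Fermat.Agent.S28

open ModularCurve Polynomial

namespace Step1

section Lead

variable {R : Type*} [CommRing R]

/-- `x = c t^n + higher order terms`. -/
def IsLead (x : LaurentSeries R) (n : ℤ) (c : R) : Prop :=
  (∀ m < n, x.coeff m = 0) ∧ x.coeff n = c

theorem IsLead.mul {x y : LaurentSeries R} {n m : ℤ} {c d : R} (hx : IsLead x n c)
    (hy : IsLead y m d) : IsLead (x * y) (n + m) (c * d) := by
  constructor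
  · intro l hl
    rw [HahnSeries.coeff_mul]
    refine Finset.sum_eq_zero fun ij hij => ?_
    have h : ij.1 + ij.2 = l := (Finset.mem_antidiagonal.mp hij).2.2
    by_cases h1 : ij.1 < n
    · rw [hx.1 _ h1, zero_mul]
    · rw [hy.1 _ (by omega), mul_zero]
  · rw [HahnSeries.coeff_mul, Finset.sum_eq_single (n, m)]
    · rw [hx.2, hy.2]
    · intro ij hij hne
      have h : ij.1 + ij.2 = n + m := (Finset.mem_antidiagonal.mp hij).2.2
      by_cases h1 : ij.1 < n
      · rw [hx.1 _ h1, zero_mul]
      · by_cases h2 : ij.2 < m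
        · rw [hy.1 _ h2, mul_zero]
        · exact absurd (Prod.ext (by simp only; omega) (by simp only; omega)) hne
    · intro hnot
      rw [Finset.mem_antidiagonal] at hnot
      simp only [HahnSeries.mem_support, ne_eq, and_true, not_and_or, not_not] at hnot
      rcases hnot with h | h
      · rw [h, zero_mul]
      · rw [h, mul_zero]

theorem IsLead.congr {x x' : LaurentSeries R} {n n' : ℤ} {c c' : R} (h : IsLead x n c)
    (hx : x' = x) (hn : n' = n) (hc : c' = c) : IsLead x' n' c' := by
  subst hx hn hc; exact h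

theorem isLead_single (n : ℤ) (c : R) : IsLead (HahnSeries.single n c) n c :=
  ⟨fun _ hm => HahnSeries.coeff_single_of_ne hm.ne, HahnSeries.coeff_single_same n c⟩

theorem isLead_one : IsLead (1 : LaurentSeries R) 0 1 := isLead_single 0 1

theorem IsLead.pow {x : LaurentSeries R} {n : ℤ} {c : R} (hx : IsLead x n c) (i : ℕ) :
    IsLead (x ^ i) (i * n) (c ^ i) := by
  induction i with
  | zero => simpa using isLead_one
  | succ i ih =>
    rw [pow_succ, pow_succ]
    have := ih.mul hx
    convert this using 1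
    push_cast; ring

theorem isLead_ofPowerSeries (f : PowerSeries R) :
    IsLead (HahnSeries.ofPowerSeries ℤ R f) 0 (PowerSeries.constantCoeff f) := by
  refine ⟨fun m hm => ofPowerSeries_coeff_of_neg f hm, ?_⟩
  rw [show (0 : ℤ) = ((0 : ℕ) : ℤ) from rfl, HahnSeries.ofPowerSeries_apply_coeff,
    PowerSeries.coeff_zero_eq_constantCoeff]

theorem IsLead.qExpand {x : LaurentSeries R} {n : ℤ} {c : R} (hx : IsLead x n c) (N : ℕ)
    [NeZero N] : IsLead (qExpand R N x) (N * n) c := by
  have hN : (0 : ℤ) < N := by exact_mod_cast Nat.pos_of_ne_zero (NeZero.ne N)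
  refine ⟨fun m hm => ?_, by rw [qExpand_coeff_mul, hx.2]⟩
  by_cases hd : (N : ℤ) ∣ m
  · obtain ⟨l, rfl⟩ := hd
    rw [qExpand_coeff_mul]
    exact hx.1 _ (lt_of_mul_lt_mul_left hm hN.le)
  · exact qExpand_coeff_of_not_dvd N x hd

theorem IsLead.scale {x : LaurentSeries R} {n : ℤ} {c : R} (hx : IsLead x n c) (u : Rˣ) :
    IsLead (scale u x) n (((u ^ n : Rˣ) : R) * c) :=
  ⟨fun m hm => by rw [scale_coeff, hx.1 m hm, mul_zero], by rw [scale_coeff, hx.2]⟩

theorem isLead_natCast (n : ℕ) : IsLead ((n : ℕ) : LaurentSeries R) 0 (n : R) := by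
  have : ((n : ℕ) : LaurentSeries R) = HahnSeries.single 0 (n : R) := by
    rw [← map_natCast (HahnSeries.C : R →+* LaurentSeries R)]; rfl
  rw [this]
  exact isLead_single 0 _

theorem IsLead.ne_zero {x : LaurentSeries R} {n : ℤ} {c : R} (hx : IsLead x n c) (hc : c ≠ 0) :
    x ≠ 0 := by
  rintro rfl
  exact hc (by simpa using hx.2.symm)

theorem isLead_jqModC : IsLead (jqModC R) (-1) 1 :=
  ⟨fun _ hm => coeff_jqModC_of_lt R hm, coeff_jqModC_neg_one R⟩

theorem isLead_DeltaC : IsLead (DeltaC R) 1 1 := by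
  have := (isLead_single (1 : ℤ) (1 : R)).mul
    (isLead_ofPowerSeries (dedekindEtaUnit.map (Int.castRingHom R)))
  rw [← PowerSeries.coeff_zero_eq_constantCoeff_apply, PowerSeries.coeff_map,
    PowerSeries.coeff_zero_eq_constantCoeff_apply, constantCoeff_dedekindEtaUnit] at this
  simpa [DeltaC] using this

theorem isLead_DeltaInvC : IsLead (DeltaInvC R) (-1) 1 := by
  have := (isLead_single (-1 : ℤ) (1 : R)).mul
    (isLead_ofPowerSeries (dedekindEtaUnitInv.map (Int.castRingHom R)))
  rw [← PowerSeries.coeff_zero_eq_constantCoeff_apply, PowerSeries.coeff_map,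
    PowerSeries.coeff_zero_eq_constantCoeff_apply, constantCoeff_dedekindEtaUnitInv] at this
  simpa [DeltaInvC] using this

end Lead

section Aeval

variable {k : Type*} [Field k]

theorem coeff_smul' (c : k) (x : LaurentSeries k) (m : ℤ) :
    (algebraMap k (LaurentSeries k) c * x).coeff m = c * x.coeff m := by
  rw [algebraMap_laurentSeries_eq_single, HahnSeries.coeff_single_mul, sub_zero]

theorem isLead_aeval {y : LaurentSeries k} {e : ℤ} (he : 0 < e) (hy : IsLead y (-e) 1)
    (a : Polynomial k) : IsLead (aeval y a) (-e * a.natDegree) a.leadingCoeff := by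
  rw [Polynomial.aeval_def, Polynomial.eval₂_eq_sum_range]
  have hpow : ∀ i : ℕ, IsLead (y ^ i) (i * -e) 1 := fun i => by simpa using hy.pow i
  constructor
  · intro m hm
    rw [HahnSeries.coeff_sum]
    refine Finset.sum_eq_zero fun i hi => ?_
    rw [coeff_smul', (hpow i).1 m ?_, mul_zero]
    have hi' : (i : ℤ) ≤ a.natDegree := by
      exact_mod_cast Nat.lt_succ_iff.mp (Finset.mem_range.mp hi)
    nlinarith
  · rw [HahnSeries.coeff_sum, Finset.sum_eq_single a.natDegree]
    · rw [coeff_smul', show -e * (a.natDegree : ℤ) = a.natDegree * -e by ring,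
        (hpow _).2, mul_one]
      rfl
    · intro i hi hne
      rw [coeff_smul', (hpow i).1 _ ?_, mul_zero]
      have hi' : (i : ℤ) < a.natDegree := by
        exact_mod_cast lt_of_le_of_ne (Nat.lt_succ_iff.mp (Finset.mem_range.mp hi)) hne
      nlinarith
    · intro h
      exact absurd (Finset.mem_range.mpr (Nat.lt_succ_self _)) h

theorem transcendental_of_isLead {y : LaurentSeries k} {e : ℤ} (he : 0 < e)
    (hy : IsLead y (-e) 1) : Transcendental k y := by
  rw [transcendental_iff]
  intro a ha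
  have := (isLead_aeval he hy a).2
  rw [ha] at this
  exact Polynomial.leadingCoeff_eq_zero.mp (by simpa using this.symm)

end Aeval

section FieldTheory

variable {k L : Type*} [Field k] [Field L] [Algebra k L]

/-- `k[J]` is integrally closed in `k(J)`. -/
theorem exists_eq_aeval_of_integral (J : L) (hJ : Transcendental k J) (x : L)
    (hx : x ∈ IntermediateField.adjoin k {J}) (Q : Polynomial (Polynomial k)) (hQ : Q.Monic)
    (h0 : Q.eval₂ (aeval J).toRingHom x = 0) : ∃ a : Polynomial k, x = aeval J a := by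
  set e := RatFunc.algEquivOfTranscendental J hJ with he
  set ρ := e.symm ⟨x, hx⟩ with hρ
  have hint : IsIntegral (Polynomial k) ρ := by
    refine ⟨Q, hQ, ?_⟩
    have hinj : Function.Injective
        ((algebraMap (IntermediateField.adjoin k {J}) L).comp (e : RatFunc k →+* _)) :=
      RingHom.injective _
    apply hinj
    rw [Polynomial.hom_eval₂, map_zero]
    have h1 : (((algebraMap (IntermediateField.adjoin k {J}) L).comp (e : RatFunc k →+* _)).comp
        (algebraMap (Polynomial k) (RatFunc k))) = (aeval J).toRingHom := by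
      refine RingHom.ext fun g => ?_
      simp only [RingHom.comp_apply, RingHom.coe_coe, he,
        RatFunc.algEquivOfTranscendental_algebraMap, AlgHom.toRingHom_eq_coe]
      rw [← Polynomial.aeval_algebraMap_apply, IntermediateField.AdjoinSimple.algebraMap_gen]
    have h2 : ((algebraMap (IntermediateField.adjoin k {J}) L).comp (e : RatFunc k →+* _)) ρ = x := by
      simp [hρ]
    rw [h1, h2, h0]
  obtain ⟨a, ha⟩ := IsIntegrallyClosed.isIntegral_iff.mp hint
  refine ⟨a, ?_⟩
  have h3 : e ρ = ⟨x, hx⟩ := by simp [hρ]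
  rw [← ha, he, RatFunc.algEquivOfTranscendental_algebraMap] at h3
  have := congrArg (algebraMap (IntermediateField.adjoin k {J}) L) h3
  simpa [Polynomial.aeval_algebraMap_apply] using this.symm

/-- a divisor of degree `≥ 2` of a product of distinct linear factors has a root different from
a given one. -/
theorem exists_other_root {F L : Type*} [Field F] [Field L] (φ : F →+* L) {ι : Type*} [Fintype ι]
    [DecidableEq ι] (v : ι → L) (hv : Function.Injective v) (G m : Polynomial F)
    (hG : G.map φ = ∏ α, (X - C (v α))) (hm : m ∣ G) (hdeg : 2 ≤ m.natDegree) (α0 : ι) :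
    ∃ β, β ≠ α0 ∧ m.eval₂ φ (v β) = 0 := by
  classical
  by_contra hcon
  push Not at hcon
  obtain ⟨c, rfl⟩ := hm
  have hdegG : ((m * c).map φ).natDegree = Fintype.card ι := by
    rw [hG, Polynomial.natDegree_prod_of_monic _ _ (fun α _ => monic_X_sub_C (v α))]
    simp
  have hne : m * c ≠ 0 := by
    intro h0
    have h1 : (∏ α, (X - C (v α)) : Polynomial L) = 0 := by rw [← hG, h0, Polynomial.map_zero]
    exact (Polynomial.monic_prod_of_monic _ _ (fun α _ => monic_X_sub_C (v α))).ne_zero h1
  have hm0 : m ≠ 0 := left_ne_zero_of_mul hne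
  have hc0 : c ≠ 0 := right_ne_zero_of_mul hne
  rw [Polynomial.natDegree_map, Polynomial.natDegree_mul hm0 hc0] at hdegG
  have hroots : ((Finset.univ.erase α0).image v).val ⊆ (c.map φ).roots := by
    intro x hx
    rw [Finset.mem_val, Finset.mem_image] at hx
    obtain ⟨β, hβ, rfl⟩ := hx
    have hβ' : β ≠ α0 := (Finset.mem_erase.mp hβ).1
    rw [Polynomial.mem_roots (Polynomial.map_ne_zero hc0), Polynomial.IsRoot.def,
      Polynomial.eval_map]
    have h1 : ((m * c).map φ).eval (v β) = 0 := by
      rw [hG, Polynomial.eval_prod]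
      exact Finset.prod_eq_zero (Finset.mem_univ β) (by simp)
    rw [Polynomial.eval_map, Polynomial.eval₂_mul] at h1
    exact (mul_eq_zero.mp h1).resolve_left (hcon β hβ')
  have hcard := Polynomial.card_le_degree_of_subset_roots hroots
  rw [Finset.card_image_of_injective _ hv, Finset.card_erase_of_mem (Finset.mem_univ _),
    Finset.card_univ, Polynomial.natDegree_map] at hcard
  omega

theorem eval_prod_erase {L : Type*} [Field L] {ι : Type*} [Fintype ι] [DecidableEq ι] (u : ι → L)
    (w : ι → L) (γ : ι) :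
    (∑ α, C (w α) * ∏ β ∈ Finset.univ.erase α, (X - C (u β))).eval (u γ) =
      w γ * ∏ β ∈ Finset.univ.erase γ, (u γ - u β) := by
  rw [Polynomial.eval_finsetSum, Finset.sum_eq_single γ]
  · simp [Polynomial.eval_prod]
  · intro α _ hα
    rw [Polynomial.eval_mul, Polynomial.eval_prod,
      Finset.prod_eq_zero (Finset.mem_erase.mpr ⟨hα.symm, Finset.mem_univ γ⟩) (by simp), mul_zero]
  · intro h
    exact absurd (Finset.mem_univ γ) h

theorem core11 (J : L) (hJ : Transcendental k J)
    {ι : Type*} [Fintype ι] [DecidableEq ι] (u jc : ι → L) (hu : Function.Injective u)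
    (hu0 : ∀ α, u α ≠ 0) (P Λ : Polynomial (Polynomial k))
    (hP : P.map (aeval J).toRingHom = ∏ α, (X - C (u α)))
    (hΛ : Λ.map (aeval J).toRingHom =
      ∑ α, C (jc α * u α) * ∏ β ∈ Finset.univ.erase α, (X - C (u β)))
    (α0 : ι) (hj : jc α0 ∈ IntermediateField.adjoin k {J})
    (hnot : ∀ a : Polynomial k, u α0 ≠ aeval J a)
    (hne : ∀ β, β ≠ α0 → jc β ≠ jc α0) : False := by
  have hinj : Function.Injective (aeval (R := k) J).toRingHom := by
    have := transcendental_iff_injective.mp hJ
    exact this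
  have hPmonic : P.Monic := by
    refine Polynomial.monic_of_injective hinj ?_
    rw [hP]
    exact Polynomial.monic_prod_of_monic _ _ (fun α _ => monic_X_sub_C (u α))
  set K0 := IntermediateField.adjoin k {J} with hK0
  set ev' : Polynomial k →+* K0 := (aeval (IntermediateField.AdjoinSimple.gen k J)).toRingHom
    with hev'
  have hcomp : (algebraMap K0 L).comp ev' = (aeval J).toRingHom := by
    refine RingHom.ext fun g => ?_
    simp only [RingHom.comp_apply, hev', AlgHom.toRingHom_eq_coe, RingHom.coe_coe]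
    rw [← Polynomial.aeval_algebraMap_apply, IntermediateField.AdjoinSimple.algebraMap_gen]
  have hP' : (P.map ev').map (algebraMap K0 L) = ∏ α, (X - C (u α)) := by
    rw [Polynomial.map_map, hcomp, hP]
  have hΛ' : (Λ.map ev').map (algebraMap K0 L) =
      ∑ α, C (jc α * u α) * ∏ β ∈ Finset.univ.erase α, (X - C (u β)) := by
    rw [Polynomial.map_map, hcomp, hΛ]
  have hroot : ∀ α, aeval (u α) (P.map ev') = 0 := by
    intro α
    rw [Polynomial.aeval_def, ← Polynomial.eval_map, hP', Polynomial.eval_prod]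
    exact Finset.prod_eq_zero (Finset.mem_univ α) (by simp)
  have hint : IsIntegral K0 (u α0) := ⟨P.map ev', hPmonic.map _, hroot α0⟩
  have hnotK0 : u α0 ∉ (algebraMap K0 L).range := by
    rintro ⟨⟨x, hx⟩, hx'⟩
    have hx'' : x = u α0 := hx'
    subst hx''
    obtain ⟨a, ha⟩ := exists_eq_aeval_of_integral J hJ (u α0) hx P hPmonic (by
      rw [← Polynomial.eval_map, hP, Polynomial.eval_prod]
      exact Finset.prod_eq_zero (Finset.mem_univ α0) (by simp))
    exact hnot a ha
  have hdeg : 2 ≤ (minpoly K0 (u α0)).natDegree := (minpoly.two_le_natDegree_iff hint).mpr hnotK0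
  obtain ⟨β, hβ, hβ0⟩ := exists_other_root (algebraMap K0 L) u hu (P.map ev') (minpoly K0 (u α0))
    hP' (minpoly.dvd K0 (u α0) (hroot α0)) hdeg α0
  set H : Polynomial K0 := C (⟨jc α0, hj⟩ : K0) * X * derivative (P.map ev') - Λ.map ev' with hH
  have hHeval : ∀ γ, aeval (u γ) H =
      (jc α0 - jc γ) * u γ * ∏ β ∈ Finset.univ.erase γ, (u γ - u β) := by
    intro γ
    rw [Polynomial.aeval_def, ← Polynomial.eval_map, hH, Polynomial.map_sub, Polynomial.map_mul,
      Polynomial.map_mul, Polynomial.map_C, Polynomial.map_X, ← Polynomial.derivative_map, hP', hΛ',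
      Polynomial.eval_sub, eval_prod_erase, Polynomial.derivative_prod_finset]
    have h1 : (∑ i, (∏ j ∈ Finset.univ.erase i, (X - C (u j))) * derivative (X - C (u i))) =
        ∑ α, C ((fun _ => (1 : L)) α) * ∏ β ∈ Finset.univ.erase α, (X - C (u β)) := by
      refine Finset.sum_congr rfl fun i _ => ?_
      simp
    rw [h1, Polynomial.eval_mul, eval_prod_erase]
    simp only [Polynomial.eval_mul, Polynomial.eval_C, Polynomial.eval_X]
    have h2 : algebraMap K0 L (⟨jc α0, hj⟩ : K0) = jc α0 := rfl
    rw [h2]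
    ring
  have hH0 : aeval (u α0) H = 0 := by rw [hHeval, sub_self, zero_mul, zero_mul]
  obtain ⟨c, hc⟩ := minpoly.dvd K0 (u α0) hH0
  have hHβ : aeval (u β) H = 0 := by
    rw [hc, map_mul, Polynomial.aeval_def, hβ0, zero_mul]
  rw [hHeval] at hHβ
  rcases mul_eq_zero.mp hHβ with h | h
  · rcases mul_eq_zero.mp h with h | h
    · exact hne β hβ (sub_eq_zero.mp h).symm
    · exact hu0 β h
  · obtain ⟨γ, hγ, hγ0⟩ := Finset.prod_eq_zero_iff.mp h
    exact (Finset.mem_erase.mp hγ).1 (hu (sub_eq_zero.mp hγ0)).symm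

end FieldTheory

section Conj

variable (k : Type*) [Field k] (p : ℕ) [NeZero p] (ζ : kˣ)

theorem isLead_J : IsLead (qExpand k p (jqModC k)) (-(p : ℤ)) 1 := by
  simpa using (isLead_jqModC (R := k)).qExpand p

theorem isLead_uConj_none : IsLead (uConj k p ζ none) ((p : ℤ) ^ 2 - p) ((p : k) ^ 12) := by
  have h := (((isLead_natCast (R := k) p).pow 12).mul ((isLead_DeltaC (R := k)).qExpand (p ^ 2))).mul
    ((isLead_DeltaInvC (R := k)).qExpand p)
  exact h.congr rfl (by push_cast; ring) (by ring)

theorem isLead_uConj_some (b : Fin p) :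
    IsLead (uConj k p ζ (some b)) (1 - (p : ℤ)) ((ζ ^ (b : ℕ) : kˣ) : k) := by
  have h := ((isLead_DeltaC (R := k)).scale (ζ ^ (b : ℕ))).mul
    ((isLead_DeltaInvC (R := k)).qExpand p)
  exact h.congr rfl (by ring) (by simp)

theorem isLead_jConj_none : IsLead (jConj k p ζ none) (-(p : ℤ) ^ 2) 1 := by
  have h := (isLead_jqModC (R := k)).qExpand (p ^ 2)
  exact h.congr rfl (by push_cast; ring) rfl

theorem isLead_jConj_some (b : Fin p) :
    IsLead (jConj k p ζ (some b)) (-1) (((ζ ^ (b : ℕ)) ^ (-1 : ℤ) : kˣ) : k) := by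
  have h := (isLead_jqModC (R := k)).scale (ζ ^ (b : ℕ))
  exact h.congr rfl rfl (by simp)

variable {k p ζ}

theorem uConj_ne_zero (hpk : (p : k) ≠ 0) (α : Option (Fin p)) : uConj k p ζ α ≠ 0 := by
  cases α with
  | none => exact (isLead_uConj_none k p ζ).ne_zero (pow_ne_zero _ hpk)
  | some b => exact (isLead_uConj_some k p ζ b).ne_zero (Units.ne_zero _)

theorem uConj_injective (hp : p.Prime) (hζ : IsPrimitiveRoot ζ p) :
    Function.Injective (uConj k p ζ) := by
  have hp2 : (2 : ℤ) ≤ p := by exact_mod_cast hp.two_le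
  have hlt : 1 - (p : ℤ) < (p : ℤ) ^ 2 - p := by nlinarith
  have key : ∀ b : Fin p, uConj k p ζ none ≠ uConj k p ζ (some b) := by
    intro b h
    have h1 := (isLead_uConj_none k p ζ).1 _ hlt
    rw [h, (isLead_uConj_some k p ζ b).2] at h1
    exact Units.ne_zero _ h1
  intro α β h
  cases α with
  | none =>
    cases β with
    | none => rfl
    | some b => exact absurd h (key b)
  | some a =>
    cases β with
    | none => exact absurd h.symm (key a)
    | some b =>
      have h1 := (isLead_uConj_some k p ζ a).2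
      rw [h, (isLead_uConj_some k p ζ b).2] at h1
      have h2 : ζ ^ (b : ℕ) = ζ ^ (a : ℕ) := Units.ext h1
      have := hζ.pow_inj b.2 a.2 h2
      rw [Fin.ext this]

theorem jConj_some_ne_none (hp : p.Prime) (b : Fin p) : jConj k p ζ (some b) ≠ jConj k p ζ none := by
  have hp2 : (2 : ℤ) ≤ p := by exact_mod_cast hp.two_le
  have hlt : -(p : ℤ) ^ 2 < -1 := by nlinarith
  intro h
  have h1 := (isLead_jConj_some k p ζ b).1 _ hlt
  rw [h, (isLead_jConj_none k p ζ).2] at h1
  exact one_ne_zero h1

theorem uConj_none_ne_aeval (hp : p.Prime) (hpk : (p : k) ≠ 0) (a : Polynomial k) :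
    uConj k p ζ none ≠ aeval (qExpand k p (jqModC k)) a := by
  have hp2 : (2 : ℤ) ≤ p := by exact_mod_cast hp.two_le
  intro h
  have hp0 : (0 : ℤ) < p := by omega
  have h1 := isLead_aeval hp0 (isLead_J k p) a
  by_cases ha : a = 0
  · rw [ha, map_zero] at h
    exact uConj_ne_zero hpk none h
  · have hlt : -(p : ℤ) * a.natDegree < (p : ℤ) ^ 2 - p := by
      have : (0 : ℤ) ≤ a.natDegree := Int.natCast_nonneg _
      nlinarith
    have h2 := (isLead_uConj_none k p ζ).1 _ hlt
    rw [h, h1.2] at h2
    exact ha (Polynomial.leadingCoeff_eq_zero.mp h2)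

/-- `V_N` maps `k(x)` into `k(V_N x)`. -/
theorem qExpand_mem_adjoin (N : ℕ) [NeZero N] {x y : LaurentSeries k}
    (h : y ∈ IntermediateField.adjoin k {x}) :
    qExpand k N y ∈ IntermediateField.adjoin k {qExpand k N x} := by
  rw [IntermediateField.mem_adjoin_simple_iff] at h ⊢
  obtain ⟨r, s, rfl⟩ := h
  refine ⟨r, s, ?_⟩
  rw [map_div₀, ← qExpandAlgHomC_apply, ← qExpandAlgHomC_apply, ← qExpandAlgHomC_apply,
    Polynomial.aeval_algHom_apply, Polynomial.aeval_algHom_apply]

end Conj

end Step1

open Step1 in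
/-- (D-b) Step 1: `j(q^p) ∉ k(j(q))`. -/
theorem jp_not_mem_adjoin_j (k : Type) [Field k] (p : ℕ) [NeZero p] (hp : p.Prime)
    (hpk : (p : k) ≠ 0) (ζ : kˣ) (hζ : IsPrimitiveRoot ζ p) (h : ModEq k p ζ) :
    qExpand k p (jqModC k) ∉ IntermediateField.adjoin k {jqModC k} := by
  intro hmem
  obtain ⟨Φ, P, Λ, -, hP, hΛ⟩ := h
  have hp0 : (0 : ℤ) < p := by exact_mod_cast hp.pos
  refine core11 (qExpand k p (jqModC k)) (transcendental_of_isLead hp0 (isLead_J k p))
    (uConj k p ζ) (jConj k p ζ) (uConj_injective hp hζ) (uConj_ne_zero hpk) P Λ hP hΛ none ?_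
    (uConj_none_ne_aeval hp hpk) ?_
  · have h1 := qExpand_mem_adjoin p hmem
    rw [qExpand_qExpand] at h1
    have h2 : jConj k p ζ none = qExpand k (p * p) (jqModC k) :=
      qExpand_congr (by ring) _
    rw [h2]
    exact h1
  · intro β hβ
    cases β with
    | none => exact absurd rfl hβ
    | some b => exact jConj_some_ne_none hp b

end Fermat.Agent.S28

end
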