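import Fermat.Agent.S28.TowerFull

/-!
# S28: the tower of function fields with its two `q`-expansion embeddings
-/

set_option autoImplicit false
set_option linter.style.haveILetI false

noncomputable section

namespace Fermat.Agent.S28

open ModularCurve Polynomial

/-- An abstract model `E` of the function field of `X₀(M)` over `k`, with its embeddings
at the cusps `∞` (`ιx`) and `0` (`ιy`), and a basis over `k(j)` coming from integral series. -/
structure TowerData (k : Type) [Field k] (M : ℕ) {ι : Type} [Fintype ι] (b : ι → LaurentSeries ℤ)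
    (E : Type) [Field E] [Algebra k E] where
  ιx : E →ₐ[k] LaurentSeries k
  ιy : E →ₐ[k] LaurentSeries k
  e0 : E
  e : E
  β : ι → E
  x_e0 : ιx e0 = jce k 1 1
  x_e : ιx e = jce k 1 M
  y_e0 : ιy e0 = jce k 1 M
  y_e : ιy e = jce k 1 1
  x_β : ∀ i, ιx (β i) = coeffMap (Int.castRingHom k) (b i)
  indep : IndepOver k e0 β
  span : SpanOver k e0 β
  y_range : ∀ z, ιy z ∈ modularFunctionFieldFullC k M
  full : ∀ m, m ∣ M → jce k 1 m ∈ Set.range ιx
  prev : M ≠ 1 → ∃ e', ιy e' = jce k 1 M.minFac ∧ ιx e' = jce k 1 (M / M.minFac)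

theorem jce_one_one (R : Type*) [CommRing R] : jce R 1 1 = jqModC R := by
  rw [jce_one_eq, qE_one]

theorem coeffMap_jce_one {R S : Type*} [CommRing R] [CommRing S] (φ : R →+* S) (m : ℕ) :
    coeffMap φ (jce R 1 m) = jce S 1 m := by
  rw [jce_one_eq, jce_one_eq]
  by_cases hm : m = 0
  · subst hm
    rw [qE, dif_pos rfl, qE, dif_pos rfl]
    exact coeffMap_jqModC φ
  · haveI : NeZero m := ⟨hm⟩
    rw [qE_apply, qE_apply, coeffMap_qExpand, coeffMap_jqModC]

theorem jce_one_mem_full (k : Type) [Field k] {m M : ℕ} (hm : m ≠ 0) (h : m ∣ M) :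
    jce k 1 m ∈ modularFunctionFieldFullC k M := by
  haveI : NeZero m := ⟨hm⟩
  rw [jce_one_eq, qE_apply]
  exact jqModCd_mem_full k M h

section Base

variable (k : Type) [Field k]

theorem coe_aeval_jGenC (P : k[X]) :
    (IntermediateField.adjoin k {jqModC k}).val
      (aeval (⟨jqModC k, IntermediateField.mem_adjoin_simple_self k _⟩ :
        IntermediateField.adjoin k {jqModC k}) P) = aeval (jqModC k) P :=
  (Polynomial.aeval_algHom_apply (IntermediateField.adjoin k {jqModC k}).val _ P).symm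

/-- the base of the tower: `k(j)`. -/
def towerBase : TowerData k 1 (fun _ : Unit => (1 : LaurentSeries ℤ))
    (IntermediateField.adjoin k {jqModC k}) where
  ιx := (IntermediateField.adjoin k {jqModC k}).val
  ιy := (IntermediateField.adjoin k {jqModC k}).val
  e0 := ⟨jqModC k, IntermediateField.mem_adjoin_simple_self k _⟩
  e := ⟨jqModC k, IntermediateField.mem_adjoin_simple_self k _⟩
  β := fun _ => 1
  x_e0 := (jce_one_one k).symm
  x_e := (jce_one_one k).symm
  y_e0 := (jce_one_one k).symm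
  y_e := (jce_one_one k).symm
  x_β := fun _ => by rw [map_one, map_one]
  indep := by
    intro c hc i
    cases i
    simp only [Finset.univ_unique, mul_one, Finset.sum_singleton] at hc
    have h1 := congrArg (IntermediateField.adjoin k {jqModC k}).val hc
    rw [coe_aeval_jGenC, map_zero] at h1
    exact (map_eq_zero_iff _ (aeval_jqModC_injective (R := k))).mp h1
  span := by
    intro z
    obtain ⟨r, s, hrs⟩ := (IntermediateField.mem_adjoin_simple_iff k (z : LaurentSeries k)).mp z.2
    by_cases hs : s = 0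
    · refine ⟨1, one_ne_zero, fun _ => 0, ?_⟩
      have hz : z = 0 := by
        apply Subtype.ext
        rw [hrs, hs, map_zero, div_zero]; rfl
      simp [hz]
    · refine ⟨s, hs, fun _ => r, ?_⟩
      have hs' : aeval (jqModC k) s ≠ 0 := fun h =>
        hs ((map_eq_zero_iff _ (aeval_jqModC_injective (R := k))).mp h)
      simp only [Finset.univ_unique, mul_one, Finset.sum_singleton]
      have hinj : Function.Injective (IntermediateField.adjoin k {jqModC k}).val :=
        Subtype.val_injective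
      apply hinj
      rw [map_mul, coe_aeval_jGenC, coe_aeval_jGenC]
      show aeval (jqModC k) s * (z : LaurentSeries k) = aeval (jqModC k) r
      rw [hrs, mul_div_cancel₀ _ hs']
  y_range := by
    intro z
    have h : IntermediateField.adjoin k {jqModC k} ≤ modularFunctionFieldFullC k 1 := by
      rw [IntermediateField.adjoin_le_iff]
      rintro x rfl
      exact jqModC_mem_full k 1
    exact h z.2
  full := by
    intro m hm
    rw [Nat.dvd_one] at hm
    subst hm
    exact ⟨⟨jqModC k, IntermediateField.mem_adjoin_simple_self k _⟩, (jce_one_one k).symm⟩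
  prev := fun h => absurd rfl h

end Base

section Step

variable {k : Type} [Field k] {M : ℕ} {ι : Type} [Fintype ι] {b : ι → LaurentSeries ℤ}
  {E : Type} [Field E] [Algebra k E]

/-- the new integral family. -/
def stepFam (b : ι → LaurentSeries ℤ) (m D : ℕ) : ι × Fin D → LaurentSeries ℤ :=
  fun ir => b ir.1 * jce ℤ 1 m ^ (ir.2 : ℕ)

theorem qE_mem_full {p : ℕ} (hp : p ≠ 0) {x : LaurentSeries k}
    (hx : x ∈ modularFunctionFieldFullC k M) : qE p x ∈ modularFunctionFieldFullC k (p * M) := by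
  haveI : NeZero p := ⟨hp⟩
  have h := full_degeneracyC_map_le k M p
  rw [mul_comm p M]
  apply h
  rw [IntermediateField.mem_map]
  exact ⟨x, hx, by rw [qExpandAlgHomC_apply, qE_apply]⟩

/-- one step of the tower, given the minimal polynomial `g` of the new generator. -/
def TowerData.stepCore (T : TowerData k M b E) (hM : M ≠ 0) {p : ℕ} (hp : p.Prime)
    (hmin : (p * M).minFac = p) (hmp : HasModPoly k p)
    (hmod : ∀ r : ℕ, r.Prime → r ∣ M → HasModPoly k r)
    (g : E[X]) [Fact (Irreducible g)] (hg : g.Monic) (D : ℕ) (hD : g.natDegree = D) (hD0 : 0 < D)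
    (hx : g.eval₂ (T.ιx : E →+* LaurentSeries k) (jce k 1 (p * M)) = 0)
    (hy : g.eval₂ (((qE p).comp T.ιy : E →ₐ[k] LaurentSeries k) : E →+* LaurentSeries k)
      (jce k 1 1) = 0) :
    TowerData k (p * M) (stepFam b (p * M) D) (AdjoinRoot g) where
  ιx := AdjoinRoot.liftAlgHom g T.ιx _ hx
  ιy := AdjoinRoot.liftAlgHom g ((qE p).comp T.ιy) _ hy
  e0 := AdjoinRoot.of g T.e0
  e := AdjoinRoot.root g
  β := fun ir => AdjoinRoot.of g (T.β ir.1) * AdjoinRoot.root g ^ (ir.2 : ℕ)
  x_e0 := by rw [AdjoinRoot.liftAlgHom_of, T.x_e0]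
  x_e := by rw [AdjoinRoot.liftAlgHom_root]
  y_e0 := by
    rw [AdjoinRoot.liftAlgHom_of, AlgHom.comp_apply, T.y_e0, qE_jce hp.ne_zero hM]
  y_e := by rw [AdjoinRoot.liftAlgHom_root]
  x_β := by
    intro ir
    rw [map_mul, map_pow, AdjoinRoot.liftAlgHom_of, AdjoinRoot.liftAlgHom_root, T.x_β, stepFam,
      map_mul, map_pow, coeffMap_jce_one]
  indep := T.indep.adjoinRoot g hg D hD hD0
  span := T.span.adjoinRoot g hg D hD hD0
  y_range := by
    intro z
    induction z using AdjoinRoot.induction_on with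
    | _ P =>
      rw [AdjoinRoot.liftAlgHom_mk, Polynomial.eval₂_eq_sum_range]
      refine sum_mem fun n _ => mul_mem ?_ (pow_mem ?_ n)
      · exact qE_mem_full hp.ne_zero (T.y_range _)
      · exact jce_one_mem_full k one_ne_zero (one_dvd _)
  full := by
    refine full_step _ hM hp hmp hmod ?_ ?_
    · intro m hm
      obtain ⟨a, ha⟩ := T.full m hm
      exact ⟨AdjoinRoot.of g a, by rw [AdjoinRoot.liftAlgHom_of, ha]⟩
    · exact ⟨AdjoinRoot.root g, by rw [AdjoinRoot.liftAlgHom_root]⟩
  prev := by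
    intro _
    refine ⟨AdjoinRoot.of g T.e, ?_, ?_⟩
    · rw [AdjoinRoot.liftAlgHom_of, AlgHom.comp_apply, T.y_e, qE_jce hp.ne_zero one_ne_zero, hmin,
        mul_one]
    · rw [AdjoinRoot.liftAlgHom_of, T.x_e, hmin, Nat.mul_div_cancel_left _ hp.pos]

end Step

section Irr

variable {k : Type} [Field k] {M : ℕ} {ι : Type} [Fintype ι] {b : ι → LaurentSeries ℤ}
  {E : Type} [Field E] [Algebra k E]

theorem scale_fix {p : ℕ} (hp : p ≠ 0) {ζ : kˣ} (hζ : ζ ^ p = 1) (x : LaurentSeries k) :
    scale ζ (qE p x) = qE p x := by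
  rw [scale_qE ζ p hp, hζ, scale_one_apply]

theorem scale_iterate_jce (ζ : kˣ) (n : ℕ) : (scale ζ)^[n] (jce k 1 1) = jce k (ζ ^ n) 1 := by
  induction n with
  | zero => simp
  | succ n ih =>
    rw [Function.iterate_succ_apply', ih, scale_jce ζ _ 1 one_ne_zero, pow_one, pow_succ']

theorem exists_step_poly (T : TowerData k M b E) (hM : M ≠ 0) {p : ℕ} [NeZero p] (hp : p.Prime)
    (hmin : (p * M).minFac = p) {ζ : kˣ} {Φ : k[X][X]} (hζ : IsPrimitiveRoot ζ p)
    (hΦ : IsModPoly k p ζ Φ)
    (hnot : ¬ p ∣ M → jce k 1 p ∉ modularFunctionFieldFullC k M) :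
    ∃ g : E[X], Irreducible g ∧ g.Monic ∧ g.natDegree = (if p ∣ M then p else p + 1) ∧
      g.eval₂ (T.ιx : E →+* LaurentSeries k) (jce k 1 (p * M)) = 0 ∧
      g.eval₂ (((qE p).comp T.ιy : E →ₐ[k] LaurentSeries k) : E →+* LaurentSeries k)
        (jce k 1 1) = 0 := by
  have hp0 : p ≠ 0 := hp.ne_zero
  set ψ : E →ₐ[k] LaurentSeries k := (qE p).comp T.ιy with hψ
  have hxΦ : (PhiAt Φ T.e).eval₂ (T.ιx : E →+* LaurentSeries k) (jce k 1 (p * M)) = 0 := by
    rw [PhiAt_eval₂, T.x_e, mul_comm p M]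
    exact hΦ.eval_up hM
  have hψe : ψ T.e = jce k 1 p := by
    rw [hψ, AlgHom.comp_apply, T.y_e, qE_jce hp0 one_ne_zero, mul_one]
  have hyΦ : (PhiAt Φ T.e).eval₂ (ψ : E →+* LaurentSeries k) (jce k 1 1) = 0 := by
    rw [PhiAt_eval₂, hψe]
    have := hΦ.eval_down (e := 1) one_ne_zero
    rwa [one_mul] at this
  have hs : ∀ z, scale ζ ((ψ : E →+* LaurentSeries k) z) = (ψ : E →+* LaurentSeries k) z :=
    fun z => scale_fix hp0 hζ.pow_eq_one _
  have hinj : ∀ a < p, ∀ a' < p, (scale ζ)^[a] (jce k 1 1) = (scale ζ)^[a'] (jce k 1 1) →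
      a = a' := by
    intro a ha a' ha' h
    rw [scale_iterate_jce, scale_iterate_jce] at h
    exact hζ.pow_inj ha ha' (jce_inj one_ne_zero one_ne_zero h).2
  by_cases hpM : p ∣ M
  · -- `p ∣ M`
    rw [if_pos hpM]
    have hM1 : M ≠ 1 := by
      rintro rfl
      exact hp.one_lt.ne' (Nat.dvd_one.mp hpM)
    have hminM : M.minFac = p := by
      apply le_antisymm
      · exact Nat.minFac_le_of_dvd hp.two_le hpM
      · rw [← hmin]
        exact Nat.minFac_le_of_dvd (Nat.minFac_prime hM1).two_le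
          ((Nat.minFac_dvd M).trans (Dvd.intro_left p rfl))
    obtain ⟨e', hy', hx'⟩ := T.prev hM1
    rw [hminM] at hy' hx'
    have hMp : M / p * p = M := Nat.div_mul_cancel hpM
    have hMp0 : M / p ≠ 0 := by
      intro h; rw [h, zero_mul] at hMp; exact hM hMp.symm
    have hroot : (PhiAt Φ T.e).IsRoot e' := by
      rw [Polynomial.IsRoot.def]
      have hinjx : Function.Injective T.ιx := (T.ιx : E →+* LaurentSeries k).injective
      apply hinjx
      rw [map_zero, ← PhiAt_eval_map, T.x_e, hx']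
      have := hΦ.eval_down hMp0
      rwa [hMp] at this
    set g := PhiAt Φ T.e /ₘ (X - C e') with hg
    have hfac : (X - C e') * g = PhiAt Φ T.e := Polynomial.mul_divByMonic_eq_iff_isRoot.mpr hroot
    have hgm : g.Monic := by
      refine Polynomial.Monic.of_mul_monic_left (Polynomial.monic_X_sub_C e') ?_
      rw [hfac]; exact hΦ.PhiAt_monic _
    have hgd : g.natDegree = p := by
      have h1 := (Polynomial.monic_X_sub_C e').natDegree_mul hgm
      rw [hfac, hΦ.PhiAt_natDegree, Polynomial.natDegree_X_sub_C] at h1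
      omega
    have hgx : g.eval₂ (T.ιx : E →+* LaurentSeries k) (jce k 1 (p * M)) = 0 := by
      rw [← hfac, Polynomial.eval₂_mul] at hxΦ
      refine (mul_eq_zero.mp hxΦ).resolve_left ?_
      rw [Polynomial.eval₂_sub, Polynomial.eval₂_X, Polynomial.eval₂_C, sub_eq_zero]
      show jce k 1 (p * M) ≠ T.ιx e'
      rw [hx']
      intro h
      have h1 := (jce_inj (mul_ne_zero hp0 hM) hMp0 h).1
      have h2 : M / p ≤ M := Nat.div_le_self M p
      have h3 : M < p * M := by
        have := Nat.mul_lt_mul_of_pos_right hp.one_lt (Nat.pos_of_ne_zero hM)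
        rwa [one_mul] at this
      omega
    have hgy : g.eval₂ (ψ : E →+* LaurentSeries k) (jce k 1 1) = 0 := by
      rw [← hfac, Polynomial.eval₂_mul] at hyΦ
      refine (mul_eq_zero.mp hyΦ).resolve_left ?_
      rw [Polynomial.eval₂_sub, Polynomial.eval₂_X, Polynomial.eval₂_C, sub_eq_zero]
      show jce k 1 1 ≠ ψ e'
      rw [hψ, AlgHom.comp_apply, hy', qE_jce hp0 hp0]
      intro h
      have h1 := (jce_inj one_ne_zero (mul_ne_zero hp0 hp0) h).1
      have h2 := hp.two_le
      nlinarith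
    refine ⟨g, ?_, hgm, hgd, hgx, hgy⟩
    exact irreducible_of_orbit (ψ : E →+* LaurentSeries k) (scale ζ) hs g hgm (jce k 1 1) hgy p
      hp.one_le hinj (Or.inl hgd)
  · -- `p ∤ M`
    rw [if_neg hpM]
    refine ⟨PhiAt Φ T.e, ?_, hΦ.PhiAt_monic _, hΦ.PhiAt_natDegree _, hxΦ, hyΦ⟩
    refine irreducible_of_orbit (ψ : E →+* LaurentSeries k) (scale ζ) hs _ (hΦ.PhiAt_monic _)
      (jce k 1 1) hyΦ p hp.one_le hinj (Or.inr ⟨hΦ.PhiAt_natDegree _, ?_⟩)
    intro w hw
    have h1 : (PhiAt Φ (jce k (1 ^ p) (1 * p))).eval (ψ w) = 0 := by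
      rw [one_pow, one_mul, ← hψe, PhiAt_eval_map, hw, map_zero]
    obtain ⟨α, hα⟩ := hΦ.eq_rootFam_of_eval_eq_zero 1 one_ne_zero h1
    cases α with
    | none =>
      apply hnot hpM
      have h2 : ψ w = qE p (jce k 1 p) := by
        rw [hα, rootFam, one_pow, qE_jce hp0 hp0]
        congr 1; ring
      rw [hψ, AlgHom.comp_apply] at h2
      rw [← qE_injective p h2]
      exact T.y_range w
    | some a =>
      have h2 := hs w
      have h3 : (ψ : E →+* LaurentSeries k) w = jce k (1 * ζ ^ (a : ℕ)) 1 := hα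
      rw [h3, scale_jce ζ _ 1 one_ne_zero, pow_one] at h2
      have h4 := (jce_inj one_ne_zero one_ne_zero h2).2
      have h5 : ζ = 1 := mul_eq_right.mp h4
      exact hζ.ne_one hp.one_lt h5

end Irr

section Exists

/-- what we need to know about the field `k` to build the tower of level `N`. -/
def FieldHyp (k : Type) [Field k] (N : ℕ) : Prop :=
  (∀ r : ℕ, r.Prime → r ∣ N → HasModPoly k r) ∧
  (∀ p M : ℕ, p.Prime → p * M ∣ N → ¬ p ∣ M → jce k 1 p ∉ modularFunctionFieldFullC k M)

theorem FieldHyp.of_dvd {k : Type} [Field k] {M N : ℕ} (h : FieldHyp k N) (hMN : M ∣ N) :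
    FieldHyp k M :=
  ⟨fun r hr hrM => h.1 r hr (hrM.trans hMN), fun p M' hp hpM hn => h.2 p M' hp (hpM.trans hMN) hn⟩

theorem exists_tower (N : ℕ) (hN : N ≠ 0) :
    ∃ (ι : Type) (_ : Fintype ι) (b : ι → LaurentSeries ℤ),
      (∀ i, coeffMap (Int.castRingHom ℚ) (b i) ∈ modularFunctionFieldFull N) ∧
      ∀ (k : Type) [Field k], FieldHyp k N →
        ∃ (E : Type) (_ : Field E) (_ : Algebra k E), Nonempty (TowerData k N b E) := by
  induction N using Nat.strong_induction_on with
  | _ N ih =>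
    by_cases hN1 : N = 1
    · subst hN1
      refine ⟨Unit, inferInstance, fun _ => 1, fun _ => ?_, fun k _ _ => ?_⟩
      · rw [map_one]; exact one_mem _
      · exact ⟨_, inferInstance, inferInstance, ⟨towerBase k⟩⟩
    · obtain ⟨p, hpdef⟩ : ∃ p, p = N.minFac := ⟨_, rfl⟩
      have hp : p.Prime := hpdef ▸ Nat.minFac_prime hN1
      obtain ⟨M, hM⟩ : p ∣ N := hpdef ▸ Nat.minFac_dvd N
      subst hM
      have hM0 : M ≠ 0 := fun h => hN (by rw [h, mul_zero])
      have hlt : M < p * M := by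
        have := Nat.mul_lt_mul_of_pos_right hp.one_lt (Nat.pos_of_ne_zero hM0)
        rwa [one_mul] at this
      obtain ⟨ι, _, b, hb, hT⟩ := ih M hlt hM0
      refine ⟨ι × Fin (if p ∣ M then p else p + 1), inferInstance,
        stepFam b (p * M) (if p ∣ M then p else p + 1), fun ir => ?_, fun k _ hk => ?_⟩
      · haveI : NeZero M := ⟨hM0⟩
        haveI : NeZero (p * M) := ⟨hN⟩
        rw [stepFam, map_mul, map_pow, coeffMap_jce_one]
        refine mul_mem ?_ (pow_mem ?_ _)
        · exact full_degeneracy_le (Dvd.intro_left p rfl) (hb ir.1)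
        · exact jce_one_mem_full ℚ hN dvd_rfl
      · obtain ⟨E, _, _, ⟨T⟩⟩ := hT k (hk.of_dvd (Dvd.intro_left p rfl))
        have hmp : HasModPoly k p := hk.1 p hp (Dvd.intro M rfl)
        obtain ⟨_, ζ, Φ, hζ, hΦ⟩ := hmp
        obtain ⟨g, hirr, hgm, hgd, hgx, hgy⟩ := exists_step_poly T hM0 hp hpdef.symm hζ hΦ
          (fun hpM => hk.2 p M hp dvd_rfl hpM)
        haveI : Fact (Irreducible g) := ⟨hirr⟩
        have hD0 : 0 < (if p ∣ M then p else p + 1) := by
          split_ifs
          · exact hp.pos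
          · omega
        exact ⟨AdjoinRoot g, inferInstance, inferInstance,
          ⟨T.stepCore hM0 hp hpdef.symm (hk.1 p hp (Dvd.intro M rfl))
            (fun r hr hrM => hk.1 r hr (hrM.trans (Dvd.intro_left p rfl))) g hgm _ hgd hD0 hgx hgy⟩⟩

end Exists

end Fermat.Agent.S28

end
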