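import Mathlib

/-!
# S28: abstract algebra for the tower argument
-/

set_option autoImplicit false

noncomputable section

namespace Fermat.Agent.S28

open Polynomial

section AdjStep

/-- `β` is linearly independent over `k[e0]`. -/
def IndepOver (k : Type) {E : Type} [Field k] [CommRing E] [Algebra k E] {ι : Type} [Fintype ι]
    (e0 : E) (β : ι → E) : Prop :=
  ∀ c : ι → k[X], ∑ i, aeval e0 (c i) * β i = 0 → ∀ i, c i = 0

/-- `β` spans `E` over `k(e0)`. -/
def SpanOver (k : Type) {E : Type} [Field k] [CommRing E] [Algebra k E] {ι : Type} [Fintype ι]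
    (e0 : E) (β : ι → E) : Prop :=
  ∀ z : E, ∃ d : k[X], d ≠ 0 ∧ ∃ c : ι → k[X], aeval e0 d * z = ∑ i, aeval e0 (c i) * β i

variable {k : Type} {E : Type} [Field k] [Field E] [Algebra k E] {ι : Type} [Fintype ι]

theorem aeval_of_adjoinRoot (g : E[X]) (e0 : E) (P : k[X]) :
    aeval (AdjoinRoot.of g e0) P = AdjoinRoot.of g (aeval e0 P) := by
  have := Polynomial.aeval_algHom_apply (AdjoinRoot.ofAlgHom k g) e0 P
  simpa using this

theorem sum_of_mul_root_pow_eq_mk (g : E[X]) (D : ℕ) (a : Fin D → E) :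
    ∑ r : Fin D, AdjoinRoot.of g (a r) * AdjoinRoot.root g ^ (r : ℕ) =
      AdjoinRoot.mk g (∑ r : Fin D, C (a r) * X ^ (r : ℕ)) := by
  rw [map_sum]
  refine Finset.sum_congr rfl fun r _ => ?_
  rw [map_mul, map_pow, AdjoinRoot.mk_C, AdjoinRoot.mk_X]

theorem natDegree_sum_C_mul_X_pow_lt (D : ℕ) (hD : 0 < D) (a : Fin D → E) :
    (∑ r : Fin D, C (a r) * X ^ (r : ℕ)).natDegree < D := by
  have : (∑ r : Fin D, C (a r) * X ^ (r : ℕ)).natDegree ≤ D - 1 := by
    refine Polynomial.natDegree_sum_le_of_forall_le _ _ fun r _ => ?_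
    refine (Polynomial.natDegree_C_mul_X_pow_le _ _).trans ?_
    have := r.2
    omega
  omega

theorem coeff_sum_C_mul_X_pow (D : ℕ) (a : Fin D → E) (r : Fin D) :
    (∑ r : Fin D, C (a r) * X ^ (r : ℕ)).coeff r = a r := by
  rw [Polynomial.finsetSum_coeff, Finset.sum_eq_single r]
  · simp
  · intro s _ hs
    rw [Polynomial.coeff_C_mul_X_pow, if_neg]
    exact fun h => hs (Fin.ext h.symm)
  · intro h; exact absurd (Finset.mem_univ r) h

theorem IndepOver.adjoinRoot {e0 : E} {β : ι → E} (h : IndepOver k e0 β) (g : E[X])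
    (hg : g.Monic) (D : ℕ) (hD : g.natDegree = D) (hD0 : 0 < D) :
    IndepOver k (AdjoinRoot.of g e0)
      (fun ir : ι × Fin D => AdjoinRoot.of g (β ir.1) * AdjoinRoot.root g ^ (ir.2 : ℕ)) := by
  intro c hc
  set a : Fin D → E := fun r => ∑ i, aeval e0 (c (i, r)) * β i with ha
  have h1 : ∑ r : Fin D, AdjoinRoot.of g (a r) * AdjoinRoot.root g ^ (r : ℕ) = 0 := by
    rw [← hc, Fintype.sum_prod_type, Finset.sum_comm]
    refine Finset.sum_congr rfl fun r _ => ?_
    rw [ha, map_sum, Finset.sum_mul]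
    refine Finset.sum_congr rfl fun i _ => ?_
    rw [map_mul, aeval_of_adjoinRoot, mul_assoc]
  rw [sum_of_mul_root_pow_eq_mk, AdjoinRoot.mk_eq_zero] at h1
  have h2 : (∑ r : Fin D, C (a r) * X ^ (r : ℕ)) = 0 :=
    Polynomial.eq_zero_of_dvd_of_natDegree_lt h1
      (by rw [hD]; exact natDegree_sum_C_mul_X_pow_lt D hD0 a)
  rintro ⟨i, r⟩
  have h3 : a r = 0 := by rw [← coeff_sum_C_mul_X_pow D a r, h2, Polynomial.coeff_zero]
  exact h (fun i => c (i, r)) h3 i

theorem SpanOver.adjoinRoot {e0 : E} {β : ι → E} (h : SpanOver k e0 β) (g : E[X])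
    (hg : g.Monic) (D : ℕ) (hD : g.natDegree = D) (hD0 : 0 < D) :
    SpanOver k (AdjoinRoot.of g e0)
      (fun ir : ι × Fin D => AdjoinRoot.of g (β ir.1) * AdjoinRoot.root g ^ (ir.2 : ℕ)) := by
  classical
  intro z
  obtain ⟨P, rfl⟩ := AdjoinRoot.mk_surjective z
  set Q := P %ₘ g with hQ
  have hPQ : AdjoinRoot.mk g P = AdjoinRoot.mk g Q := by
    rw [AdjoinRoot.mk_eq_mk, hQ]
    exact ⟨P /ₘ g, by rw [sub_eq_iff_eq_add, add_comm]; exact (Polynomial.modByMonic_add_div P g).symm⟩
  have hQdeg : Q.natDegree < D := by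
    rw [← hD]
    exact Polynomial.natDegree_modByMonic_lt P hg (by
      intro h1; rw [h1, Polynomial.natDegree_one] at hD; omega)
  have hQsum : Q = ∑ r : Fin D, C (Q.coeff r) * X ^ (r : ℕ) := by
    conv_lhs => rw [Polynomial.as_sum_range' Q D hQdeg]
    rw [Finset.sum_range]
    refine Finset.sum_congr rfl fun r _ => ?_
    rw [← Polynomial.C_mul_X_pow_eq_monomial]
  choose d hd0 c hc using fun r : Fin D => h (Q.coeff r)
  refine ⟨∏ r, d r, Finset.prod_ne_zero_iff.mpr fun r _ => hd0 r,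
    fun ir => (∏ s ∈ Finset.univ.erase ir.2, d s) * c ir.2 ir.1, ?_⟩
  rw [hPQ, hQsum, ← sum_of_mul_root_pow_eq_mk, Finset.mul_sum, Fintype.sum_prod_type,
    Finset.sum_comm]
  refine Finset.sum_congr rfl fun r _ => ?_
  have h1 : aeval e0 (∏ r, d r) * Q.coeff r =
      ∑ i, aeval e0 ((∏ s ∈ Finset.univ.erase r, d s) * c r i) * β i := by
    rw [← Finset.mul_prod_erase Finset.univ d (Finset.mem_univ r), map_mul,
      mul_comm (aeval e0 (d r)), mul_assoc, hc r, Finset.mul_sum]
    refine Finset.sum_congr rfl fun i _ => ?_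
    rw [map_mul, mul_assoc]
  rw [aeval_of_adjoinRoot, ← mul_assoc, ← map_mul, h1, map_sum, Finset.sum_mul]
  refine Finset.sum_congr rfl fun i _ => ?_
  rw [map_mul, aeval_of_adjoinRoot, mul_assoc]

end AdjStep

section Irred

variable {E L : Type} [Field E] [Field L] (ψ : E →+* L) (s : L →+* L)

theorem eval₂_iterate_eq_zero (hs : ∀ z, s (ψ z) = ψ z) (h : E[X]) (x : L)
    (hx : h.eval₂ ψ x = 0) (b : ℕ) : h.eval₂ ψ (s^[b] x) = 0 := by
  induction b with
  | zero => simpa using hx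
  | succ b ih =>
    rw [Function.iterate_succ_apply']
    have h1 : s (h.eval₂ ψ (s^[b] x)) = h.eval₂ (s.comp ψ) (s (s^[b] x)) :=
      Polynomial.hom_eval₂ h ψ s _
    have h2 : s.comp ψ = ψ := RingHom.ext hs
    rw [h2, ih, map_zero] at h1
    exact h1.symm

theorem le_natDegree_of_orbit (hs : ∀ z, s (ψ z) = ψ z) (h : E[X]) (h0 : h ≠ 0) (x : L)
    (hx : h.eval₂ ψ x = 0) (p : ℕ)
    (hinj : ∀ b < p, ∀ b' < p, s^[b] x = s^[b'] x → b = b') : p ≤ h.natDegree := by
  classical
  have hmap0 : h.map ψ ≠ 0 := (Polynomial.map_ne_zero_iff ψ.injective).mpr h0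
  set Z : Finset L := (Finset.range p).image (fun b => s^[b] x) with hZ
  have hcard : Z.card = p := by
    rw [hZ, Finset.card_image_of_injOn, Finset.card_range]
    intro b hb b' hb' hbb
    exact hinj b (Finset.mem_range.mp hb) b' (Finset.mem_range.mp hb') hbb
  have hsub : Z.val ⊆ (h.map ψ).roots := by
    intro r hr
    obtain ⟨b, -, rfl⟩ := Finset.mem_image.mp (Finset.mem_val.mp hr)
    rw [Polynomial.mem_roots hmap0, Polynomial.IsRoot.def, Polynomial.eval_map]
    exact eval₂_iterate_eq_zero ψ s hs h x hx b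
  have := Polynomial.card_le_degree_of_subset_roots hsub
  rwa [hcard, Polynomial.natDegree_map] at this

/-- irreducibility from an orbit of `p` distinct conjugate roots. -/
theorem irreducible_of_orbit (hs : ∀ z, s (ψ z) = ψ z) (g : E[X]) (hg : g.Monic) (x : L)
    (hx : g.eval₂ ψ x = 0) (p : ℕ) (hp : 1 ≤ p)
    (hinj : ∀ b < p, ∀ b' < p, s^[b] x = s^[b'] x → b = b')
    (hdeg : g.natDegree = p ∨ (g.natDegree = p + 1 ∧ ∀ w : E, g.eval w ≠ 0)) :
    Irreducible g := by
  rw [hg.irreducible_iff_natDegree]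
  refine ⟨?_, ?_⟩
  · rintro rfl
    rw [Polynomial.natDegree_one] at hdeg
    omega
  · have key : ∀ f h : E[X], f.Monic → h.Monic → f * h = g → f.eval₂ ψ x = 0 →
        h.natDegree = 0 := by
      intro f h hf hh hfh hfx
      have h1 : p ≤ f.natDegree := le_natDegree_of_orbit ψ s hs f hf.ne_zero x hfx p hinj
      have h2 : f.natDegree + h.natDegree = g.natDegree := by
        rw [← hfh, hf.natDegree_mul hh]
      rcases hdeg with hd | ⟨hd, hroot⟩
      · omega
      · by_contra h3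
        have h4 : h.natDegree = 1 := by omega
        have h5 : h = X + C (h.coeff 0) := hh.eq_X_add_C h4
        apply hroot (-(h.coeff 0))
        rw [← hfh, Polynomial.eval_mul]
        have : h.eval (-(h.coeff 0)) = 0 := by
          conv_lhs => rw [h5]
          simp
        rw [this, mul_zero]
    intro f h hf hh hfh
    have hx' : f.eval₂ ψ x * h.eval₂ ψ x = 0 := by rw [← Polynomial.eval₂_mul, hfh, hx]
    rcases mul_eq_zero.mp hx' with h1 | h1
    · exact Or.inr (key f h hf hh hfh h1)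
    · exact Or.inl (key h f hh hf (by rw [mul_comm, hfh]) h1)

end Irred

section CommonRoot

variable {E L L' : Type} [Field E] [Field L] [Field L']

/-- If `w` is the only common root of `f₁`, `f₂ ∈ E[X]` (tested in an extension `L'` in which
`f₁` splits with simple roots), then `w ∈ E`. -/
theorem mem_range_of_unique_common_root (ψ : E →+* L) (θ : L →+* L') (f₁ f₂ : E[X]) (w : L)
    (h1 : f₁.eval₂ ψ w = 0) (h2 : f₂.eval₂ ψ w = 0)
    (S : Finset L') (hS : f₁.map (θ.comp ψ) = ∏ r ∈ S, (X - C r))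
    (huniq : ∀ r ∈ S, (f₂.map (θ.comp ψ)).eval r = 0 → r = θ w) : w ∈ Set.range ψ := by
  classical
  letI : Algebra E L := ψ.toAlgebra
  have hprod0 : (∏ r ∈ S, (X - C r) : L'[X]) ≠ 0 :=
    Finset.prod_ne_zero_iff.mpr fun r _ => Polynomial.X_sub_C_ne_zero r
  have hf10 : f₁ ≠ 0 := by
    rintro rfl
    rw [Polynomial.map_zero] at hS
    exact hprod0 hS.symm
  have hint : IsIntegral E w := by
    rw [← isAlgebraic_iff_isIntegral]
    exact ⟨f₁, hf10, h1⟩
  set μ := minpoly E w with hμ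
  have hd1 : μ ∣ f₁ := minpoly.dvd E w h1
  have hd2 : μ ∣ f₂ := minpoly.dvd E w h2
  set μ' := μ.map (θ.comp ψ) with hμ'
  have hd1' : μ' ∣ ∏ r ∈ S, (X - C r) := by
    rw [← hS]; exact Polynomial.map_dvd _ hd1
  have hd2' : μ' ∣ f₂.map (θ.comp ψ) := Polynomial.map_dvd _ hd2
  have hsplit : μ'.Splits :=
    Polynomial.Splits.of_dvd (Polynomial.Splits.prod fun r _ => Polynomial.Splits.X_sub_C r)
      hprod0 hd1'
  have hroots_le : μ'.roots ≤ S.val := by
    have := Polynomial.roots.le_of_dvd hprod0 hd1'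
    rwa [Polynomial.roots_prod_X_sub_C] at this
  have hnodup : μ'.roots.Nodup := Multiset.nodup_of_le hroots_le S.nodup
  have hall : ∀ r ∈ μ'.roots, r = θ w := by
    intro r hr
    have hrS : r ∈ S := Finset.mem_val.mp (Multiset.mem_of_le hroots_le hr)
    refine huniq r hrS ?_
    have hr0 : μ'.eval r = 0 := (Polynomial.mem_roots'.mp hr).2
    obtain ⟨c, hc⟩ := hd2'
    rw [hc, Polynomial.eval_mul, hr0, zero_mul]
  have hcard : μ'.roots.card ≤ 1 := by
    have : μ'.roots ≤ {θ w} := by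
      rw [Multiset.le_iff_subset hnodup]
      intro r hr
      rw [Multiset.mem_singleton]
      exact hall r hr
    simpa using Multiset.card_le_card this
  have hdeg : μ.natDegree ≤ 1 := by
    rw [← Polynomial.natDegree_map (θ.comp ψ), ← hμ', hsplit.natDegree_eq_card_roots]
    exact hcard
  have hdeg' : μ.degree = 1 := by
    have hpos : 0 < μ.natDegree := minpoly.natDegree_pos hint
    have : μ.natDegree = 1 := by omega
    rw [Polynomial.degree_eq_natDegree (minpoly.ne_zero hint), this]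
    rfl
  obtain ⟨z, hz⟩ := minpoly.mem_range_of_degree_eq_one E w hdeg'
  exact ⟨z, hz⟩

/-- version with an injective family of roots. -/
theorem mem_range_of_unique_common_root' (ψ : E →+* L) (θ : L →+* L') (f₁ f₂ : E[X]) (w : L)
    (h1 : f₁.eval₂ ψ w = 0) (h2 : f₂.eval₂ ψ w = 0)
    {σ : Type} [Fintype σ] (r : σ → L') (hr : Function.Injective r)
    (hS : f₁.map (θ.comp ψ) = ∏ i, (X - C (r i)))
    (huniq : ∀ i, (f₂.map (θ.comp ψ)).eval (r i) = 0 → r i = θ w) : w ∈ Set.range ψ := by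
  classical
  refine mem_range_of_unique_common_root ψ θ f₁ f₂ w h1 h2 (Finset.univ.image r) ?_ ?_
  · rw [hS, Finset.prod_image (fun i _ j _ hij => hr hij)]
  · intro x hx
    obtain ⟨i, -, rfl⟩ := Finset.mem_image.mp hx
    exact huniq i

end CommonRoot

end Fermat.Agent.S28

end
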