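import Fermat.Agent.S28.Formal

/-!
# S28: the modular polynomial `Φ_p` extracted from `ModEq`, and its roots
-/

set_option autoImplicit false
set_option linter.style.haveILetI false

noncomputable section

namespace Fermat.Agent.S28

open ModularCurve Polynomial

section QE

variable {R : Type*} [CommRing R]

/-- `qExpand` without the `NeZero` instance (identity for `e = 0`), as an algebra hom. -/
def qE (e : ℕ) : LaurentSeries R →ₐ[R] LaurentSeries R :=
  if h : e = 0 then AlgHom.id R _ else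
    haveI : NeZero e := ⟨h⟩
    { qExpand R e with commutes' := fun a => qExpand_algebraMap e a }

theorem qE_apply (e : ℕ) [NeZero e] (x : LaurentSeries R) : qE e x = qExpand R e x := by
  rw [qE, dif_neg (NeZero.ne e)]
  rfl

theorem qE_qE {e f : ℕ} (he : e ≠ 0) (hf : f ≠ 0) (x : LaurentSeries R) :
    qE e (qE f x) = qE (e * f) x := by
  haveI : NeZero e := ⟨he⟩
  haveI : NeZero f := ⟨hf⟩
  haveI : NeZero (e * f) := ⟨mul_ne_zero he hf⟩
  rw [qE_apply, qE_apply, qE_apply, qExpand_qExpand]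

theorem qE_injective (e : ℕ) : Function.Injective (qE e : LaurentSeries R →ₐ[R] LaurentSeries R) := by
  by_cases h : e = 0
  · subst h
    rw [qE, dif_pos rfl]
    exact Function.injective_id
  · haveI : NeZero e := ⟨h⟩
    intro x y hxy
    rw [qE_apply, qE_apply] at hxy
    exact qExpand_injective e hxy

theorem qE_one (x : LaurentSeries R) : qE 1 x = x := by
  rw [qE_apply, qExpand_one_apply]

/-- `scale` as an algebra hom. -/
def scaleₐ (c : Rˣ) : LaurentSeries R →ₐ[R] LaurentSeries R :=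
  { scale c with commutes' := fun a => scale_algebraMap c a }

@[simp] theorem scaleₐ_apply (c : Rˣ) (x : LaurentSeries R) : scaleₐ c x = scale c x := rfl

/-- `j(c t^e)`. -/
def jce (R : Type*) [CommRing R] (c : Rˣ) (e : ℕ) : LaurentSeries R := qE e (scale c (jqModC R))

theorem jce_inj [Nontrivial R] {c c' : Rˣ} {e e' : ℕ} (he : e ≠ 0) (he' : e' ≠ 0)
    (h : jce R c e = jce R c' e') : e = e' ∧ c = c' := by
  haveI : NeZero e := ⟨he⟩
  haveI : NeZero e' := ⟨he'⟩
  rw [jce, jce, qE_apply, qE_apply] at h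
  exact qExpand_scale_jqModC_inj h

theorem jce_one_eq (e : ℕ) : jce R 1 e = qE e (jqModC R) := by
  rw [jce, scale_one_apply]

theorem qE_jce {e f : ℕ} (he : e ≠ 0) (hf : f ≠ 0) (c : Rˣ) : qE e (jce R c f) = jce R c (e * f) :=
  qE_qE he hf _

theorem scale_qE (c : Rˣ) (e : ℕ) (he : e ≠ 0) (x : LaurentSeries R) :
    scale c (qE e x) = qE e (scale (c ^ e) x) := by
  haveI : NeZero e := ⟨he⟩
  rw [qE_apply, qE_apply, scale_qExpand]

theorem scale_jce (d c : Rˣ) (e : ℕ) (he : e ≠ 0) : scale d (jce R c e) = jce R (d ^ e * c) e := by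
  rw [jce, scale_qE d e he, scale_scale, jce]

end QE

section PhiAt

variable {k : Type*} [Field k]

/-- specialisation `Y ↦ y` of a two-variable polynomial. -/
def PhiAt (Φ : k[X][X]) {A : Type*} [CommRing A] [Algebra k A] (y : A) : A[X] :=
  Φ.map (aeval y).toRingHom

theorem PhiAt_map (Φ : k[X][X]) {A B : Type*} [CommRing A] [Algebra k A] [CommRing B] [Algebra k B]
    (θ : A →ₐ[k] B) (y : A) : (PhiAt Φ y).map (θ : A →+* B) = PhiAt Φ (θ y) := by
  have h : (θ : A →+* B).comp (aeval y : k[X] →ₐ[k] A).toRingHom =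
      (aeval (θ y) : k[X] →ₐ[k] B).toRingHom := by
    refine Polynomial.ringHom_ext (fun a => ?_) ?_
    · simp
    · simp
  rw [PhiAt, PhiAt, Polynomial.map_map, h]

theorem PhiAt_eval₂ (Φ : k[X][X]) {A B : Type*} [CommRing A] [Algebra k A] [CommRing B]
    [Algebra k B] (θ : A →ₐ[k] B) (y : A) (x : B) :
    (PhiAt Φ y).eval₂ (θ : A →+* B) x = (PhiAt Φ (θ y)).eval x := by
  rw [← PhiAt_map, Polynomial.eval_map]

theorem PhiAt_eval_map (Φ : k[X][X]) {A B : Type*} [CommRing A] [Algebra k A] [CommRing B]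
    [Algebra k B] (θ : A →ₐ[k] B) (y x : A) :
    (PhiAt Φ (θ y)).eval (θ x) = θ ((PhiAt Φ y).eval x) := by
  rw [← PhiAt_map, Polynomial.eval_map]
  have := Polynomial.hom_eval₂ (PhiAt Φ y) (RingHom.id A) (θ : A →+* B) x
  rw [RingHom.comp_id, Polynomial.eval₂_id] at this
  exact this.symm

end PhiAt

section ModPoly

variable {k : Type*} [Field k] {p : ℕ} [NeZero p] {ζ : kˣ}

/-- `Φ` is "the" modular polynomial of level `p`. -/
def IsModPoly (k : Type*) [Field k] (p : ℕ) [NeZero p] (ζ : kˣ) (Φ : k[X][X]) : Prop :=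
  Φ.map (evJ k p) = ∏ α, (X - C (jConj k p ζ α))

theorem ModEq.exists_isModPoly (h : ModEq k p ζ) : ∃ Φ, IsModPoly k p ζ Φ := by
  obtain ⟨Φ, _, _, hΦ, _⟩ := h
  exact ⟨Φ, hΦ⟩

theorem jConj_none : jConj k p ζ none = jce k 1 (p ^ 2) := by
  rw [jce_one_eq, qE_apply]; rfl

theorem jConj_some (b : Fin p) : jConj k p ζ (some b) = jce k (ζ ^ (b : ℕ)) 1 := by
  rw [jce, qE_one]; rfl

theorem evJ_eq : evJ k p = (aeval (jce k 1 p) : k[X] →ₐ[k] LaurentSeries k).toRingHom := by
  rw [jce_one_eq, qE_apply]; rfl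

theorem evJ_injective : Function.Injective (evJ k p) := by
  have h := (leadsWith_jqModC k).qExpand p
  have hp : (0 : ℤ) < p := by exact_mod_cast Nat.pos_of_ne_zero (NeZero.ne p)
  exact aeval_injective_of_leadsWith h (by nlinarith)

variable {Φ : k[X][X]}

theorem IsModPoly.PhiAt_eq (h : IsModPoly k p ζ Φ) :
    PhiAt Φ (jce k 1 p) = ∏ α, (X - C (jConj k p ζ α)) := by
  rw [PhiAt, ← evJ_eq]; exact h

theorem IsModPoly.monic (h : IsModPoly k p ζ Φ) : Φ.Monic := by
  refine Polynomial.monic_of_injective (evJ_injective (k := k) (p := p)) ?_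
  rw [h]
  exact Polynomial.monic_prod_of_monic _ _ fun α _ => Polynomial.monic_X_sub_C _

theorem IsModPoly.natDegree (h : IsModPoly k p ζ Φ) : Φ.natDegree = p + 1 := by
  rw [← Polynomial.natDegree_map_eq_of_injective (evJ_injective (k := k) (p := p)), h,
    Polynomial.natDegree_prod_of_monic _ _ fun α _ => Polynomial.monic_X_sub_C _]
  simp

theorem IsModPoly.PhiAt_monic (h : IsModPoly k p ζ Φ) {A : Type*} [CommRing A] [Algebra k A]
    (y : A) : (PhiAt Φ y).Monic := h.monic.map _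

theorem IsModPoly.PhiAt_natDegree (h : IsModPoly k p ζ Φ) {A : Type*} [CommRing A] [Nontrivial A]
    [Algebra k A] (y : A) : (PhiAt Φ y).natDegree = p + 1 := by
  rw [PhiAt, h.monic.natDegree_map, h.natDegree]

/-- the roots of `Φ_p(X, j(c^p t^{e p}))`. -/
def rootFam (k : Type*) [Field k] (p : ℕ) (ζ : kˣ) (c : kˣ) (e : ℕ) : Option (Fin p) → LaurentSeries k
  | none => jce k (c ^ (p ^ 2)) (e * p ^ 2)
  | some b => jce k (c * ζ ^ (b : ℕ)) e

theorem IsModPoly.PhiAt_jce (h : IsModPoly k p ζ Φ) (c : kˣ) {e : ℕ} (he : e ≠ 0) :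
    PhiAt Φ (jce k (c ^ p) (e * p)) = ∏ α, (X - C (rootFam k p ζ c e α)) := by
  have hp : p ≠ 0 := NeZero.ne p
  set θ : LaurentSeries k →ₐ[k] LaurentSeries k := (qE e).comp (scaleₐ c) with hθ
  have h1 : ∀ (d : kˣ) (f : ℕ), f ≠ 0 → θ (jce k d f) = jce k (c ^ f * d) (e * f) := by
    intro d f hf
    rw [hθ, AlgHom.comp_apply, scaleₐ_apply, scale_jce c d f hf, qE_jce he hf]
  have h2 := congrArg (Polynomial.map (θ : LaurentSeries k →+* LaurentSeries k)) h.PhiAt_eq
  rw [PhiAt_map, h1 1 p hp, mul_one, Polynomial.map_prod] at h2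
  rw [h2]
  refine Finset.prod_congr rfl fun α _ => ?_
  rw [Polynomial.map_sub, Polynomial.map_X, Polynomial.map_C]
  congr 2
  cases α with
  | none =>
    rw [jConj_none]
    show θ _ = _
    rw [h1 1 _ (pow_ne_zero 2 hp), mul_one]; rfl
  | some b =>
    rw [jConj_some]
    show θ _ = _
    rw [h1 _ 1 one_ne_zero, pow_one, mul_one]; rfl

omit [NeZero p] in
theorem rootFam_injective (hζ : IsPrimitiveRoot ζ p) (hp : 2 ≤ p) (c : kˣ) {e : ℕ} (he : e ≠ 0) :
    Function.Injective (rootFam k p ζ c e) := by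
  have hp0 : p ≠ 0 := by omega
  have hne : e * p ^ 2 ≠ e := by
    intro h
    have : e * p ^ 2 = e * 1 := by rw [h, mul_one]
    have h2 := Nat.eq_of_mul_eq_mul_left (Nat.pos_of_ne_zero he) this
    have : 2 ^ 2 ≤ p ^ 2 := Nat.pow_le_pow_left hp 2
    omega
  intro α β hαβ
  cases α with
  | none =>
    cases β with
    | none => rfl
    | some b =>
      exact absurd (jce_inj (mul_ne_zero he (pow_ne_zero 2 hp0)) he hαβ).1 hne
  | some a =>
    cases β with
    | none =>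
      exact absurd (jce_inj he (mul_ne_zero he (pow_ne_zero 2 hp0)) hαβ).1.symm hne
    | some b =>
      have h1 := (jce_inj he he hαβ).2
      have h2 : ζ ^ (a : ℕ) = ζ ^ (b : ℕ) := mul_left_cancel h1
      have h3 := hζ.pow_inj a.2 b.2 h2
      exact congrArg some (Fin.ext h3)

/-- every root of `Φ_p(X, j(c^p t^{e p}))` is in the list. -/
theorem IsModPoly.eq_rootFam_of_eval_eq_zero (h : IsModPoly k p ζ Φ) (c : kˣ) {e : ℕ} (he : e ≠ 0)
    {x : LaurentSeries k} (hx : (PhiAt Φ (jce k (c ^ p) (e * p))).eval x = 0) :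
    ∃ α, x = rootFam k p ζ c e α := by
  rw [h.PhiAt_jce c he, Polynomial.eval_prod, Finset.prod_eq_zero_iff] at hx
  obtain ⟨α, -, hα⟩ := hx
  refine ⟨α, ?_⟩
  simpa [sub_eq_zero] using hα

theorem IsModPoly.eval_rootFam (h : IsModPoly k p ζ Φ) (c : kˣ) {e : ℕ} (he : e ≠ 0)
    (α : Option (Fin p)) : (PhiAt Φ (jce k (c ^ p) (e * p))).eval (rootFam k p ζ c e α) = 0 := by
  rw [h.PhiAt_jce c he, Polynomial.eval_prod]
  exact Finset.prod_eq_zero (Finset.mem_univ α) (by simp)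

/-- `Φ_p(j(t^e), j(t^{e p})) = 0`. -/
theorem IsModPoly.eval_down (h : IsModPoly k p ζ Φ) {e : ℕ} (he : e ≠ 0) :
    (PhiAt Φ (jce k 1 (e * p))).eval (jce k 1 e) = 0 := by
  have := h.eval_rootFam 1 he (some ⟨0, Nat.pos_of_ne_zero (NeZero.ne p)⟩)
  simpa [rootFam] using this

/-- `Φ_p(j(t^{e p²}), j(t^{e p})) = 0`. -/
theorem IsModPoly.eval_up' (h : IsModPoly k p ζ Φ) {e : ℕ} (he : e ≠ 0) :
    (PhiAt Φ (jce k 1 (e * p))).eval (jce k 1 (e * p ^ 2)) = 0 := by
  have := h.eval_rootFam 1 he none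
  simpa [rootFam] using this

/-- `Φ_p(j(t^{e p}), j(t^e)) = 0`. -/
theorem IsModPoly.eval_up (h : IsModPoly k p ζ Φ) {e : ℕ} (he : e ≠ 0) :
    (PhiAt Φ (jce k 1 e)).eval (jce k 1 (e * p)) = 0 := by
  have hp : p ≠ 0 := NeZero.ne p
  have h1 := h.eval_up' he
  have e1 : jce k 1 (e * p) = qE p (jce k 1 e) := by rw [qE_jce hp he, mul_comm]
  have e2 : jce k 1 (e * p ^ 2) = qE p (jce k 1 (e * p)) := by
    rw [qE_jce hp (mul_ne_zero he hp)]; congr 1; ring
  rw [e2, e1, PhiAt_eval_map, ← e1] at h1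
  exact (map_eq_zero_iff _ (qE_injective p)).mp h1

end ModPoly

end Fermat.Agent.S28

end
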