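import Fermat.Agent.S28.TowerAlg
import Fermat.Agent.S28.TowerPhi

/-!
# S28: `j(q^d) ∈ k(j, j(q^N))` for `d ∣ N` (the "gcd trick")
-/

set_option autoImplicit false
set_option linter.style.haveILetI false

noncomputable section

namespace Fermat.Agent.S28

open ModularCurve Polynomial

/-- existence of a modular polynomial of level `p` over `k`. -/
def HasModPoly (k : Type) [Field k] (p : ℕ) : Prop :=
  ∃ (_ : NeZero p) (ζ : kˣ) (Φ : k[X][X]), IsPrimitiveRoot ζ p ∧ IsModPoly k p ζ Φ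

variable {k E : Type} [Field k] [Field E] [Algebra k E]

theorem gcd_trick (ψ : E →ₐ[k] LaurentSeries k) {p r : ℕ} [NeZero p] [NeZero r] (hp : 2 ≤ p)
    {ζp ζr : kˣ} (hζp : IsPrimitiveRoot ζp p) {Φp Φr : k[X][X]}
    (hΦp : IsModPoly k p ζp Φp) (hΦr : IsModPoly k r ζr Φr) {d : ℕ} (hd : d ≠ 0)
    (h1 : jce k 1 d ∈ Set.range ψ) (h2 : jce k 1 (d * p * r) ∈ Set.range ψ) :
    jce k 1 (d * p) ∈ Set.range ψ := by
  obtain ⟨a₁, ha₁⟩ := h1
  obtain ⟨a₂, ha₂⟩ := h2
  have hp0 : p ≠ 0 := NeZero.ne p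
  have hr0 : r ≠ 0 := NeZero.ne r
  have hcomp : (((qE p).comp ψ : E →ₐ[k] LaurentSeries k) : E →+* LaurentSeries k) =
      ((qE p : LaurentSeries k →ₐ[k] LaurentSeries k) : LaurentSeries k →+* LaurentSeries k).comp
        (ψ : E →+* LaurentSeries k) := rfl
  have hw : (qE p : LaurentSeries k →ₐ[k] LaurentSeries k) (jce k 1 (d * p)) =
      rootFam k p ζp 1 d none := by
    rw [qE_jce hp0 (mul_ne_zero hd hp0), rootFam, one_pow]
    congr 1; ring
  have key := mem_range_of_unique_common_root' (ψ : E →+* LaurentSeries k)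
    ((qE p : LaurentSeries k →ₐ[k] LaurentSeries k) : LaurentSeries k →+* LaurentSeries k)
    (PhiAt Φp a₁) (PhiAt Φr a₂) (jce k 1 (d * p)) ?_ ?_ (rootFam k p ζp 1 d)
    (rootFam_injective hζp hp 1 hd) ?_ ?_
  · exact key
  · rw [PhiAt_eval₂, ha₁]
    exact hΦp.eval_up hd
  · rw [PhiAt_eval₂, ha₂]
    exact hΦr.eval_down (mul_ne_zero hd hp0)
  · rw [← hcomp, PhiAt_map, AlgHom.comp_apply, ha₁, qE_jce hp0 hd, mul_comm p d]
    have := hΦp.PhiAt_jce 1 hd
    rwa [one_pow] at this
  · intro α hα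
    cases α with
    | none => exact hw.symm
    | some a =>
      exfalso
      rw [← hcomp, PhiAt_map, AlgHom.comp_apply, ha₂, qE_jce hp0 (mul_ne_zero (mul_ne_zero hd hp0) hr0)]
        at hα
      have e1 : jce k 1 (p * (d * p * r)) = jce k (1 ^ r) ((d * p * p) * r) := by
        rw [one_pow]; congr 1; ring
      rw [e1] at hα
      have hdpp : d * p * p ≠ 0 := mul_ne_zero (mul_ne_zero hd hp0) hp0
      obtain ⟨β, hβ⟩ := hΦr.eq_rootFam_of_eval_eq_zero 1 hdpp hα
      have hlt : d < d * p * p := by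
        have : d * 1 < d * (p * p) := by
          apply Nat.mul_lt_mul_of_pos_left _ (Nat.pos_of_ne_zero hd)
          nlinarith
        rw [mul_one, ← mul_assoc] at this
        exact this
      cases β with
      | none =>
        have h3 := (jce_inj hd (mul_ne_zero hdpp (pow_ne_zero 2 hr0)) hβ).1
        have h4 : d * p * p ≤ d * p * p * r ^ 2 :=
          Nat.le_mul_of_pos_right _ (Nat.pos_of_ne_zero (pow_ne_zero 2 hr0))
        omega
      | some b =>
        have h3 := (jce_inj hd hdpp hβ).1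
        omega

theorem full_step (ψ : E →ₐ[k] LaurentSeries k) {M p : ℕ} (hM : M ≠ 0) (hp : p.Prime)
    (hmp : HasModPoly k p) (hmod : ∀ r : ℕ, r.Prime → r ∣ M → HasModPoly k r)
    (h1 : ∀ m, m ∣ M → jce k 1 m ∈ Set.range ψ) (h2 : jce k 1 (p * M) ∈ Set.range ψ) :
    ∀ m, m ∣ p * M → jce k 1 m ∈ Set.range ψ := by
  obtain ⟨_, ζp, Φp, hζp, hΦp⟩ := hmp
  have claim : ∀ c d : ℕ, d * c = M → jce k 1 (d * p) ∈ Set.range ψ := by
    intro c
    induction c using Nat.strong_induction_on with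
    | _ c ih =>
      intro d hdc
      by_cases hc1 : c = 1
      · subst hc1
        rw [mul_one] at hdc
        rw [hdc, mul_comm]
        exact h2
      · have hr : c.minFac.Prime := Nat.minFac_prime hc1
        obtain ⟨c', hc'⟩ := Nat.minFac_dvd c
        have hc0 : c ≠ 0 := by rintro rfl; exact hM (by rw [← hdc, mul_zero])
        have hd0 : d ≠ 0 := by rintro rfl; exact hM (by rw [← hdc, zero_mul])
        have hc'0 : c' ≠ 0 := by rintro rfl; exact hc0 (by rw [hc', mul_zero])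
        have hlt : c' < c := by
          have h2 := hr.two_le
          calc c' = 1 * c' := (one_mul _).symm
            _ < c.minFac * c' := Nat.mul_lt_mul_of_pos_right (by omega) (Nat.pos_of_ne_zero hc'0)
            _ = c := hc'.symm
        have hrM : c.minFac ∣ M := (Nat.minFac_dvd c).trans ⟨d, by rw [← hdc, mul_comm]⟩
        obtain ⟨_, ζr, Φr, -, hΦr⟩ := hmod _ hr hrM
        have h3 := ih c' hlt (d * c.minFac) (by rw [mul_assoc, ← hc', hdc])
        refine gcd_trick ψ hp.two_le hζp hΦp hΦr hd0 (h1 d ⟨c, hdc.symm⟩) ?_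
        have e : d * p * c.minFac = d * c.minFac * p := by ring
        rw [e]
        exact h3
  intro m hm
  obtain ⟨a, b, ha, hb, rfl⟩ := (Nat.dvd_mul).mp hm
  rcases (Nat.dvd_prime hp).mp ha with rfl | rfl
  · rw [one_mul]; exact h1 b hb
  · obtain ⟨c, hc⟩ := hb
    rw [mul_comm]
    exact claim c b hc.symm

end Fermat.Agent.S28

end
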